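import Mathlib

/-! # S24 / Mod / M-Deg : abstract field theory lemmas used in `Degree.lean` -/

set_option autoImplicit false

open IntermediateField

noncomputable section

namespace Fermat.Agent.S24


open Polynomial in
theorem exists_monic_aux {K F : Type*} [Field K] [Field F] [Algebra K F] (J x : F) (n D : ℕ)
    (c' : ℕ × ℕ → K) (hc'1 : c' (n, 0) = 1) (hc'0 : ∀ a, a ≠ 0 → c' (n, a) = 0)
    (hc' : ∑ i ∈ Finset.range (n + 1) ×ˢ Finset.range (D + 1),
      algebraMap K F (c' i) * (J ^ i.2 * x ^ i.1) = 0) :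
    ∃ P : Polynomial K⟮J⟯, P.Monic ∧ P.natDegree = n ∧ Polynomial.aeval x P = 0 := by
  let g : K⟮J⟯ := AdjoinSimple.gen K J
  let e : ℕ → K⟮J⟯ := fun k => ∑ a ∈ Finset.range (D + 1), algebraMap K K⟮J⟯ (c' (k, a)) * g ^ a
  let P : Polynomial K⟮J⟯ := ∑ k ∈ Finset.range (n + 1), C (e k) * X ^ k
  have hen : e n = 1 := by
    show ∑ a ∈ Finset.range (D + 1), algebraMap K K⟮J⟯ (c' (n, a)) * g ^ a = 1
    rw [Finset.sum_eq_single 0]
    · simp [hc'1]
    · intro a _ ha
      rw [hc'0 a ha, map_zero, zero_mul]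
    · simp
  have hPdeg : P.natDegree ≤ n := by
    apply natDegree_sum_le_of_forall_le
    intro k hk
    exact (natDegree_C_mul_X_pow_le _ _).trans (Nat.lt_succ_iff.mp (Finset.mem_range.mp hk))
  have hPn : P.coeff n = 1 := by
    show (∑ k ∈ Finset.range (n + 1), C (e k) * X ^ k).coeff n = 1
    rw [finsetSum_coeff]
    simp only [coeff_C_mul_X_pow]
    rw [Finset.sum_eq_single n]
    · simp [hen]
    · intro k _ hk
      rw [if_neg (Ne.symm hk)]
    · simp
  refine ⟨P, monic_of_natDegree_le_of_coeff_eq_one n hPdeg hPn,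
    natDegree_eq_of_le_of_coeff_ne_zero hPdeg (by rw [hPn]; exact one_ne_zero), ?_⟩
  show aeval x (∑ k ∈ Finset.range (n + 1), C (e k) * X ^ k) = 0
  rw [map_sum, ← hc', Finset.sum_product]
  refine Finset.sum_congr rfl fun k _ => ?_
  rw [map_mul, map_pow, aeval_X, aeval_C]
  show algebraMap K⟮J⟯ F
    (∑ a ∈ Finset.range (D + 1), algebraMap K K⟮J⟯ (c' (k, a)) * g ^ a) * x ^ k = _
  rw [map_sum, Finset.sum_mul]
  refine Finset.sum_congr rfl fun a _ => ?_
  rw [map_mul, map_pow, ← IsScalarTower.algebraMap_apply, AdjoinSimple.algebraMap_gen]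
  ring



section Aux

variable {k F : Type*} [Field k] [Field F] [Algebra k F]

theorem adjoin_adjoinSimple_eq_top (J : F) (S : Set F) (htop : adjoin k S = ⊤) :
    adjoin k⟮J⟯ S = ⊤ := by
  apply restrictScalars_injective k
  rw [restrictScalars_adjoin_eq_sup, htop, restrictScalars_top]
  simp

theorem finiteDimensional_of_adjoin (J : F) (S : Set F) [Finite S]
    (hint : ∀ y ∈ S, IsIntegral k⟮J⟯ y) (htop : adjoin k S = ⊤) : FiniteDimensional k⟮J⟯ F := by
  have h1 : FiniteDimensional k⟮J⟯ (adjoin k⟮J⟯ S) := finiteDimensional_adjoin hint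
  rw [adjoin_adjoinSimple_eq_top J S htop] at h1
  exact (IntermediateField.topEquiv (F := k⟮J⟯) (E := F)).toLinearEquiv.finiteDimensional

/-- clearing denominators. -/
theorem exists_denominator (J : F) (S : Set F) (Hol : Subalgebra k F) (hJ : J ∈ Hol)
    (hS : S ⊆ Hol) (halg : ∀ y ∈ S, IsAlgebraic k⟮J⟯ y) (htop : adjoin k S = ⊤) (y : F) :
    ∃ b : k⟮J⟯, b ≠ 0 ∧ algebraMap k⟮J⟯ F b * y ∈ Hol := by
  let T : Subalgebra k⟮J⟯ F :=
    { carrier := {y | ∃ b : k⟮J⟯, b ≠ 0 ∧ algebraMap k⟮J⟯ F b ∈ Hol ∧ algebraMap k⟮J⟯ F b * y ∈ Hol}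
      mul_mem' := by
        rintro y₁ y₂ ⟨b₁, h₁, h₁', h₁''⟩ ⟨b₂, h₂, h₂', h₂''⟩
        refine ⟨b₁ * b₂, mul_ne_zero h₁ h₂, ?_, ?_⟩
        · rw [map_mul]; exact mul_mem h₁' h₂'
        · rw [map_mul]
          have := mul_mem h₁'' h₂''
          convert this using 1
          ring
      add_mem' := by
        rintro y₁ y₂ ⟨b₁, h₁, h₁', h₁''⟩ ⟨b₂, h₂, h₂', h₂''⟩
        refine ⟨b₁ * b₂, mul_ne_zero h₁ h₂, ?_, ?_⟩
        · rw [map_mul]; exact mul_mem h₁' h₂'
        · rw [map_mul]
          have := add_mem (mul_mem h₂' h₁'') (mul_mem h₁' h₂'')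
          convert this using 1
          ring
      algebraMap_mem' := by
        intro z
        obtain ⟨r, s, hrs⟩ := (mem_adjoin_simple_iff k (z : F)).mp z.2
        have haeval : ∀ q : Polynomial k, Polynomial.aeval J q ∈ Hol := by
          intro q
          have h := Polynomial.aeval_algHom_apply Hol.val ⟨J, hJ⟩ q
          have h' : Hol.val ⟨J, hJ⟩ = J := rfl
          rw [h'] at h
          rw [h]
          exact (Polynomial.aeval (⟨J, hJ⟩ : Hol) q).2
        have hgen : ∀ q : Polynomial k, algebraMap k⟮J⟯ F (Polynomial.aeval (AdjoinSimple.gen k J) q)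
            = Polynomial.aeval J q := by
          intro q
          rw [← Polynomial.aeval_algebraMap_apply, AdjoinSimple.algebraMap_gen]
        by_cases hs : Polynomial.aeval J s = 0
        · refine ⟨1, one_ne_zero, by rw [map_one]; exact one_mem _, ?_⟩
          have hz : algebraMap k⟮J⟯ F z = 0 := by
            show (z : F) = 0
            rw [hrs, hs, div_zero]
          rw [hz, mul_zero]
          exact zero_mem _
        · refine ⟨Polynomial.aeval (AdjoinSimple.gen k J) s, ?_, ?_, ?_⟩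
          · intro h0
            apply hs
            rw [← hgen, h0, map_zero]
          · rw [hgen]; exact haeval s
          · rw [hgen]
            have hz : algebraMap k⟮J⟯ F z = Polynomial.aeval J r / Polynomial.aeval J s := hrs
            rw [hz, mul_div_cancel₀ _ hs]
            exact haeval r }
  have hST : S ⊆ T := fun y hy =>
    ⟨1, one_ne_zero, by rw [map_one]; exact one_mem _, by rw [map_one, one_mul]; exact hS hy⟩
  have h1 : Algebra.adjoin k⟮J⟯ S ≤ T := Algebra.adjoin_le hST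
  have h2 : (adjoin k⟮J⟯ S).toSubalgebra = Algebra.adjoin k⟮J⟯ S :=
    adjoin_toSubalgebra_of_isAlgebraic halg
  rw [adjoin_adjoinSimple_eq_top J S htop] at h2
  have h3 : y ∈ T := h1 (h2 ▸ (by trivial : y ∈ (⊤ : IntermediateField k⟮J⟯ F).toSubalgebra))
  obtain ⟨b, hb, -, hb'⟩ := h3
  exact ⟨b, hb, hb'⟩

end Aux

section Aux2

variable {K F : Type*} [Field K] [Field F] [Algebra K F]

theorem finrank_le_of_forall_exists_monic [FiniteDimensional K F] [Algebra.IsSeparable K F] (n : ℕ)
    (Hol : F → Prop) (h1 : ∀ y, ∃ b : K, b ≠ 0 ∧ Hol (algebraMap K F b * y))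
    (h2 : ∀ a, Hol a → ∃ P : Polynomial K, P.Monic ∧ P.natDegree = n ∧ Polynomial.aeval a P = 0) :
    Module.finrank K F ≤ n := by
  obtain ⟨α, hα⟩ := Field.exists_primitive_element K F
  obtain ⟨b, hb, hba⟩ := h1 α
  obtain ⟨P, hP, hPn, hPa⟩ := h2 _ hba
  set a := algebraMap K F b * α with ha
  have htop : K⟮a⟯ = ⊤ := by
    rw [eq_top_iff, ← hα, adjoin_simple_le_iff]
    have : α = algebraMap K F b⁻¹ * a := by
      rw [ha, ← mul_assoc, ← map_mul, inv_mul_cancel₀ hb, map_one, one_mul]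
    rw [this]
    exact mul_mem (IntermediateField.algebraMap_mem _ _) (mem_adjoin_simple_self K a)
  have hint : IsIntegral K a := Algebra.IsIntegral.isIntegral a
  rw [← IntermediateField.finrank_top', ← htop, adjoin.finrank hint, ← hPn]
  exact Polynomial.natDegree_le_of_dvd (minpoly.dvd K a hPa) hP.ne_zero

theorem finrank_le_of_forall_exists_monic' {k : Type*} [Field k] [CharZero k] [Algebra k K]
    [FiniteDimensional K F] (n : ℕ)
    (Hol : F → Prop) (h1 : ∀ y, ∃ b : K, b ≠ 0 ∧ Hol (algebraMap K F b * y))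
    (h2 : ∀ a, Hol a → ∃ P : Polynomial K, P.Monic ∧ P.natDegree = n ∧ Polynomial.aeval a P = 0) :
    Module.finrank K F ≤ n := by
  have : CharZero K := charZero_of_injective_algebraMap (algebraMap k K).injective
  exact finrank_le_of_forall_exists_monic n Hol h1 h2

end Aux2

section Aux3

variable {k F L : Type*} [Field k] [Field F] [Field L] [Algebra k F] [Algebra k L]

theorem card_le_finrank_of_embeddings (J : F) [FiniteDimensional k⟮J⟯ F] {I : Type*} [Finite I]
    (φ : I → F →ₐ[k] L) (hinj : Function.Injective φ) (hJ : ∀ i j, φ i J = φ j J) :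
    Nat.card I ≤ Module.finrank k⟮J⟯ F := by
  rcases isEmpty_or_nonempty I with hI | ⟨⟨i₀⟩⟩
  · simp
  let _ : Algebra k⟮J⟯ L := ((φ i₀).comp (k⟮J⟯).val).toRingHom.toAlgebra
  have hcomm : ∀ i (b : k⟮J⟯), φ i (algebraMap k⟮J⟯ F b) = algebraMap k⟮J⟯ L b := by
    intro i b
    have : (φ i).comp (k⟮J⟯).val = (φ i₀).comp (k⟮J⟯).val := by
      apply adjoin_algHom_ext
      intro x hx
      rw [Set.mem_singleton_iff] at hx
      subst hx
      exact hJ i i₀
    exact DFunLike.congr_fun this b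
  let ψ : I → F →ₐ[k⟮J⟯] L := fun i => { (φ i).toRingHom with commutes' := hcomm i }
  have hψ : Function.Injective ψ := by
    intro i j hij
    apply hinj
    ext x
    exact DFunLike.congr_fun hij x
  exact (Nat.card_le_card_of_injective ψ hψ).trans (card_algHom_le_finrank k⟮J⟯ F L)

end Aux3

end Fermat.Agent.S24
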