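import Fermat.Agent.S24.Mod.JBasic

/-! # S24 / Mod / package M-Inv : `SL(2,ℤ)`-invariant elements of `MerInf N` are polynomials in `j`.

If `f` is invariant and `Δ^m f` is bounded at `i∞` then `g = Δ^m f` is a `ModularForm 𝒮ℒ (12 m)`.
Induction on `m`: `g - g(∞) E₄^(3m)` is a cusp form `= Δ g₁` (`CuspForm.discriminantEquiv`,
`IsCuspForm`...), `g₁ ∈ M_{12(m-1)}`; `m = 0`: constants (`levelOne_weight_zero_const`). -/

set_option autoImplicit false

open UpperHalfPlane ModularForm Function Filter Topology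
open scoped Manifold MatrixGroups

noncomputable section

namespace Fermat.Agent.S24

local notation "Δ" => ModularForm.discriminant

/-- every level one modular form of weight `12 m` is `Δ^m * p(j)`. -/
theorem exists_polynomial_of_modularForm (m : ℕ) (g : ModularForm 𝒮ℒ (12 * (m : ℤ))) :
    ∃ p : Polynomial ℂ, ∀ τ : ℍ, g τ = Δ τ ^ m * p.eval (jFun τ) := by
  induction m with
  | zero =>
    obtain ⟨c, hc⟩ := ModularFormClass.levelOne_weight_zero_const
      (ModularForm.mcast (by simp : (12 * ((0 : ℕ) : ℤ)) = 0) g)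
    refine ⟨Polynomial.C c, fun τ => ?_⟩
    have := congrFun hc τ
    simpa using this
  | succ m ih =>
    -- `G = E₄^(3(m+1))`
    set G : ModularForm 𝒮ℒ (12 * ((m + 1 : ℕ) : ℤ)) :=
      ModularForm.mcast (by push_cast; ring) (E₄.pow (3 * (m + 1))) with hG
    have hG0 : (qExpansion 1 G).coeff 0 = 1 := by
      have h1 : (G : ℍ → ℂ) = ⇑(E₄.pow (3 * (m + 1))) := rfl
      rw [h1, ModularForm.qExpansion_pow one_pos one_mem_strictPeriods_SL]
      rw [PowerSeries.coeff_zero_eq_constantCoeff, map_pow,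
        ← PowerSeries.coeff_zero_eq_constantCoeff,
        EisensteinSeries.E_qExpansion_coeff_zero (by norm_num) ⟨2, rfl⟩, one_pow]
    set c := (qExpansion 1 g).coeff 0 with hc
    obtain ⟨h, hh⟩ := ModularForm.sub_smul_isCuspForm g G hG0
    set g₁ : ModularForm 𝒮ℒ (12 * (m : ℤ)) :=
      ModularForm.mcast (by push_cast; ring) (CuspForm.discriminantEquiv h) with hg₁
    obtain ⟨p₁, hp₁⟩ := ih g₁
    refine ⟨Polynomial.C c * Polynomial.X ^ (m + 1) + p₁, fun τ => ?_⟩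
    have h1 : h τ = g τ - c * G τ := by
      have := congrArg (fun F : ModularForm 𝒮ℒ (12 * ((m + 1 : ℕ) : ℤ)) => F τ) hh
      exact this
    have h2 : Δ τ * g₁ τ = h τ := ModularForm.discriminant_mul_discriminantEquiv_apply h τ
    have h3 : G τ = (E₄ τ) ^ (3 * (m + 1)) := by
      show (E₄.pow (3 * (m + 1))) τ = _
      rw [ModularForm.coe_pow]; rfl
    have h4 : (E₄ τ) ^ (3 * (m + 1)) = Δ τ ^ (m + 1) * jFun τ ^ (m + 1) := by
      rw [pow_mul, ← discriminant_mul_jFun, mul_pow]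
    simp only [Polynomial.eval_add, Polynomial.eval_mul, Polynomial.eval_C, Polynomial.eval_pow,
      Polynomial.eval_X]
    have h5 : g τ = c * G τ + Δ τ * g₁ τ := by rw [h2, h1]; ring
    rw [h5, h3, h4, hp₁ τ]
    ring

/-- auxiliary: slash invariance of `Δ^m f` for invariant `f`. -/
theorem inv_slash_eq (m : ℕ) (f : ℍ → ℂ) (hinv : ∀ (γ : SL(2, ℤ)) (τ : ℍ), f (γ • τ) = f τ)
    (γ : SL(2, ℤ)) :
    (fun τ => Δ τ ^ m * f τ) ∣[(12 * (m : ℤ))] γ = fun τ => Δ τ ^ m * f τ := by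
  have hγ : (γ : GL (Fin 2) ℝ) ∈ 𝒮ℒ := ⟨γ, rfl⟩
  set D : ModularForm 𝒮ℒ ((m : ℤ) * 12) :=
    (CuspForm.toModularFormₗ (CuspForm.discriminant)).pow m with hD
  have hDcoe : (D : ℍ → ℂ) = fun τ => Δ τ ^ m := by
    rw [hD, ModularForm.coe_pow]; rfl
  have h0 : f ∣[(0 : ℤ)] γ = f := by
    funext τ
    rw [ModularForm.SL_slash_apply]
    simp only [neg_zero, zpow_zero, mul_one]
    exact hinv γ τ
  have h1 : (fun τ => Δ τ ^ m * f τ) = (D : ℍ → ℂ) * f := by
    rw [hDcoe]; rfl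
  have h2 : (12 * (m : ℤ)) = (m : ℤ) * 12 + 0 := by ring
  rw [h1, h2, ModularForm.mul_slash_SL2, h0]
  congr 1
  exact SlashInvariantFormClass.slash_action_eq D _ hγ

theorem exists_polynomial_of_invariant (N : ℕ) [NeZero N] (f : ℍ → ℂ) (hf : f ∈ MerInf N)
    (hinv : ∀ (γ : SL(2, ℤ)) (τ : ℍ), f (γ • τ) = f τ) :
    ∃ p : Polynomial ℂ, ∀ τ : ℍ, f τ = p.eval (jFun τ) := by
  obtain ⟨m, hm⟩ := hf
  let g : ModularForm 𝒮ℒ (12 * (m : ℤ)) :=
    { toFun := fun τ => Δ τ ^ m * f τ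
      slash_action_eq' := fun _ ⟨γ, hγ⟩ ↦ hγ ▸ inv_slash_eq m f hinv γ
      holo' := hm.holo
      bdd_at_cusps' := fun {c} hc => by
        rw [Subgroup.IsArithmetic.isCusp_iff_isCusp_SL2Z] at hc
        rw [OnePoint.isBoundedAt_iff_forall_SL2Z hc]
        intro γ _
        rw [inv_slash_eq m f hinv γ]
        exact hm.bdd }
  obtain ⟨p, hp⟩ := exists_polynomial_of_modularForm m g
  refine ⟨p, fun τ => ?_⟩
  have h := hp τ
  have h' : Δ τ ^ m * f τ = Δ τ ^ m * p.eval (jFun τ) := h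
  exact mul_left_cancel₀ (pow_ne_zero m (discriminant_ne_zero τ)) h'

end Fermat.Agent.S24
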