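import Fermat.Agent.S24.Mod.Psi
import Fermat.Agent.S24.Mod.Invariants
import Fermat.Agent.S24.Mod.DegreeAux
import Fermat.Agent.S24.FF.Transc

/-! # S24 / Mod / package M-Deg : `[FN N : ℚ̄(j)] = [SL(2,ℤ) : Γ₀(N)]`. -/

set_option autoImplicit false

open UpperHalfPlane ModularForm Function ModularCurve IntermediateField
open scoped Manifold MatrixGroups

noncomputable section

namespace Fermat.Agent.S24


instance instFiniteCos (N : ℕ) [NeZero N] : Finite (Cos N) :=
  Subgroup.finite_quotient_of_finiteIndex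

theorem coeff_JJ_neg_one (N : ℕ) : ((JJ N : FN N) : LaurentSeries Kb).coeff (-1) = 1 := by
  show (coeffEmb Kb (qExpand ℚ 1 jq)).coeff (-1) = 1
  rw [qExpand_one_apply, coeffEmb_coeff, coeff_jq_neg_one, map_one]

theorem transcendental_JJ (N : ℕ) : Transcendental Kb (JJ N) := by
  apply FF.transcendental_of_not_mem_range
  rintro ⟨a, ha⟩
  have h1 := coeff_JJ_neg_one N
  rw [← ha] at h1
  have h2 : ((algebraMap Kb (FN N) a : FN N) : LaurentSeries Kb)
      = algebraMap Kb (LaurentSeries Kb) a := rfl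
  rw [h2, algebraMap_laurentSeries_eq_single, HahnSeries.coeff_single_of_ne (by norm_num)] at h1
  exact zero_ne_one h1

theorem exists_Kb_relation {N : ℕ} [NeZero N] {ι' : Type*} (s : Finset ι') (x : ι' → FN N)
    (c : ι' → ℂ) (i₀ : ι') (_hi₀ : i₀ ∈ s) (hc : c i₀ = 1)
    (hrel : ∑ i ∈ s, HahnSeries.C (c i) * kap N (x i) = 0) :
    ∃ c' : ι' → Kb, c' i₀ = 1 ∧ (∀ i, c i = 0 → c' i = 0) ∧
      ∑ i ∈ s, algebraMap Kb (FN N) (c' i) * x i = 0 := by
  obtain ⟨lam, hlam⟩ := LinearMap.exists_leftInverse_of_injective (Algebra.linearMap Kb ℂ)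
    (LinearMap.ker_eq_bot.mpr (algebraMap Kb ℂ).injective)
  have hlam1 : lam 1 = 1 := by
    have := LinearMap.congr_fun hlam 1
    simpa using this
  refine ⟨fun i => lam (c i), by simp [hc, hlam1], fun i hi => by simp [hi], ?_⟩
  apply Subtype.ext
  ext k
  have h1 := congrArg (fun y : LaurentSeries ℂ => y.coeff ((N : ℤ) * k)) hrel
  simp only [HahnSeries.coeff_sum, HahnSeries.coeff_zero] at h1
  have h2 : ∀ i, (HahnSeries.C (c i) * kap N (x i)).coeff ((N : ℤ) * k)
      = ((x i : FN N) : LaurentSeries Kb).coeff k • c i := by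
    intro i
    rw [HahnSeries.C_mul_eq_smul, HahnSeries.coeff_smul, kap_apply, qExpand_coeff_mul,
      coeffMap_coeff, smul_eq_mul, Algebra.smul_def, mul_comm]
    rfl
  simp only [h2] at h1
  have h3 := congrArg lam h1
  rw [map_sum, map_zero] at h3
  simp only [map_smul, smul_eq_mul] at h3
  have h4 : ((∑ i ∈ s, algebraMap Kb (FN N) (lam (c i)) * x i : FN N) : LaurentSeries Kb)
      = ∑ i ∈ s, algebraMap Kb (LaurentSeries Kb) (lam (c i)) * ((x i : FN N) : LaurentSeries Kb) := by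
    rw [AddSubmonoidClass.coe_finsetSum]
    rfl
  rw [h4, HahnSeries.coeff_sum]
  have h5 : ∀ i, (algebraMap Kb (LaurentSeries Kb) (lam (c i)) *
      ((x i : FN N) : LaurentSeries Kb)).coeff k = ((x i : FN N) : LaurentSeries Kb).coeff k * lam (c i) := by
    intro i
    rw [algebraMap_laurentSeries_eq_single, HahnSeries.coeff_single_mul, sub_zero, mul_comm]
  simp only [h5, h3]
  rfl



theorem LamM_algebraMap (N : ℕ) [NeZero N] (c : ℂ) :
    LamM N (algebraMap ℂ (MerMod N) c) = HahnSeries.C c := by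
  have hN : (0 : ℝ) < N := by exact_mod_cast Nat.pos_of_ne_zero (NeZero.ne N)
  have h1 : LamM N (algebraMap ℂ (MerMod N) c)
      = Lam N ⟨fun _ => c, (IsNice.const N c).mem_MerInf⟩ := rfl
  rw [h1, Lam_of_isNice N _ (IsNice.const N c)]
  have h2 : (fun _ : ℍ => c) = c • (1 : ℍ → ℂ) := by
    funext τ; simp
  have h3 : AnalyticAt ℂ (cuspFunction N (1 : ℍ → ℂ)) 0 :=
    analyticAt_cuspFunction_zero hN (IsNice.const N 1).per (IsNice.const N 1).holo
      (IsNice.const N 1).bdd
  show HahnSeries.ofPowerSeries ℤ ℂ (qExpansion N (fun _ : ℍ => c)) = _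
  rw [h2, qExpansion_smul h3, qExpansion_one, ← HahnSeries.ofPowerSeries_C]
  congr 1
  ext n
  simp [PowerSeries.coeff_C, PowerSeries.coeff_one]

theorem LamM_eq_kap {N : ℕ} [NeZero N] {x : FN N} {f : MerMod N}
    (h : Psi N x = algebraMap (MerMod N) (LL N) f) : LamM N f = kap N x := by
  rw [← LamL_Psi, h, LamL_algebraMap]

/-- evaluation at a point as an algebra homomorphism. -/
def evalM (N : ℕ) (τ : ℍ) : MerMod N →ₐ[ℂ] ℂ :=
  (Pi.evalAlgHom ℂ (fun _ : ℍ => ℂ) τ).comp (MerMod N).val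

theorem aeval_jM_apply (N : ℕ) [NeZero N] (p : Polynomial ℂ) (τ : ℍ) :
    (Polynomial.aeval (jM N) p).1 τ = p.eval (jFun τ) := by
  have h := Polynomial.aeval_algHom_apply (evalM N τ) (jM N) p
  have h2 : evalM N τ (jM N) = jFun τ := rfl
  rw [h2] at h
  rw [← Polynomial.coe_aeval_eq_eval, h]
  rfl

/-- an invariant element of `MerMod N` is a polynomial in `j`. -/
theorem exists_polynomial_of_smul_eq {N : ℕ} [NeZero N] (e : MerMod N)
    (he : ∀ γ : SL(2, ℤ), γ • e = e) : ∃ p : Polynomial ℂ, e = Polynomial.aeval (jM N) p := by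
  obtain ⟨p, hp⟩ := exists_polynomial_of_invariant N e.1 (MerMod_le_MerInf N e.2) (by
    intro γ τ
    have := congrArg (fun g : MerMod N => g.1 τ) (he γ⁻¹)
    simpa using this)
  refine ⟨p, Subtype.ext (funext fun τ => ?_)⟩
  rw [hp τ, aeval_jM_apply]

/-- the conjugates of `f`. -/
def conjM {N : ℕ} (f : MerMod N) (i : Cos N) : MerMod N := i.out • f

theorem algebraMap_conjM {N : ℕ} [NeZero N] {x : FN N} {f : MerMod N}
    (h : Psi N x = algebraMap (MerMod N) (LL N) f) (i : Cos N) :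
    algebraMap (MerMod N) (LL N) (conjM f i) = phi N i x := by
  show _ = i.out • Psi N x
  rw [h, smul_algebraMap_LL]
  rfl

theorem smul_conjM {N : ℕ} [NeZero N] {x : FN N} {f : MerMod N}
    (h : Psi N x = algebraMap (MerMod N) (LL N) f) (γ : SL(2, ℤ)) (i : Cos N) :
    γ • conjM f i = conjM f (γ • i) := by
  apply IsFractionRing.injective (MerMod N) (LL N)
  rw [← smul_algebraMap_LL, algebraMap_conjM h, algebraMap_conjM h, phi_smul]

theorem conjM_one {N : ℕ} [NeZero N] {x : FN N} {f : MerMod N}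
    (h : Psi N x = algebraMap (MerMod N) (LL N) f) :
    conjM f ((1 : SL(2, ℤ)) : Cos N) = f := by
  apply IsFractionRing.injective (MerMod N) (LL N)
  rw [algebraMap_conjM h, phi_mk, one_smul, h]

open Polynomial in
/-- the characteristic polynomial `∏ (X - f_i)`. -/
def charM {N : ℕ} [NeZero N] (f : MerMod N) : Polynomial (MerMod N) :=
  letI := Fintype.ofFinite (Cos N)
  ∏ i : Cos N, (X - C (conjM f i))

open Polynomial in
theorem charM_monic {N : ℕ} [NeZero N] (f : MerMod N) : (charM f).Monic := by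
  let _ := Fintype.ofFinite (Cos N)
  exact monic_prod_of_monic _ _ fun i _ => monic_X_sub_C _

open Polynomial in
theorem charM_natDegree {N : ℕ} [NeZero N] (f : MerMod N) :
    (charM f).natDegree = Nat.card (Cos N) := by
  let _ := Fintype.ofFinite (Cos N)
  unfold charM
  rw [natDegree_prod_of_monic _ _ fun i _ => monic_X_sub_C _]
  simp [Nat.card_eq_fintype_card]

open Polynomial in
theorem charM_eval {N : ℕ} [NeZero N] {x : FN N} {f : MerMod N}
    (h : Psi N x = algebraMap (MerMod N) (LL N) f) : (charM f).eval f = 0 := by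
  let _ := Fintype.ofFinite (Cos N)
  unfold charM
  rw [eval_prod]
  apply Finset.prod_eq_zero (Finset.mem_univ ((1 : SL(2, ℤ)) : Cos N))
  simp [conjM_one h]

open Polynomial in
theorem smul_charM {N : ℕ} [NeZero N] {x : FN N} {f : MerMod N}
    (h : Psi N x = algebraMap (MerMod N) (LL N) f) (γ : SL(2, ℤ)) : γ • charM f = charM f := by
  let _ := Fintype.ofFinite (Cos N)
  unfold charM
  rw [Finset.smul_prod']
  have h1 : ∀ i : Cos N, γ • (X - C (conjM f i)) = X - C (conjM f (γ • i)) := by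
    intro i
    rw [smul_eq_map, Polynomial.map_sub, map_X, map_C, MulSemiringAction.toRingHom_apply,
      smul_conjM h]
  simp only [h1]
  exact Equiv.prod_comp (MulAction.toPerm γ) (fun i : Cos N => (X - C (conjM f i)))

open Polynomial in
theorem exists_coeff_charM {N : ℕ} [NeZero N] {x : FN N} {f : MerMod N}
    (h : Psi N x = algebraMap (MerMod N) (LL N) f) (k : ℕ) :
    ∃ p : Polynomial ℂ, (charM f).coeff k = Polynomial.aeval (jM N) p := by
  apply exists_polynomial_of_smul_eq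
  intro γ
  rw [← coeff_smul, smul_charM h]

theorem LamM_aeval_jM (N : ℕ) [NeZero N] (q : Polynomial ℂ) (D : ℕ) (hD : q.natDegree ≤ D) :
    LamM N (Polynomial.aeval (jM N) q)
      = ∑ a ∈ Finset.range (D + 1), HahnSeries.C (q.coeff a) * kap N (JJ N) ^ a := by
  rw [Polynomial.aeval_eq_sum_range' (Nat.lt_succ_of_le hD), map_sum]
  refine Finset.sum_congr rfl fun a _ => ?_
  rw [Algebra.smul_def, map_mul, map_pow, LamM_algebraMap, LamM_eq_kap (Psi_JJ N)]

open Polynomial in
theorem exists_monic_of_Psi_mem {N : ℕ} [NeZero N] (x : FN N)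
    (hx : ∃ f : MerMod N, Psi N x = algebraMap (MerMod N) (LL N) f) :
    ∃ P : Polynomial Kb⟮JJ N⟯, P.Monic ∧ P.natDegree = Nat.card (Cos N) ∧
      Polynomial.aeval x P = 0 := by
  obtain ⟨f, hf⟩ := hx
  set n := Nat.card (Cos N) with hn
  choose p0 hp0 using exists_coeff_charM hf
  let p : ℕ → ℂ[X] := fun k => if k = n then 1 else p0 k
  have hpn : p n = 1 := by simp [p]
  have hp : ∀ k, (charM f).coeff k = aeval (jM N) (p k) := by
    intro k
    by_cases hk : k = n
    · subst hk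
      rw [hpn, map_one, hn, ← charM_natDegree f]
      exact (charM_monic f).coeff_natDegree
    · simp only [p, if_neg hk]
      exact hp0 k
  let D := (Finset.range (n + 1)).sup (fun k => (p k).natDegree)
  have hD : ∀ k ∈ Finset.range (n + 1), (p k).natDegree ≤ D := fun k hk =>
    Finset.le_sup (f := fun k => (p k).natDegree) hk
  -- the relation in `MerMod N`
  have h1 : ∑ k ∈ Finset.range (n + 1), (charM f).coeff k * f ^ k = 0 := by
    have := charM_eval hf
    rwa [eval_eq_sum_range, charM_natDegree] at this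
  -- the relation in `ℂ((Q))`
  have h2 : ∑ i ∈ Finset.range (n + 1) ×ˢ Finset.range (D + 1),
      HahnSeries.C ((p i.1).coeff i.2) * kap N (JJ N ^ i.2 * x ^ i.1) = 0 := by
    rw [Finset.sum_product]
    have := congrArg (LamM N) h1
    rw [map_sum, map_zero] at this
    rw [← this]
    refine Finset.sum_congr rfl fun k hk => ?_
    rw [map_mul, map_pow, hp k, LamM_aeval_jM N (p k) D (hD k hk), LamM_eq_kap hf, Finset.sum_mul]
    refine Finset.sum_congr rfl fun a _ => ?_
    simp only [map_mul, map_pow]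
    ring
  obtain ⟨c', hc'1, hc'0, hc'⟩ := exists_Kb_relation _ (fun i : ℕ × ℕ => JJ N ^ i.2 * x ^ i.1)
    (fun i : ℕ × ℕ => (p i.1).coeff i.2) (n, 0) (by simp) (by simp [hpn]) h2
  exact exists_monic_aux (JJ N) x n D c' hc'1
    (fun a ha => hc'0 (n, a) (by simp [hpn, coeff_one, ha])) hc'


/-- the generators `j(q^d)`, `d ∣ N`, of `FN N`. -/
def genSet (N : ℕ) : Set (FN N) := {y | ∃ (d : ℕ) (_ : NeZero d) (hd : d ∣ N), y = Jd N d hd}

theorem adjoin_genSet (N : ℕ) : adjoin Kb (genSet N) = ⊤ := by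
  apply lift_injective
  rw [lift_adjoin, lift_top]
  have h : Subtype.val '' genSet N = {x | ∃ (d : ℕ) (_ : NeZero d), d ∣ N ∧ x = JdL d} := by
    ext x
    constructor
    · rintro ⟨y, ⟨d, hd0, hd, rfl⟩, rfl⟩
      exact ⟨d, hd0, hd, rfl⟩
    · rintro ⟨d, hd0, hd, rfl⟩
      exact ⟨Jd N d hd, ⟨d, hd0, hd, rfl⟩, rfl⟩
  rw [h, ← modularFunctionFieldBar_eq_adjoin]

theorem finite_genSet (N : ℕ) [NeZero N] : (genSet N).Finite := by
  classical
  have hfin : (Set.Iic N).Finite := Set.finite_Iic N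
  let F : ℕ → FN N := fun d => if h : d ∣ N ∧ d ≠ 0 then
    haveI : NeZero d := ⟨h.2⟩
    Jd N d h.1 else 0
  refine (hfin.image F).subset ?_
  rintro y ⟨d, hd0, hd, rfl⟩
  refine ⟨d, Nat.le_of_dvd (Nat.pos_of_ne_zero (NeZero.ne N)) hd, ?_⟩
  simp only [F]
  rw [dif_pos ⟨hd, NeZero.ne d⟩]

/-- the elements of `FN N` which are "holomorphic on `ℍ`". -/
def HolN (N : ℕ) [NeZero N] : Subalgebra Kb (FN N) :=
  (IsScalarTower.toAlgHom Kb (MerMod N) (LL N)).range.comap (Psi N)

theorem mem_HolN {N : ℕ} [NeZero N] {y : FN N} :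
    y ∈ HolN N ↔ ∃ f : MerMod N, Psi N y = algebraMap (MerMod N) (LL N) f := by
  constructor
  · rintro ⟨f, hf⟩
    exact ⟨f, hf.symm⟩
  · rintro ⟨f, hf⟩
    exact ⟨f, hf.symm⟩

theorem JJ_mem_HolN (N : ℕ) [NeZero N] : JJ N ∈ HolN N := mem_HolN.mpr ⟨_, Psi_JJ N⟩

theorem genSet_subset_HolN (N : ℕ) [NeZero N] : genSet N ⊆ HolN N := by
  rintro y ⟨d, hd0, hd, rfl⟩
  exact mem_HolN.mpr ⟨_, Psi_Jd N d hd⟩

theorem isIntegral_of_mem_HolN {N : ℕ} [NeZero N] {y : FN N} (hy : y ∈ HolN N) :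
    IsIntegral Kb⟮JJ N⟯ y := by
  obtain ⟨P, hP, -, hPy⟩ := exists_monic_of_Psi_mem y (mem_HolN.mp hy)
  exact ⟨P, hP, hPy⟩

theorem finiteDimensional_FN (N : ℕ) [NeZero N] : FiniteDimensional Kb⟮JJ N⟯ (FN N) := by
  have : Finite (genSet N) := (finite_genSet N).to_subtype
  exact finiteDimensional_of_adjoin (JJ N) (genSet N)
    (fun y hy => isIntegral_of_mem_HolN (genSet_subset_HolN N hy)) (adjoin_genSet N)

instance instIsFF1FN (N : ℕ) [NeZero N] : FF.IsFF1 Kb (FN N) :=
  ⟨⟨JJ N, transcendental_JJ N, finiteDimensional_FN N⟩⟩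

/-- primitive element `α`; `α = a / b` with `b ∈ ℚ̄[J]`, `a ∈ ℚ̄[J_d : d ∣ N]`, so `a` is primitive
and `Psi a ∈ MerMod N`. -/
theorem finrank_FN_le (N : ℕ) [NeZero N] :
    Module.finrank Kb⟮JJ N⟯ (FN N) ≤ Nat.card (Cos N) := by
  have := finiteDimensional_FN N
  exact finrank_le_of_forall_exists_monic' (k := Kb) (Nat.card (Cos N)) (fun y => y ∈ HolN N)
    (fun y => exists_denominator (JJ N) (genSet N) (HolN N) (JJ_mem_HolN N) (genSet_subset_HolN N)
      (fun z hz => (isIntegral_of_mem_HolN (genSet_subset_HolN N hz)).isAlgebraic)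
      (adjoin_genSet N) y)
    (fun a ha => exists_monic_of_Psi_mem a (mem_HolN.mp ha))

/-- `phi N i` are `#Cos N` distinct `ℚ̄(J)`-embeddings into a field. -/
theorem card_Cos_le_finrank_FN (N : ℕ) [NeZero N] :
    Nat.card (Cos N) ≤ Module.finrank Kb⟮JJ N⟯ (FN N) := by
  have := finiteDimensional_FN N
  exact card_le_finrank_of_embeddings (JJ N) (phi N) (phi_injective N)
    (fun i j => by rw [phi_JJ, phi_JJ])

theorem finrank_FN (N : ℕ) [NeZero N] : Module.finrank Kb⟮JJ N⟯ (FN N) = Nat.card (Cos N) :=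
  le_antisymm (finrank_FN_le N) (card_Cos_le_finrank_FN N)

end Fermat.Agent.S24
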