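import Mathlib

/-! # S24 / Mod / package M-MV : valuations from `meromorphicOrderAt`; invariance under a local
automorphism forces a root of unity relation. (pure Mathlib, no project imports) -/

set_option autoImplicit false

open Filter Topology

noncomputable section

namespace Fermat.Agent.S24

/-- auxiliary: the valuation on the ring `R` itself. -/
theorem merVal_exists_valuation_ring {R : Type*} [CommRing R] [IsDomain R]
    (e : R →+* (ℂ → ℂ)) (x : ℂ) (hmer : ∀ r, MeromorphicAt (e r) x)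
    (hfin : ∀ r, r ≠ 0 → meromorphicOrderAt (e r) x ≠ ⊤) :
    ∃ v : Valuation R (WithZero (Multiplicative ℤ)), ∀ r, r ≠ 0 →
      v r = WithZero.exp (-(meromorphicOrderAt (e r) x).untop₀) := by
  classical
  set ord : R → ℤ := fun r => (meromorphicOrderAt (e r) x).untop₀ with hord
  have hcoe : ∀ r, r ≠ 0 → meromorphicOrderAt (e r) x = (ord r : WithTop ℤ) := fun r hr =>
    (WithTop.coe_untop₀_of_ne_top (hfin r hr)).symm
  have hmul : ∀ r s, r ≠ 0 → s ≠ 0 → ord (r * s) = ord r + ord s := by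
    intro r s hr hs
    have h1 := hcoe (r * s) (mul_ne_zero hr hs)
    rw [map_mul, meromorphicOrderAt_mul (hmer r) (hmer s), hcoe r hr, hcoe s hs,
      ← WithTop.coe_add] at h1
    exact (WithTop.coe_injective h1).symm
  have hadd : ∀ r s, r ≠ 0 → s ≠ 0 → r + s ≠ 0 → min (ord r) (ord s) ≤ ord (r + s) := by
    intro r s hr hs hrs
    have h1 := meromorphicOrderAt_add (hmer r) (hmer s)
    rw [← map_add, hcoe r hr, hcoe s hs, hcoe _ hrs, ← WithTop.coe_min] at h1
    exact WithTop.coe_le_coe.mp h1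
  have hone : ord 1 = 0 := by
    have h1 := hmul 1 1 one_ne_zero one_ne_zero
    rw [mul_one] at h1
    omega
  refine ⟨{ toFun := fun r => if r = 0 then 0 else WithZero.exp (-(ord r))
            map_zero' := by simp
            map_one' := by simp [hone]
            map_mul' := ?_
            map_add_le_max' := ?_ }, ?_⟩
  · intro r s
    by_cases hr : r = 0
    · simp [hr]
    by_cases hs : s = 0
    · simp [hs]
    simp only [hr, hs, mul_eq_zero, or_self, if_false]
    rw [hmul r s hr hs, neg_add, WithZero.exp_add]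
  · intro r s
    by_cases hr : r = 0
    · simp [hr]
    by_cases hs : s = 0
    · simp [hs]
    by_cases hrs : r + s = 0
    · simp [hrs]
    simp only [hr, hs, hrs, if_false]
    rw [le_max_iff, WithZero.exp_le_exp, WithZero.exp_le_exp]
    have := hadd r s hr hs hrs
    rcases min_le_iff.mp this with h | h
    · left; omega
    · right; omega
  · intro r hr
    show (if r = 0 then 0 else WithZero.exp (-(ord r))) = _
    rw [if_neg hr]

/-- A ring of functions, all meromorphic at `x` and of finite order if nonzero, gets a valuation on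
its fraction field (`meromorphicOrderAt_mul`, `meromorphicOrderAt_add`,
`Valuation.extendToLocalization`). -/
theorem exists_valuation_of_meromorphic {R : Type*} [CommRing R] [IsDomain R]
    (L : Type*) [Field L] [Algebra R L] [IsFractionRing R L]
    (e : R →+* (ℂ → ℂ)) (x : ℂ) (hmer : ∀ r, MeromorphicAt (e r) x)
    (hfin : ∀ r, r ≠ 0 → meromorphicOrderAt (e r) x ≠ ⊤) :
    ∃ W : Valuation L (WithZero (Multiplicative ℤ)), ∀ r, r ≠ 0 →
      W (algebraMap R L r) = WithZero.exp (-(meromorphicOrderAt (e r) x).untop₀) := by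
  obtain ⟨v, hv⟩ := merVal_exists_valuation_ring e x hmer hfin
  have hS : nonZeroDivisors R ≤ v.supp.primeCompl := by
    intro r hr hmem
    have hr0 : r ≠ 0 := nonZeroDivisors.ne_zero hr
    have : v r = 0 := hmem
    rw [hv r hr0] at this
    exact WithZero.exp_ne_zero this
  refine ⟨v.extendToLocalization hS L, fun r hr => ?_⟩
  rw [Valuation.extendToLocalization_apply_map_apply, hv r hr]

/-- a local automorphism fixing `x` maps punctured neighbourhoods to punctured neighbourhoods. -/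
theorem merVal_tendsto_nhdsNE {σ : ℂ → ℂ} {x μ : ℂ} (hσ : AnalyticAt ℂ σ x) (hσx : σ x = x)
    (hσ' : deriv σ x = μ) (hμ : μ ≠ 0) : Tendsto σ (𝓝[≠] x) (𝓝[≠] x) := by
  have h1 : HasDerivAt σ μ x := hσ' ▸ hσ.differentiableAt.hasDerivAt
  have h2 := h1.tendsto_nhdsNE hμ
  rwa [hσx] at h2

/-- If `h` is meromorphic at `x`, of finite order `k`, and `h ∘ σ = h` near `x` for a local
automorphism `σ` fixing `x` with multiplier `μ`, then `μ ^ k = 1`.
(`h z = (z-x)^k g z`, `σ z - x = (z - x) σ₁ z`, `σ₁ x = μ`; compare and let `z → x`.) -/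
theorem zpow_order_eq_one_of_comp_eq {h σ : ℂ → ℂ} {x μ : ℂ} (hh : MeromorphicAt h x)
    (hfin : meromorphicOrderAt h x ≠ ⊤) (hσ : AnalyticAt ℂ σ x) (hσx : σ x = x)
    (hσ' : deriv σ x = μ) (hμ : μ ≠ 0) (hinv : ∀ᶠ z in 𝓝[≠] x, h (σ z) = h z) :
    μ ^ (meromorphicOrderAt h x).untop₀ = 1 := by
  obtain ⟨g, hg_an, hg_ne, hg_eq⟩ := (meromorphicOrderAt_ne_top_iff hh).1 hfin
  set k : ℤ := (meromorphicOrderAt h x).untop₀ with hk
  have hT : Tendsto σ (𝓝[≠] x) (𝓝[≠] x) := merVal_tendsto_nhdsNE hσ hσx hσ' hμ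
  have h1 : ∀ᶠ z in 𝓝[≠] x, h (σ z) = (σ z - x) ^ k • g (σ z) := hT.eventually hg_eq
  have key : ∀ᶠ z in 𝓝[≠] x, (dslope σ x z) ^ k * g (σ z) = g z := by
    filter_upwards [h1, hg_eq, hinv, self_mem_nhdsWithin] with z h1 h2 h3 hz
    have hzx : z - x ≠ 0 := sub_ne_zero.mpr hz
    have h4 : σ z - x = (z - x) * dslope σ x z := by
      rw [← smul_eq_mul, sub_smul_dslope, hσx]
    rw [h1, h2, h4, mul_zpow, smul_eq_mul, smul_eq_mul, mul_assoc] at h3
    exact mul_left_cancel₀ (zpow_ne_zero k hzx) h3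
  have hds : dslope σ x x = μ := by rw [dslope_same, hσ']
  have hc1 : ContinuousAt (fun z => (dslope σ x z) ^ k) x :=
    (continuousAt_dslope_same.2 hσ.differentiableAt).zpow₀ k (Or.inl (by rw [hds]; exact hμ))
  have hc2 : ContinuousAt (fun z => g (σ z)) x := by
    have : ContinuousAt g (σ x) := by rw [hσx]; exact hg_an.continuousAt
    exact this.comp hσ.continuousAt
  have hL : Tendsto (fun z => (dslope σ x z) ^ k * g (σ z)) (𝓝[≠] x) (𝓝 (μ ^ k * g x)) := by
    have hval : (dslope σ x x) ^ k * g (σ x) = μ ^ k * g x := by rw [hds, hσx]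
    have h5 : Tendsto (fun z => (dslope σ x z) ^ k * g (σ z)) (𝓝 x)
        (𝓝 ((dslope σ x x) ^ k * g (σ x))) := (hc1.mul hc2).tendsto
    rw [hval] at h5
    exact h5.mono_left nhdsWithin_le_nhds
  have hR : Tendsto g (𝓝[≠] x) (𝓝 (g x)) := hg_an.continuousAt.tendsto.mono_left nhdsWithin_le_nhds
  have hfinal : μ ^ k * g x = g x := tendsto_nhds_unique_of_eventuallyEq hL hR key
  exact mul_right_cancel₀ hg_ne (by rw [hfinal, one_mul])

/-- quotient version: `a/b` invariant, i.e. `a∘σ * b = a * b∘σ`. -/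
theorem zpow_order_sub_eq_one_of_comp_mul_eq {a b σ : ℂ → ℂ} {x μ : ℂ}
    (ha : MeromorphicAt a x) (hb : MeromorphicAt b x)
    (hafin : meromorphicOrderAt a x ≠ ⊤) (hbfin : meromorphicOrderAt b x ≠ ⊤)
    (hσ : AnalyticAt ℂ σ x) (hσx : σ x = x)
    (hσ' : deriv σ x = μ) (hμ : μ ≠ 0)
    (hinv : ∀ᶠ z in 𝓝[≠] x, a (σ z) * b z = a z * b (σ z)) :
    μ ^ ((meromorphicOrderAt a x).untop₀ - (meromorphicOrderAt b x).untop₀) = 1 := by
  have hT : Tendsto σ (𝓝[≠] x) (𝓝[≠] x) := merVal_tendsto_nhdsNE hσ hσx hσ' hμ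
  have hb0 : ∀ᶠ z in 𝓝[≠] x, b z ≠ 0 := (meromorphicOrderAt_ne_top_iff_eventually_ne_zero hb).1 hbfin
  have hb1 : ∀ᶠ z in 𝓝[≠] x, b (σ z) ≠ 0 := hT.eventually hb0
  have hord : meromorphicOrderAt (a / b) x =
      (((meromorphicOrderAt a x).untop₀ - (meromorphicOrderAt b x).untop₀ : ℤ) : WithTop ℤ) := by
    rw [meromorphicOrderAt_div ha hb, WithTop.LinearOrderedAddCommGroup.coe_sub,
      WithTop.coe_untop₀_of_ne_top hafin, WithTop.coe_untop₀_of_ne_top hbfin]
  have hfin : meromorphicOrderAt (a / b) x ≠ ⊤ := by rw [hord]; exact WithTop.coe_ne_top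
  have h := zpow_order_eq_one_of_comp_eq (h := a / b) (ha.div hb) hfin hσ hσx hσ' hμ (by
    filter_upwards [hinv, hb0, hb1] with z h1 h2 h3
    simp only [Pi.div_apply]
    rw [div_eq_div_iff h3 h2, h1])
  rwa [hord, WithTop.untop₀_coe] at h

end Fermat.Agent.S24
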