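import Fermat.Agent.S24.Mod.Degree
import Fermat.Agent.S24.Mod.MerVal
import Fermat.Agent.S24.FF.LocalCount

/-! # S24 / Mod / package M-LC : places of `FN N` over `j = ∞` (cusps) -/

set_option autoImplicit false

open UpperHalfPlane ModularForm Function ModularCurve IntermediateField AlgebraicCurve Filter Topology
open scoped Manifold MatrixGroups

noncomputable section

namespace Fermat.Agent.S24

local notation "Δ" => ModularForm.discriminant

/-- functions on `ℍ` as functions of `Q = exp(2πiτ/N)`. -/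
def evQ (N : ℕ) : MerMod N →+* (ℂ → ℂ) where
  toFun f := fun z => f.1 (ofComplex (Periodic.invQParam N z))
  map_one' := rfl
  map_mul' _ _ := rfl
  map_zero' := rfl
  map_add' _ _ := rfl

@[simp] theorem evQ_apply {N : ℕ} (f : MerMod N) (z : ℂ) :
    evQ N f z = f.1 (ofComplex (Periodic.invQParam N z)) := rfl

theorem LC_natCast_pos (N : ℕ) [NeZero N] : (0 : ℝ) < (N : ℝ) := by
  exact_mod_cast Nat.pos_of_ne_zero (NeZero.ne N)

/-- elements of `MerMod N` are `N`-periodic. -/
theorem LC_periodic_MerMod {N : ℕ} (f : MerMod N) : Periodic (f.1 ∘ ofComplex) (N : ℝ) := by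
  obtain ⟨m, hm⟩ := f.2 1
  intro z
  have h1 := hm.per z
  have h2 := (isNice_discriminant N).per z
  simp only [comp_apply, one_smul] at h1 h2 ⊢
  rw [h2] at h1
  exact mul_left_cancel₀ (pow_ne_zero m (discriminant_ne_zero _)) h1

/-- `evQ f (Q(τ)) = f τ` by `N`-periodicity. -/
theorem evQ_qParam {N : ℕ} [NeZero N] (f : MerMod N) (τ : ℍ) :
    evQ N f (Periodic.qParam N τ) = f.1 τ := by
  have h := UpperHalfPlane.eq_cuspFunction τ (LC_natCast_pos N).ne' (LC_periodic_MerMod f)
  rw [UpperHalfPlane.cuspFunction,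
    Periodic.cuspFunction_eq_of_nonzero _ _ (Periodic.qParam_ne_zero _)] at h
  exact h

/-- the key local formula. -/
theorem LC_evQ_eq_div {N : ℕ} [NeZero N] (f : MerMod N) {m : ℕ} {z : ℂ} (hz : z ≠ 0) :
    evQ N f z = UpperHalfPlane.cuspFunction N (fun τ => Δ τ ^ m * f.1 τ) z
      / (UpperHalfPlane.cuspFunction N Δ z) ^ m := by
  rw [UpperHalfPlane.cuspFunction, UpperHalfPlane.cuspFunction,
    Periodic.cuspFunction_eq_of_nonzero _ _ hz, Periodic.cuspFunction_eq_of_nonzero _ _ hz]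
  simp only [comp_apply, evQ_apply]
  rw [mul_div_cancel_left₀ _ (pow_ne_zero m (discriminant_ne_zero _))]

theorem LC_exists_isNice_MerMod {N : ℕ} (f : MerMod N) :
    ∃ m : ℕ, IsNice N (fun τ => Δ τ ^ m * f.1 τ) := by
  obtain ⟨m, hm⟩ := f.2 1
  exact ⟨m, by simpa using hm⟩

theorem IsNice.LC_analyticAt_cuspFunction {N : ℕ} [NeZero N] {g : ℍ → ℂ} (hg : IsNice N g) :
    AnalyticAt ℂ (UpperHalfPlane.cuspFunction N g) 0 :=
  analyticAt_cuspFunction_zero (LC_natCast_pos N) hg.per hg.holo hg.bdd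

/-- near `0` (punctured) `evQ f = cuspFunction N (Δ^m f) / (cuspFunction N Δ)^m`, both analytic. -/
theorem meromorphicAt_evQ {N : ℕ} [NeZero N] (f : MerMod N) : MeromorphicAt (evQ N f) 0 := by
  obtain ⟨m, hm⟩ := LC_exists_isNice_MerMod f
  have h1 : MeromorphicAt (fun z => UpperHalfPlane.cuspFunction N (fun τ => Δ τ ^ m * f.1 τ) z
      / (UpperHalfPlane.cuspFunction N Δ z) ^ m) 0 :=
    (hm.LC_analyticAt_cuspFunction.meromorphicAt).div
      (((isNice_discriminant N).LC_analyticAt_cuspFunction.meromorphicAt).pow m)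
  refine h1.congr ?_
  filter_upwards [self_mem_nhdsWithin] with z hz
  exact (LC_evQ_eq_div f hz).symm

theorem order_evQ_ne_top {N : ℕ} [NeZero N] (f : MerMod N) (hf : f ≠ 0) :
    meromorphicOrderAt (evQ N f) 0 ≠ ⊤ := by
  intro htop
  rw [meromorphicOrderAt_eq_top_iff] at htop
  apply hf
  obtain ⟨m, hm⟩ := LC_exists_isNice_MerMod f
  have hN := LC_natCast_pos N
  set G := UpperHalfPlane.cuspFunction N (fun τ => Δ τ ^ m * f.1 τ) with hG
  have hGan : AnalyticOnNhd ℂ G (Metric.ball 0 1) :=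
    (differentiableOn_cuspFunction_ball hN hm.per hm.holo hm.bdd).analyticOnNhd Metric.isOpen_ball
  have hG0 : ∃ᶠ z in 𝓝[≠] (0:ℂ), G z = 0 := by
    apply Eventually.frequently
    filter_upwards [htop, self_mem_nhdsWithin] with z hz hz0
    rw [hG, UpperHalfPlane.cuspFunction, Periodic.cuspFunction_eq_of_nonzero _ _ hz0]
    simp only [comp_apply]
    rw [evQ_apply] at hz
    rw [hz, mul_zero]
  have hGz := hGan.eqOn_zero_of_preconnected_of_frequently_eq_zero
    (convex_ball (0:ℂ) 1).isPreconnected (Metric.mem_ball_self one_pos) hG0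
  apply Subtype.ext
  funext τ
  have h1 : G (Periodic.qParam N τ) = Δ τ ^ m * f.1 τ :=
    UpperHalfPlane.eq_cuspFunction τ hN.ne' hm.per
  have h2 : G (Periodic.qParam N τ) = 0 :=
    hGz (by simpa using Periodic.norm_qParam_lt_one hN τ.im_pos)
  rw [h2] at h1
  have := (mul_eq_zero.mp h1.symm).resolve_left (pow_ne_zero m (discriminant_ne_zero _))
  simpa using this


theorem exists_Winf (N : ℕ) [NeZero N] :
    ∃ W : Valuation (LL N) (WithZero (Multiplicative ℤ)), ∀ f : MerMod N, f ≠ 0 →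
      W (algebraMap (MerMod N) (LL N) f)
        = WithZero.exp (-(meromorphicOrderAt (evQ N f) 0).untop₀) :=
  exists_valuation_of_meromorphic (LL N) (evQ N) 0
    (fun f => meromorphicAt_evQ f) (fun f hf => order_evQ_ne_top f hf)

/-- the valuation `ord_Q` at the cusp `i∞` on `LL N`. -/
def Winf (N : ℕ) [NeZero N] : Valuation (LL N) (WithZero (Multiplicative ℤ)) :=
  (exists_Winf N).choose

theorem Winf_algebraMap {N : ℕ} [NeZero N] (f : MerMod N) (hf : f ≠ 0) :
    Winf N (algebraMap (MerMod N) (LL N) f)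
      = WithZero.exp (-(meromorphicOrderAt (evQ N f) 0).untop₀) :=
  (exists_Winf N).choose_spec f hf

theorem Winf_algebraMap_Kb {N : ℕ} [NeZero N] (a : Kb) (ha : a ≠ 0) :
    Winf N (algebraMap Kb (LL N) a) = 1 := by
  classical
  have h0 : algebraMap Kb (MerMod N) a ≠ 0 := by
    rw [Ne, map_eq_zero_iff _ (algebraMap Kb (MerMod N)).injective]
    exact ha
  rw [IsScalarTower.algebraMap_apply Kb (MerMod N) (LL N), Winf_algebraMap _ h0]
  have h1 : evQ N (algebraMap Kb (MerMod N) a) = fun _ => iota a := rfl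
  have h2 : iota a ≠ 0 := by
    rw [Ne, map_eq_zero_iff _ iota.injective]
    exact ha
  rw [h1, meromorphicOrderAt_const, if_neg h2]
  simp

/-- `Q(τ - k) = ζ^(-k) Q(τ)`. -/
theorem LC_qParam_sub_intCast (N : ℕ) (w : ℂ) (k : ℤ) :
    Periodic.qParam N (w + (-k : ℤ))
      = Complex.exp (-(2 * Real.pi * Complex.I * k / N)) * Periodic.qParam N w := by
  rw [Periodic.qParam, Periodic.qParam, ← Complex.exp_add]
  congr 1
  push_cast
  ring

/-- `evQ (T^k • f) z = evQ f (ζ^(-k) z)` for `0 < ‖z‖ < 1`, `ζ = exp(2πi/N)`. -/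
theorem evQ_T_zpow_smul {N : ℕ} [NeZero N] (f : MerMod N) (k : ℤ) {z : ℂ} (hz : z ≠ 0)
    (hz1 : ‖z‖ < 1) :
    evQ N (ModularGroup.T ^ k • f) z
      = evQ N f (Complex.exp (-(2 * Real.pi * Complex.I * k / N)) * z) := by
  have hN := LC_natCast_pos N
  have him := Periodic.im_invQParam_pos_of_norm_lt_one hN hz1 hz
  rw [evQ_apply, smul_MerMod_apply, ← zpow_neg, ofComplex_apply_of_im_pos him]
  set τ : ℍ := ⟨Periodic.invQParam N z, him⟩ with hτ
  have h1 : Periodic.qParam N ((ModularGroup.T ^ (-k) • τ : ℍ) : ℂ)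
      = Complex.exp (-(2 * Real.pi * Complex.I * k / N)) * z := by
    rw [ModularGroup.coe_T_zpow_smul_eq, LC_qParam_sub_intCast]
    congr 1
    exact Periodic.qParam_right_inv hN.ne' hz
  rw [← h1, evQ_qParam]


theorem LC_eventually_nhdsNE_zero : ∀ᶠ z in 𝓝[≠] (0:ℂ), z ≠ 0 ∧ ‖z‖ < 1 := by
  have h1 : ∀ᶠ z in 𝓝[≠] (0:ℂ), ‖z‖ < 1 := by
    apply eventually_nhdsWithin_of_eventually_nhds
    have := Metric.ball_mem_nhds (0:ℂ) one_pos
    filter_upwards [this] with z hz
    simpa using hz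
  filter_upwards [h1, self_mem_nhdsWithin] with z hz hz0
  exact ⟨hz0, hz⟩

theorem LC_order_evQ_T_zpow_smul {N : ℕ} [NeZero N] (f : MerMod N) (k : ℤ) :
    meromorphicOrderAt (evQ N (ModularGroup.T ^ k • f)) 0 = meromorphicOrderAt (evQ N f) 0 := by
  set μ : ℂ := Complex.exp (-(2 * Real.pi * Complex.I * k / N)) with hμ
  have h1 : evQ N (ModularGroup.T ^ k • f) =ᶠ[𝓝[≠] 0] (evQ N f) ∘ (fun z => μ * z) := by
    filter_upwards [LC_eventually_nhdsNE_zero] with z hz
    exact evQ_T_zpow_smul f k hz.1 hz.2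
  rw [meromorphicOrderAt_congr h1, meromorphicOrderAt_comp_of_deriv_ne_zero (by fun_prop)]
  · simp
  · rw [deriv_const_mul_field, deriv_id'', mul_one]
    exact Complex.exp_ne_zero _

theorem LC_Winf_T_zpow_smul_algebraMap {N : ℕ} [NeZero N] (f : MerMod N) (k : ℤ) :
    Winf N (algebraMap (MerMod N) (LL N) (ModularGroup.T ^ k • f))
      = Winf N (algebraMap (MerMod N) (LL N) f) := by
  by_cases hf : f = 0
  · subst hf; simp
  · have hf' : ModularGroup.T ^ k • f ≠ 0 := by
      rwa [Ne, smul_eq_zero_iff_eq]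
    rw [Winf_algebraMap _ hf, Winf_algebraMap _ hf', LC_order_evQ_T_zpow_smul]

theorem Winf_T_smul {N : ℕ} [NeZero N] (h : LL N) :
    Winf N (ModularGroup.T • h) = Winf N h := by
  obtain ⟨a, b, hb, rfl⟩ := IsFractionRing.div_surjective (A := MerMod N) h
  have ha1 := LC_Winf_T_zpow_smul_algebraMap a 1
  have hb1 := LC_Winf_T_zpow_smul_algebraMap b 1
  rw [zpow_one] at ha1 hb1
  rw [smul_div₀', smul_algebraMap_LL, smul_algebraMap_LL, map_div₀, map_div₀, ha1, hb1]

/-- (`zpow_order_sub_eq_one_of_comp_mul_eq` with `σ z = ζ^(-k) z`) -/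
theorem dvd_mul_log_Winf {N : ℕ} [NeZero N] (h : LL N) (hh : h ≠ 0) (k : ℕ)
    (hinv : ModularGroup.T ^ k • h = h) : (N : ℤ) ∣ (k : ℤ) * WithZero.log (Winf N h) := by
  obtain ⟨a, b, hb, rfl⟩ := IsFractionRing.div_surjective (A := MerMod N) h
  have hb0 : b ≠ 0 := nonZeroDivisors.ne_zero hb
  have ha0 : a ≠ 0 := by
    rintro rfl
    simp at hh
  have hinj := IsFractionRing.injective (MerMod N) (LL N)
  have hbL : algebraMap (MerMod N) (LL N) b ≠ 0 := by
    rwa [Ne, map_eq_zero_iff _ hinj]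
  have haL : algebraMap (MerMod N) (LL N) a ≠ 0 := by
    rwa [Ne, map_eq_zero_iff _ hinj]
  have hTb0 : ModularGroup.T ^ k • b ≠ 0 := by rwa [Ne, smul_eq_zero_iff_eq]
  have hTbL : algebraMap (MerMod N) (LL N) (ModularGroup.T ^ k • b) ≠ 0 := by
    rwa [Ne, map_eq_zero_iff _ hinj]
  -- the relation in `MerMod N`
  have hrel : (ModularGroup.T ^ k • a) * b = a * (ModularGroup.T ^ k • b) := by
    apply hinj
    rw [smul_div₀', smul_algebraMap_LL, smul_algebraMap_LL, div_eq_div_iff hTbL hbL] at hinv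
    rw [map_mul, map_mul, hinv]
  set μ : ℂ := Complex.exp (-(2 * Real.pi * Complex.I * (k : ℤ) / N)) with hμ
  have hev : ∀ᶠ z in 𝓝[≠] (0:ℂ), evQ N a ((fun z => μ * z) z) * evQ N b z
      = evQ N a z * evQ N b ((fun z => μ * z) z) := by
    filter_upwards [LC_eventually_nhdsNE_zero] with z hz
    have h1 := evQ_T_zpow_smul a k hz.1 hz.2
    have h2 := evQ_T_zpow_smul b k hz.1 hz.2
    rw [zpow_natCast] at h1 h2
    have h3 := congrFun (congrArg (evQ N) hrel) z
    rw [map_mul, map_mul, Pi.mul_apply, Pi.mul_apply, h1, h2] at h3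
    exact h3
  have hkey := zpow_order_sub_eq_one_of_comp_mul_eq (σ := fun z => μ * z) (μ := μ)
    (meromorphicAt_evQ a) (meromorphicAt_evQ b)
    (order_evQ_ne_top a ha0) (order_evQ_ne_top b hb0) (by fun_prop) (by simp)
    (by rw [deriv_const_mul_field, deriv_id'', mul_one]) (Complex.exp_ne_zero _) hev
  set n : ℤ := (meromorphicOrderAt (evQ N a) 0).untop₀ - (meromorphicOrderAt (evQ N b) 0).untop₀
    with hn
  have hlog : WithZero.log (Winf N (algebraMap (MerMod N) (LL N) a / algebraMap (MerMod N) (LL N) b))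
      = -n := by
    rw [map_div₀, Winf_algebraMap _ ha0, Winf_algebraMap _ hb0,
      WithZero.log_div WithZero.exp_ne_zero WithZero.exp_ne_zero, WithZero.log_exp,
      WithZero.log_exp, hn]
    ring
  rw [hlog]
  rw [hμ, ← Complex.exp_int_mul, Complex.exp_eq_one_iff] at hkey
  obtain ⟨m, hm⟩ := hkey
  have hNC : (N : ℂ) ≠ 0 := by exact_mod_cast NeZero.ne N
  have h2pi : (2 * Real.pi * Complex.I : ℂ) ≠ 0 := Complex.two_pi_I_ne_zero
  have hm' : ((k : ℤ) * -n : ℂ) = (N : ℂ) * m := by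
    field_simp at hm
    linear_combination hm
  refine ⟨m, ?_⟩
  exact_mod_cast hm'

/-- `j` has a pole of order `N` in `Q` (`tendsto_jFun_mul_qParam`). -/
theorem order_evQ_jM (N : ℕ) [NeZero N] : meromorphicOrderAt (evQ N (jM N)) 0 = (-(N : ℤ) : ℤ) := by
  have hN := LC_natCast_pos N
  have ht : Tendsto (fun z : ℂ => ofComplex (Periodic.invQParam N z)) (𝓝[≠] 0) atImInfty :=
    tendsto_comap_im_ofComplex.comp (Periodic.invQParam_tendsto hN)
  have h1 := tendsto_jFun_mul_qParam.comp ht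
  have h2 : Tendsto (evQ N (jM N) * fun z : ℂ => z ^ N) (𝓝[≠] 0) (𝓝 1) := by
    refine h1.congr' ?_
    filter_upwards [LC_eventually_nhdsNE_zero] with z hz
    have him := Periodic.im_invQParam_pos_of_norm_lt_one hN hz.2 hz.1
    simp only [comp_apply, Pi.mul_apply, evQ_apply]
    congr 1
    rw [ofComplex_apply_of_im_pos him]
    have h3 : Periodic.qParam N (Periodic.invQParam N z) = z :=
      Periodic.qParam_right_inv hN.ne' hz.1
    conv_rhs => rw [← h3]
    rw [Periodic.qParam, Periodic.qParam, ← Complex.exp_nat_mul]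
    congr 1
    have hNC : (N : ℂ) ≠ 0 := by exact_mod_cast NeZero.ne N
    push_cast
    field_simp
  have hmer : MeromorphicAt (fun z : ℂ => z ^ N) 0 := by fun_prop
  have h3 : meromorphicOrderAt (evQ N (jM N) * fun z : ℂ => z ^ N) 0 = 0 :=
    (tendsto_ne_zero_iff_meromorphicOrderAt_eq_zero ((meromorphicAt_evQ _).mul hmer)).mp
      ⟨1, one_ne_zero, h2⟩
  rw [meromorphicOrderAt_mul (meromorphicAt_evQ _) hmer] at h3
  have h4 : meromorphicOrderAt (fun z : ℂ => z ^ N) 0 = (N : ℤ) := by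
    have : meromorphicOrderAt ((fun z : ℂ => z) ^ N) 0 = (N : ℤ) := by
      simpa using meromorphicOrderAt_pow_id_sub_const (𝕜 := ℂ) (x := 0) (n := N)
    exact this
  rw [h4] at h3
  cases ho : meromorphicOrderAt (evQ N (jM N)) 0 with
  | top => rw [ho] at h3; simp at h3
  | coe n =>
    rw [ho] at h3
    have h5 : n + (N : ℤ) = 0 := by exact_mod_cast h3
    have : n = -(N : ℤ) := by omega
    rw [this]

theorem Winf_phi_JJ_inv {N : ℕ} [NeZero N] (i : Cos N) :
    Winf N (phi N i (JJ N)⁻¹) = WithZero.exp (-(N : ℤ)) := by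
  have hne : jM N ≠ 0 := by
    intro h
    have h1 := order_evQ_jM N
    rw [h, map_zero] at h1
    have h2 : meromorphicOrderAt (0 : ℂ → ℂ) 0 = ⊤ :=
      meromorphicOrderAt_eq_top_iff.mpr (Filter.Eventually.of_forall fun _ => rfl)
    rw [h2] at h1
    exact WithTop.top_ne_coe h1
  rw [map_inv₀, map_inv₀, phi_JJ, Winf_algebraMap _ hne, order_evQ_jM, WithTop.untop₀_coe,
    neg_neg, WithZero.exp_neg]

theorem card_places_infty (N : ℕ) [NeZero N] :
    Nat.card {v : Place Kb (FN N) // v.ord (JJ N) < 0}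
      = Nat.card (MulAction.orbitRel.Quotient (Subgroup.zpowers ModularGroup.T) (Cos N)) := by
  have h := FF.card_places_eq_card_orbits (K := Kb) (F := FN N) (t := (JJ N)⁻¹)
    (FF.transcendental_inv (transcendental_JJ N)) (𝓛 := LL N) (I := Cos N) (G := SL(2, ℤ))
    (phi N) (phi_injective N)
    (fun i j => by rw [map_inv₀, map_inv₀, phi_JJ, phi_JJ])
    (by rw [FF.finrank_adjoin_inv, finrank_FN])
    (Winf N) (fun a ha => Winf_algebraMap_Kb a ha) N (Nat.pos_of_ne_zero (NeZero.ne N))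
    (fun i => Winf_phi_JJ_inv i) ModularGroup.T
    (fun i f => by rw [phi_smul, Winf_T_smul])
    (fun i f hf => dvd_mul_log_Winf (phi N i f)
      (by rwa [Ne, map_eq_zero]) _
      (by rw [← phi_smul, MulAction.pow_period_smul]))
  refine Eq.trans (Nat.card_congr (Equiv.subtypeEquivRight fun v => ?_)) h
  rw [Place.ord_inv]
  omega

end Fermat.Agent.S24
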