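import Fermat.Agent.S24.Mod.QExpDelta
import Fermat.Prelude.Def_ModularCurve_JqCoeff

/-! # S24 / Mod / package M-QJ : the `q`-expansion of `j` is the formal `jqModC ℂ` -/

set_option autoImplicit false

open UpperHalfPlane ModularForm Function ModularCurve
open scoped Manifold MatrixGroups

noncomputable section

namespace Fermat.Agent.S24

local notation "Δ" => ModularForm.discriminant

/-- from `EisensteinSeries.E_qExpansion_coeff` with `bernoulli 4 = -1/30`. -/
theorem qExpansion_E4 : qExpansion 1 (E₄ : ℍ → ℂ) = eisenstein4.map (Int.castRingHom ℂ) := by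
  ext m
  rw [EisensteinSeries.E_qExpansion_coeff _ ⟨2, rfl⟩, PowerSeries.coeff_map, eisenstein4,
    PowerSeries.coeff_mk]
  split_ifs with h
  · simp
  · rw [show bernoulli 4 = -1 / 30 by decide +kernel, ArithmeticFunction.sigma_apply]
    push_cast
    norm_num

theorem analyticAt_cuspFunction_E4 : AnalyticAt ℂ (cuspFunction 1 (E₄ : ℍ → ℂ)) 0 :=
  ModularFormClass.analyticAt_cuspFunction_zero E₄ one_pos one_mem_strictPeriods_SL

theorem qExpansion_E4_cube :
    qExpansion 1 (fun τ : ℍ => (E₄ τ) ^ 3) = (eisenstein4 ^ 3).map (Int.castRingHom ℂ) := by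
  have h : (fun τ : ℍ => (E₄ τ) ^ 3) = (E₄ : ℍ → ℂ) * ((E₄ : ℍ → ℂ) * (E₄ : ℍ → ℂ)) := by
    funext τ; simp [pow_succ, mul_assoc]
  have h2 : AnalyticAt ℂ (cuspFunction 1 ((E₄ : ℍ → ℂ) * (E₄ : ℍ → ℂ))) 0 := by
    rw [cuspFunction_mul analyticAt_cuspFunction_E4.continuousAt
      analyticAt_cuspFunction_E4.continuousAt]
    exact analyticAt_cuspFunction_E4.mul analyticAt_cuspFunction_E4
  rw [h, qExpansion_mul analyticAt_cuspFunction_E4 h2,
    qExpansion_mul analyticAt_cuspFunction_E4 analyticAt_cuspFunction_E4, qExpansion_E4, map_pow]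
  ring

/-- `qExp(E₄³) = qExp(Δ) * j(q)` in `ℂ((q))`. -/
theorem ofPowerSeries_qExpansion_E4_cube :
    HahnSeries.ofPowerSeries ℤ ℂ (qExpansion 1 (fun τ : ℍ => (E₄ τ) ^ 3))
      = HahnSeries.ofPowerSeries ℤ ℂ (qExpansion 1 Δ) * jqModC ℂ := by
  rw [qExpansion_E4_cube, qExpansion_discriminant, jqModC, jNum, map_mul, map_mul,
    HahnSeries.ofPowerSeries_X, map_mul]
  have h1 : (HahnSeries.single (1 : ℤ) (1 : ℂ)) * HahnSeries.single (-1 : ℤ) 1 = 1 := by
    rw [HahnSeries.single_mul_single]; simp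
  have h2 : HahnSeries.ofPowerSeries ℤ ℂ (dedekindEtaUnit.map (Int.castRingHom ℂ)) *
      HahnSeries.ofPowerSeries ℤ ℂ (dedekindEtaUnitInv.map (Int.castRingHom ℂ)) = 1 := by
    rw [← map_mul, ← map_mul, dedekindEtaUnit_mul_inv, map_one, map_one]
  calc _ = (HahnSeries.single (1 : ℤ) (1 : ℂ) * HahnSeries.single (-1 : ℤ) 1) *
        (HahnSeries.ofPowerSeries ℤ ℂ (dedekindEtaUnit.map (Int.castRingHom ℂ)) *
      HahnSeries.ofPowerSeries ℤ ℂ (dedekindEtaUnitInv.map (Int.castRingHom ℂ))) *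
      HahnSeries.ofPowerSeries ℤ ℂ ((eisenstein4 ^ 3).map (Int.castRingHom ℂ)) := by
        rw [h1, h2]; simp
    _ = _ := by ring

end Fermat.Agent.S24
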