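import Fermat.Agent.S24.Mod.JBasic
import Fermat.Agent.S23.PrimitiveForm

/-! # S24 / Mod / package M-Her : Hermite normal form, `j(dτ) ∈ MerMod N`, `Γ₀(N)`-invariance,
and the converse (`j(Nγτ) = j(Nτ) ⇒ γ ∈ Γ₀(N)`). -/

set_option autoImplicit false

open UpperHalfPlane ModularForm Function Filter Topology
open scoped Manifold MatrixGroups

noncomputable section

namespace Fermat.Agent.S24

local notation "Δ" => ModularForm.discriminant

/-- `τ ↦ (aτ+b)/e`. -/
def affH (a e : ℕ) (b : ℤ) (ha : 0 < a) (he : 0 < e) (τ : ℍ) : ℍ :=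
  ⟨((a : ℂ) * τ + b) / e, by
    have ha' : (0 : ℝ) < a := by exact_mod_cast ha
    have he' : (0 : ℝ) < e := by exact_mod_cast he
    have h : (((a : ℂ) * τ + b) / e).im = a * τ.im / e := by
      have : ((a : ℂ) * τ + b) / e = (((a : ℝ) : ℂ) * τ + ((b : ℝ) : ℂ)) / ((e : ℝ) : ℂ) := by
        push_cast; ring
      rw [this, Complex.div_ofReal_im]
      simp
    rw [h]
    exact div_pos (mul_pos ha' τ.im_pos) he'⟩

@[simp] theorem coe_affH (a e : ℕ) (b : ℤ) (ha : 0 < a) (he : 0 < e) (τ : ℍ) :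
    (affH a e b ha he τ : ℂ) = ((a : ℂ) * τ + b) / e := rfl

namespace Her

open Fermat.Agent.S23.Prim

theorem scaleH_eq_smul (d : ℕ) [NeZero d] (τ : ℍ) : scaleH d τ = heckeDiagMatrix d • τ := by
  apply UpperHalfPlane.ext
  rw [coe_heckeDiagMatrix_smul (NeZero.ne d)]
  rfl

theorem pos_aux {a e : ℕ} (ha : 0 < a) (he : 0 < e) : 0 < (a : ℝ) * (e : ℝ) := by positivity

theorem affH_eq_smul (a e : ℕ) (b : ℤ) (ha : 0 < a) (he : 0 < e) (τ : ℍ) :
    affH a e b ha he τ = upperTriangularGL (a : ℝ) (b : ℝ) (e : ℝ) (pos_aux ha he).ne' • τ := by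
  apply UpperHalfPlane.ext
  have hdet : 0 < ((upperTriangularGL (a : ℝ) (b : ℝ) (e : ℝ) (pos_aux ha he).ne').det : ℝ) := by
    rw [Matrix.GeneralLinearGroup.val_det_apply, val_upperTriangularGL, Matrix.det_fin_two_of]
    simpa using pos_aux ha he
  rw [UpperHalfPlane.coe_smul_of_det_pos hdet]
  simp [UpperHalfPlane.num, UpperHalfPlane.denom]

theorem im_affH (a e : ℕ) (b : ℤ) (ha : 0 < a) (he : 0 < e) (τ : ℍ) :
    (affH a e b ha he τ).im = a * τ.im / e := by
  change (((a : ℂ) * τ + b) / e).im = a * τ.im / e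
  have : ((a : ℂ) * τ + b) / e = (((a : ℝ) : ℂ) * τ + ((b : ℝ) : ℂ)) / ((e : ℝ) : ℂ) := by
    push_cast; ring
  rw [this, Complex.div_ofReal_im]
  simp

/-- Hermite normal form: `diag(N,1) γ = σ [[a,b],[0,e]]` with `σ ∈ SL(2,ℤ)`, `a e = N`. -/
theorem exists_hnf_pos (N : ℕ) [NeZero N] (γ : SL(2, ℤ)) :
    ∃ (σ : SL(2, ℤ)) (a e : ℕ) (b : ℤ) (ha : 0 < a) (he : 0 < e), a * e = N ∧
      γ 1 0 = σ 1 0 * a ∧
      heckeDiagMatrix N * (Matrix.SpecialLinearGroup.mapGL ℝ γ) =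
        (Matrix.SpecialLinearGroup.mapGL ℝ σ) *
          upperTriangularGL (a : ℝ) (b : ℝ) (e : ℝ) (pos_aux ha he).ne' := by
  obtain ⟨σ, g, b, d, hpos, hgd, -, hmat⟩ := exists_hnf N γ
  have hN : N ≠ 0 := NeZero.ne N
  -- the (1,0) entry
  have h10 : γ 1 0 = σ 1 0 * g := by
    have h := congrArg (fun M : GL (Fin 2) ℝ => (M : Matrix (Fin 2) (Fin 2) ℝ) 1 0) hmat
    simp only [Units.val_mul, val_heckeDiagMatrix hN, val_upperTriangularGL, Matrix.mul_apply,
      Fin.sum_univ_two, mapGL_val_apply] at h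
    simp at h
    exact_mod_cast h
  have hpos' : 0 < g * d := by exact_mod_cast hpos
  rcases lt_trichotomy g 0 with hg | hg | hg
  · -- negative: replace everything by its negative
    have hd : d < 0 := by
      by_contra hd
      rw [not_lt] at hd
      nlinarith
    obtain ⟨a, ha⟩ : ∃ a : ℕ, -g = a := ⟨(-g).toNat, (Int.toNat_of_nonneg (by omega)).symm⟩
    obtain ⟨e, he⟩ : ∃ e : ℕ, -d = e := ⟨(-d).toNat, (Int.toNat_of_nonneg (by omega)).symm⟩
    have ha0 : 0 < a := by omega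
    have he0 : 0 < e := by omega
    refine ⟨-σ, a, e, -b, ha0, he0, ?_, ?_, ?_⟩
    · have : ((a * e : ℕ) : ℤ) = N := by
        push_cast
        rw [← ha, ← he, ← hgd]
        ring
      exact_mod_cast this
    · rw [h10, ← ha]
      simp
    · rw [hmat]
      apply Units.ext
      rw [Units.val_mul, Units.val_mul, val_upperTriangularGL, val_upperTriangularGL]
      have ha' : (a : ℝ) = -(g : ℝ) := by exact_mod_cast ha.symm
      have he' : (e : ℝ) = -(d : ℝ) := by exact_mod_cast he.symm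
      ext i j
      rw [Matrix.mul_apply, Matrix.mul_apply, Fin.sum_univ_two, Fin.sum_univ_two]
      simp only [mapGL_val_apply, ha', he']
      fin_cases i <;> fin_cases j <;> simp
  · rw [hg] at hpos'
    simp at hpos'
  · have hd : 0 < d := by
      by_contra hd
      rw [not_lt] at hd
      nlinarith
    obtain ⟨a, ha⟩ : ∃ a : ℕ, g = a := ⟨g.toNat, (Int.toNat_of_nonneg (by omega)).symm⟩
    obtain ⟨e, he⟩ : ∃ e : ℕ, d = e := ⟨d.toNat, (Int.toNat_of_nonneg (by omega)).symm⟩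
    subst ha he
    have ha0 : 0 < a := by omega
    have he0 : 0 < e := by omega
    refine ⟨σ, a, e, b, ha0, he0, by exact_mod_cast hgd, h10, ?_⟩
    rw [hmat]
    rfl

end Her

open Her Fermat.Agent.S23.Prim in
/-- Hermite normal form of `diag(d,1) * γ = δ * [[a,b],[0,e]]`. -/
theorem exists_hermite (d : ℕ) [NeZero d] (γ : SL(2, ℤ)) :
    ∃ (δ : SL(2, ℤ)) (a e : ℕ) (b : ℤ) (ha : 0 < a) (he : 0 < e),
      a * e = d ∧ γ 1 0 = δ 1 0 * a ∧
      ∀ τ : ℍ, scaleH d (γ • τ) = δ • affH a e b ha he τ := by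
  obtain ⟨σ, a, e, b, ha, he, hae, h10, hmat⟩ := exists_hnf_pos d γ
  refine ⟨σ, a, e, b, ha, he, hae, h10, fun τ => ?_⟩
  rw [scaleH_eq_smul, affH_eq_smul]
  change heckeDiagMatrix d • (Matrix.SpecialLinearGroup.mapGL ℝ γ) • τ =
    (Matrix.SpecialLinearGroup.mapGL ℝ σ) • _
  rw [← mul_smul, ← mul_smul, hmat]

/-- consequently `j(d γ τ) = j((aτ+b)/e)`. -/
theorem exists_jD_smul_eq (d : ℕ) [NeZero d] (γ : SL(2, ℤ)) :
    ∃ (a e : ℕ) (b : ℤ) (ha : 0 < a) (he : 0 < e),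
      a * e = d ∧ (a : ℤ) ∣ γ 1 0 ∧
      ∀ τ : ℍ, jD d (γ • τ) = jFun (affH a e b ha he τ) := by
  obtain ⟨δ, a, e, b, ha, he, hae, h10, h⟩ := exists_hermite d γ
  exact ⟨a, e, b, ha, he, hae, ⟨δ 1 0, by rw [h10]; ring⟩, fun τ => by rw [jD, h, jFun_smul]⟩

namespace Her

local notation "𝕢" => Periodic.qParam

theorem periodic_of_vadd {f : ℍ → ℂ} {h : ℝ} (hf : ∀ τ : ℍ, f (h +ᵥ τ) = f τ) :
    Periodic (f ∘ ofComplex) h := by
  intro w
  by_cases hw : 0 < w.im
  · have h2 : 0 < (w + h).im := by simp [hw]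
    simp only [comp_apply, ofComplex_apply_of_im_pos h2, ofComplex_apply_of_im_pos hw]
    rw [← hf ⟨w, hw⟩]
    congr 1
    ext
    simp [add_comm]
  · have hw' : w.im ≤ 0 := not_lt.mp hw
    have h2 : (w + h).im ≤ 0 := by simpa using hw'
    simp [ofComplex_apply_of_im_nonpos h2, ofComplex_apply_of_im_nonpos hw']

theorem vadd_of_periodic {f : ℍ → ℂ} {h : ℝ} (hf : Periodic (f ∘ ofComplex) h) (τ : ℍ) :
    f (h +ᵥ τ) = f τ := by
  have h1 := hf (τ : ℂ)
  simp only [comp_apply, ofComplex_apply] at h1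
  rw [← h1]
  congr 1
  have : ((τ : ℂ) + h) = ((h +ᵥ τ : ℍ) : ℂ) := by simp [add_comm]
  rw [this, ofComplex_apply]

theorem jFun_vadd_int (n : ℤ) (τ : ℍ) : jFun ((n : ℝ) +ᵥ τ) = jFun τ := by
  rw [← UpperHalfPlane.modular_T_zpow_smul, jFun_smul]

theorem tendsto_affH (a e : ℕ) (b : ℤ) (ha : 0 < a) (he : 0 < e) :
    Tendsto (affH a e b ha he) atImInfty atImInfty := by
  have : affH a e b ha he =
      fun τ => upperTriangularGL (a : ℝ) (b : ℝ) (e : ℝ) (pos_aux ha he).ne' • τ := by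
    funext τ
    exact affH_eq_smul a e b ha he τ
  rw [this]
  exact tendsto_smul_atImInfty (by simp)

theorem mdiff_jFun_affH (a e : ℕ) (b : ℤ) (ha : 0 < a) (he : 0 < e) :
    MDiff (fun τ => jFun (affH a e b ha he τ)) := by
  have h1 : MDiff (jFun ∣[(0 : ℤ)] upperTriangularGL (a : ℝ) (b : ℝ) (e : ℝ) (pos_aux ha he).ne') :=
    mdiff_jFun.slash 0 _
  have h2 : (fun τ => jFun (affH a e b ha he τ)) = fun τ => (((a : ℝ) * (e : ℝ) : ℝ) : ℂ) *
      (jFun ∣[(0 : ℤ)] upperTriangularGL (a : ℝ) (b : ℝ) (e : ℝ) (pos_aux ha he).ne') τ := by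
    funext τ
    rw [Fermat.Agent.S23.Prim.slash_upperTriangularGL_apply 0 _ _ _ (pos_aux ha he), affH_eq_smul]
    have hne : (((a : ℝ) * (e : ℝ) : ℝ) : ℂ) ≠ 0 := by exact_mod_cast (pos_aux ha he).ne'
    simp only [zero_sub, zpow_neg, zpow_one, neg_zero, zpow_zero, mul_one]
    field_simp
  rw [h2]
  exact mdifferentiable_const.mul h1

theorem norm_qParam_pow_mul_inv_le (a e : ℕ) (b : ℤ) (ha : 0 < a) (he : 0 < e) (τ : ℍ) :
    ‖𝕢 1 (τ : ℂ) ^ a * (𝕢 1 (affH a e b ha he τ : ℂ))⁻¹‖ ≤ 1 := by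
  rw [norm_mul, norm_pow, norm_inv, Periodic.norm_qParam, Periodic.norm_qParam, ← Real.exp_nat_mul,
    ← Real.exp_neg, ← Real.exp_add]
  apply Real.exp_le_one_iff.mpr
  have h1 : ((affH a e b ha he τ : ℍ) : ℂ).im = a * τ.im / e := im_affH a e b ha he τ
  rw [h1]
  have hτ : 0 < τ.im := τ.im_pos
  have he' : (1 : ℝ) ≤ e := by exact_mod_cast he
  have ha' : (0 : ℝ) < a := by exact_mod_cast ha
  have h2 : a * τ.im / e ≤ a * τ.im := div_le_self (by positivity) he'
  have hpi := Real.pi_pos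
  have h3 : (τ : ℂ).im = τ.im := rfl
  rw [h3]
  have : (a : ℝ) * (-2 * Real.pi * τ.im / 1) + -(-2 * Real.pi * (a * τ.im / e) / 1) =
      -(2 * Real.pi) * (a * τ.im - a * τ.im / e) := by ring
  rw [this]
  have h4 : 0 ≤ a * τ.im - a * τ.im / e := by linarith
  nlinarith

end Her

open Her in
/-- growth: `Δ(τ)^a * j((aτ+b)/e)` is `N`-periodic (if `e ∣ N`), holomorphic, bounded at `i∞`. -/
theorem isNice_discriminant_pow_mul_jFun_affH (N a e : ℕ) (b : ℤ) (ha : 0 < a) (he : 0 < e)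
    (heN : e ∣ N) : IsNice N (fun τ => Δ τ ^ a * jFun (affH a e b ha he τ)) where
  per := by
    apply periodic_of_vadd
    intro τ
    have hΔ : Δ ((N : ℝ) +ᵥ τ) = Δ τ := vadd_of_periodic (isNice_discriminant N).per τ
    have hj : jFun (affH a e b ha he ((N : ℝ) +ᵥ τ)) = jFun (affH a e b ha he τ) := by
      obtain ⟨m, rfl⟩ := heN
      have : affH a e b ha he (((e * m : ℕ) : ℝ) +ᵥ τ) =
          (((a * m : ℕ) : ℤ) : ℝ) +ᵥ affH a e b ha he τ := by
        apply UpperHalfPlane.ext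
        have he' : (e : ℂ) ≠ 0 := by exact_mod_cast he.ne'
        simp only [coe_affH, UpperHalfPlane.coe_vadd]
        push_cast
        field_simp
        ring
      rw [this, jFun_vadd_int]
    show Δ ((N : ℝ) +ᵥ τ) ^ a * jFun (affH a e b ha he ((N : ℝ) +ᵥ τ)) =
      Δ τ ^ a * jFun (affH a e b ha he τ)
    rw [hΔ, hj]
  holo := ((isNice_discriminant N).holo.pow a).mul (mdiff_jFun_affH a e b ha he)
  bdd := by
    have h1 : IsBoundedAtImInfty (fun τ : ℍ => (∏' n, (1 - eta_q n τ) ^ 24) ^ a) :=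
      ((tendsto_atImInfty_tprod_one_sub_eta_q_pow).pow a).isBigO_one ℝ
    have h2 : IsBoundedAtImInfty (fun τ : ℍ => jFun (affH a e b ha he τ) *
        Periodic.qParam 1 (affH a e b ha he τ : ℂ)) :=
      (tendsto_jFun_mul_qParam.comp (tendsto_affH a e b ha he)).isBigO_one ℝ
    have h3 : IsBoundedAtImInfty (fun τ : ℍ => Periodic.qParam 1 (τ : ℂ) ^ a *
        (Periodic.qParam 1 (affH a e b ha he τ : ℂ))⁻¹) := by
      refine Asymptotics.IsBigO.of_bound 1 (Eventually.of_forall fun τ => ?_)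
      simpa using norm_qParam_pow_mul_inv_le a e b ha he τ
    have h4 : IsBoundedAtImInfty _ := (h1.mul h2).mul h3
    have h5 : (fun τ => Δ τ ^ a * jFun (affH a e b ha he τ)) =
        (((fun τ : ℍ => (∏' (n : ℕ), (1 - eta_q n ↑τ) ^ 24) ^ a) * fun τ : ℍ =>
          jFun (affH a e b ha he τ) * Periodic.qParam 1 ↑(affH a e b ha he τ)) *
        fun τ : ℍ => Periodic.qParam 1 ↑τ ^ a * (Periodic.qParam 1 ↑(affH a e b ha he τ))⁻¹) := by
      funext τ
      simp only [Pi.mul_apply]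
      rw [discriminant_eq_q_prod]
      have hq : Periodic.qParam 1 (affH a e b ha he τ : ℂ) ≠ 0 := by
        simp [Periodic.qParam]
      field_simp
      ring
    rw [h5]
    exact h4

theorem jD_mem_MerMod {N d : ℕ} [NeZero N] [NeZero d] (hd : d ∣ N) : jD d ∈ MerMod N := by
  intro γ
  obtain ⟨a, e, b, ha, he, hae, -, h⟩ := exists_jD_smul_eq d γ
  refine ⟨a, ?_⟩
  have heN : e ∣ N := (Dvd.intro_left a hae).trans hd
  have := isNice_discriminant_pow_mul_jFun_affH N a e b ha he heN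
  convert this using 2 with τ
  rw [h]

theorem jFun_mem_MerMod (N : ℕ) [NeZero N] : jFun ∈ MerMod N := by
  intro γ
  refine ⟨1, ?_⟩
  have h1 : IsNice N ((E₄ : ℍ → ℂ) ^ 3) := by
    simpa using (isNice_E4.pow 3).of_nat_mul N
  convert h1 using 1
  funext τ
  rw [jFun_smul, pow_one, discriminant_mul_jFun]
  rfl

open Her Fermat.Agent.S23.Prim in
theorem jD_smul_of_mem_Gamma0 {N d : ℕ} [NeZero d] (hd : d ∣ N) {γ : SL(2, ℤ)}
    (hγ : γ ∈ CongruenceSubgroup.Gamma0 N) (τ : ℍ) : jD d (γ • τ) = jD d τ := by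
  have hγ' : (d : ℤ) ∣ γ 1 0 := by
    have h1 : (N : ℤ) ∣ γ 1 0 :=
      (ZMod.intCast_zmod_eq_zero_iff_dvd _ _).mp (CongruenceSubgroup.Gamma0_mem.mp hγ)
    exact (Int.natCast_dvd_natCast.mpr hd).trans h1
  have h2 : scaleH d (γ • τ) = conjDiag d γ hγ' • scaleH d τ := by
    rw [scaleH_eq_smul, scaleH_eq_smul]
    change heckeDiagMatrix d • (Matrix.SpecialLinearGroup.mapGL ℝ γ) • τ =
      (Matrix.SpecialLinearGroup.mapGL ℝ (conjDiag d γ hγ')) • _
    rw [← mul_smul, ← mul_smul, heckeDiagMatrix_mul_mapGL]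
  rw [jD, h2, jFun_smul]
  rfl

namespace Her

theorem tendsto_scaleH (d : ℕ) [NeZero d] : Tendsto (scaleH d) atImInfty atImInfty := by
  have : scaleH d = fun τ => heckeDiagMatrix d • τ := by
    funext τ
    exact scaleH_eq_smul d τ
  rw [this]
  exact tendsto_smul_atImInfty (by simp [val_heckeDiagMatrix (NeZero.ne d)])

theorem tendsto_exp_neg_mul_im {c : ℝ} (hc : 0 < c) :
    Tendsto (fun τ : ℍ => Real.exp (-c * τ.im)) atImInfty (𝓝 0) := by
  have h1 : Tendsto (fun τ : ℍ => τ.im) atImInfty atTop := tendsto_comap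
  have h2 : Tendsto (fun τ : ℍ => -c * τ.im) atImInfty atBot :=
    h1.const_mul_atTop_of_neg (by linarith)
  exact Real.tendsto_exp_atBot.comp h2

end Her

open Her in
/-- compare growth at `i∞`: `|j((aτ+b)/e)| ~ exp(2π (a/e) Im τ)` (from `tendsto_jFun_mul_qParam`),
so `j(Nγτ) = j(Nτ)` forces `a/e = N`, `a e = N`, hence `a = N ∣ γ 1 0`. -/
theorem mem_Gamma0_of_jD_smul {N : ℕ} [NeZero N] {γ : SL(2, ℤ)}
    (h : ∀ τ : ℍ, jD N (γ • τ) = jD N τ) : γ ∈ CongruenceSubgroup.Gamma0 N := by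
  obtain ⟨a, e, b, ha, he, hae, hdvd, hj⟩ := exists_jD_smul_eq N γ
  have he1 : e = 1 := by
    by_contra hne
    have he2 : 2 ≤ e := by omega
    have hu := tendsto_jFun_mul_qParam.comp (tendsto_affH a e b ha he)
    have hv := tendsto_jFun_mul_qParam.comp (tendsto_scaleH N)
    set c : ℝ := 2 * Real.pi * ((N : ℝ) - a / e) with hc
    have hcpos : 0 < c := by
      have ha' : (0 : ℝ) < a := by exact_mod_cast ha
      have he' : (2 : ℝ) ≤ e := by exact_mod_cast he2
      have hN : (N : ℝ) = a * e := by exact_mod_cast hae.symm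
      have h1 : (a : ℝ) / e < a := div_lt_self ha' (by linarith)
      have h2 : (a : ℝ) ≤ a * e := by nlinarith
      have := Real.pi_pos
      rw [hc, hN]
      have h3 : 0 < (a : ℝ) * e - a / e := by linarith
      positivity
    have hr : Tendsto (fun τ : ℍ => Periodic.qParam 1 (scaleH N τ : ℂ) *
        (Periodic.qParam 1 (affH a e b ha he τ : ℂ))⁻¹) atImInfty (𝓝 0) := by
      rw [tendsto_zero_iff_norm_tendsto_zero]
      refine (tendsto_exp_neg_mul_im hcpos).congr fun τ => ?_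
      rw [norm_mul, norm_inv, Periodic.norm_qParam, Periodic.norm_qParam, ← Real.exp_neg,
        ← Real.exp_add]
      congr 1
      have h1 : ((affH a e b ha he τ : ℍ) : ℂ).im = a * τ.im / e := im_affH a e b ha he τ
      have h2 : ((scaleH N τ : ℍ) : ℂ).im = N * τ.im := by simp
      rw [h1, h2, hc]
      ring
    have hprod := hu.mul hr
    rw [mul_zero] at hprod
    have heq : (fun τ : ℍ => ((fun τ : ℍ => jFun τ * Periodic.qParam 1 (τ : ℂ)) ∘
        affH a e b ha he) τ * (Periodic.qParam 1 (scaleH N τ : ℂ) *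
        (Periodic.qParam 1 (affH a e b ha he τ : ℂ))⁻¹)) =
        (fun τ : ℍ => jFun τ * Periodic.qParam 1 (τ : ℂ)) ∘ scaleH N := by
      funext τ
      have hq : Periodic.qParam 1 (affH a e b ha he τ : ℂ) ≠ 0 := by
        simp [Periodic.qParam]
      have hJ : jFun (affH a e b ha he τ) = jFun (scaleH N τ) := by
        rw [← hj, h]
        rfl
      simp only [comp_apply]
      rw [hJ]
      field_simp
    rw [heq] at hprod
    exact zero_ne_one (tendsto_nhds_unique hprod hv)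
  rw [he1, mul_one] at hae
  rw [CongruenceSubgroup.Gamma0_mem, ZMod.intCast_zmod_eq_zero_iff_dvd, ← hae]
  exact hdvd

end Fermat.Agent.S24
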