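import Fermat.Agent.S24.Mod.Ramanujan

/-! # S24 / Mod / package M-JO : order of vanishing of `j - j(τ₀)` at `τ₀` -/

set_option autoImplicit false

open UpperHalfPlane ModularForm Function Filter Topology
open scoped Manifold MatrixGroups

noncomputable section

namespace Fermat.Agent.S24

local notation "Δ" => ModularForm.discriminant

/-- a holomorphic function on `ℍ` gives an analytic function near every point of `ℍ`. -/
theorem jo_analyticAt_comp_ofComplex {F : ℍ → ℂ} (hF : MDiff F) (τ : ℍ) :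
    AnalyticAt ℂ (F ∘ ofComplex) (τ : ℂ) :=
  (UpperHalfPlane.mdifferentiable_iff.mp hF).analyticAt
    (isOpen_upperHalfPlaneSet.mem_nhds τ.im_pos)

/-- a simple zero has meromorphic order one. -/
theorem jo_order_eq_one {f : ℂ → ℂ} {x : ℂ} (hf : AnalyticAt ℂ f x) (h0 : f x = 0)
    (h1 : deriv f x ≠ 0) : meromorphicOrderAt f x = 1 := by
  rw [hf.meromorphicOrderAt_eq, hf.analyticOrderAt_eq_one_of_zero_deriv_ne_zero h0 h1]
  rfl

theorem jo_order_pow {f : ℂ → ℂ} {x : ℂ} (hf : AnalyticAt ℂ f x) (h0 : f x = 0)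
    (h1 : deriv f x ≠ 0) {g : ℂ → ℂ} (hg : AnalyticAt ℂ g x) (hg0 : g x ≠ 0) (n : ℕ) :
    meromorphicOrderAt (g * f ^ n) x = n := by
  rw [meromorphicOrderAt_mul_of_ne_zero hg hg0, meromorphicOrderAt_pow hf.meromorphicAt,
    jo_order_eq_one hf h0 h1, mul_one]

theorem jo_analyticAt_inv_discriminant (τ : ℍ) :
    AnalyticAt ℂ (fun z : ℂ => (Δ (ofComplex z))⁻¹) (τ : ℂ) :=
  (jo_analyticAt_comp_ofComplex CuspForm.discriminant.holo' τ).inv
    (discriminant_ne_zero _)

theorem order_jFun_sub_generic (τ₀ : ℍ) (h0 : jFun τ₀ ≠ 0) (h1 : jFun τ₀ ≠ 1728) :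
    meromorphicOrderAt (fun z : ℂ => jFun (ofComplex z) - jFun τ₀) (τ₀ : ℂ) = 1 := by
  have h4 : E₄ τ₀ ≠ 0 := by
    intro h
    have := discriminant_mul_jFun τ₀
    rw [h] at this
    rcases mul_eq_zero.mp (this.trans (by simp)) with h' | h'
    · exact discriminant_ne_zero _ h'
    · exact h0 h'
  have h6 : E₆ τ₀ ≠ 0 := by
    intro h
    have := discriminant_mul_jFun_sub τ₀
    rw [h] at this
    rcases mul_eq_zero.mp (this.trans (by simp)) with h' | h'
    · exact discriminant_ne_zero _ h'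
    · exact h1 (sub_eq_zero.mp h')
  have han : AnalyticAt ℂ (jFun ∘ ofComplex) (τ₀ : ℂ) := jo_analyticAt_comp_ofComplex mdiff_jFun τ₀
  have hsub : AnalyticAt ℂ (fun z : ℂ => jFun (ofComplex z) - jFun τ₀) (τ₀ : ℂ) :=
    han.sub analyticAt_const
  have key := han.analyticOrderAt_sub_eq_one_of_deriv_ne_zero (deriv_jFun_ne_zero τ₀ h4 h6)
  simp only [Function.comp_apply, ofComplex_apply] at key
  rw [hsub.meromorphicOrderAt_eq, key]
  rfl

theorem order_jFun_sub_I :
    meromorphicOrderAt (fun z : ℂ => jFun (ofComplex z) - 1728) ((UpperHalfPlane.I : ℍ) : ℂ) = 2 := by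
  have hfun : (fun z : ℂ => jFun (ofComplex z) - 1728) =
      (fun z : ℂ => (Δ (ofComplex z))⁻¹) * ((E₆ : ℍ → ℂ) ∘ ofComplex) ^ 2 := by
    funext z
    simp only [Pi.mul_apply, Pi.pow_apply, Function.comp_apply]
    rw [← discriminant_mul_jFun_sub, inv_mul_cancel_left₀ (discriminant_ne_zero _)]
  rw [hfun]
  exact jo_order_pow (jo_analyticAt_comp_ofComplex E₆.holo' _)
    (by rw [Function.comp_apply, ofComplex_apply]; exact E6_I) (deriv_E6_ne_zero_of_E6_eq_zero _ E6_I)
    (jo_analyticAt_inv_discriminant _) (inv_ne_zero (discriminant_ne_zero _)) 2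

theorem order_jFun_rhoH :
    meromorphicOrderAt (fun z : ℂ => jFun (ofComplex z) - 0) (rhoH : ℂ) = 3 := by
  have hfun : (fun z : ℂ => jFun (ofComplex z) - 0) =
      (fun z : ℂ => (Δ (ofComplex z))⁻¹) * ((E₄ : ℍ → ℂ) ∘ ofComplex) ^ 3 := by
    funext z
    simp only [Pi.mul_apply, Pi.pow_apply, Function.comp_apply, sub_zero]
    rw [← discriminant_mul_jFun, inv_mul_cancel_left₀ (discriminant_ne_zero _)]
  rw [hfun]
  exact jo_order_pow (jo_analyticAt_comp_ofComplex E₄.holo' _)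
    (by rw [Function.comp_apply, ofComplex_apply]; exact E4_rhoH) (deriv_E4_ne_zero_of_E4_eq_zero _ E4_rhoH)
    (jo_analyticAt_inv_discriminant _) (inv_ne_zero (discriminant_ne_zero _)) 3

end Fermat.Agent.S24
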