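import Fermat.Agent.S24.Mod.Degree
import Fermat.Agent.S24.Mod.JOrder
import Fermat.Agent.S24.Mod.MerVal
import Fermat.Agent.S24.FF.LocalCount

/-! # S24 / Mod / package M-LI : places of `FN N` over `j = c`, `c ∈ ℚ̄` (interior points) -/

set_option autoImplicit false

open UpperHalfPlane ModularForm Function ModularCurve IntermediateField AlgebraicCurve Filter Topology
open scoped Manifold MatrixGroups

noncomputable section

namespace Fermat.Agent.S24

/-- functions on `ℍ` as functions on `ℂ`. -/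
def evC (N : ℕ) : MerMod N →+* (ℂ → ℂ) where
  toFun f := fun z => f.1 (ofComplex z)
  map_one' := rfl
  map_mul' _ _ := rfl
  map_zero' := rfl
  map_add' _ _ := rfl

@[simp] theorem evC_apply {N : ℕ} (f : MerMod N) (z : ℂ) : evC N f z = f.1 (ofComplex z) := rfl

theorem mdiff_of_mem_MerMod {N : ℕ} (f : MerMod N) : MDiff f.1 := by
  obtain ⟨m, hm⟩ := f.2 1
  have h1 : MDiff (fun τ : ℍ => ModularForm.discriminant τ ^ m) :=
    ((isNice_discriminant N).pow m).holo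
  have h2 := hm.holo.div h1 (fun τ => pow_ne_zero m (discriminant_ne_zero τ))
  have h3 : f.1 = (fun τ : ℍ => ModularForm.discriminant τ ^ m * f.1 ((1 : SL(2, ℤ)) • τ)) /
      fun τ : ℍ => ModularForm.discriminant τ ^ m := by
    funext τ
    simp only [one_smul, Pi.div_apply]
    rw [mul_div_cancel_left₀ _ (pow_ne_zero m (discriminant_ne_zero τ))]
  rw [h3]
  exact h2

theorem analyticAt_evC {N : ℕ} (f : MerMod N) (τ₀ : ℍ) : AnalyticAt ℂ (evC N f) (τ₀ : ℂ) := by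
  have h := UpperHalfPlane.mdifferentiable_iff.1 (mdiff_of_mem_MerMod f)
  exact h.analyticAt (isOpen_upperHalfPlaneSet.mem_nhds τ₀.im_pos)

/-- identity theorem on the connected open set `ℍ`. -/
theorem order_evC_ne_top {N : ℕ} (f : MerMod N) (hf : f ≠ 0) (τ₀ : ℍ) :
    meromorphicOrderAt (evC N f) (τ₀ : ℂ) ≠ ⊤ := by
  intro htop
  apply hf
  apply Subtype.ext
  rw [meromorphicOrderAt_eq_top_iff] at htop
  apply UpperHalfPlane.eq_zero_of_frequently (mdiff_of_mem_MerMod f) (τ := τ₀)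
  apply Eventually.frequently
  rw [eventually_nhdsWithin_iff] at htop ⊢
  rw [← isOpenEmbedding_coe.map_nhds_eq, eventually_map] at htop
  filter_upwards [htop] with a ha hne
  have h1 : (a : ℂ) ∈ ({(τ₀ : ℂ)}ᶜ : Set ℂ) := by
    intro h
    exact hne (UpperHalfPlane.ext h)
  have h2 := ha h1
  rwa [evC_apply, ofComplex_apply] at h2

theorem exists_Wat (N : ℕ) [NeZero N] (τ₀ : ℍ) :
    ∃ W : Valuation (LL N) (WithZero (Multiplicative ℤ)), ∀ f : MerMod N, f ≠ 0 →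
      W (algebraMap (MerMod N) (LL N) f)
        = WithZero.exp (-(meromorphicOrderAt (evC N f) (τ₀ : ℂ)).untop₀) :=
  exists_valuation_of_meromorphic (LL N) (evC N) (τ₀ : ℂ)
    (fun f => (analyticAt_evC f τ₀).meromorphicAt) (fun f hf => order_evC_ne_top f hf τ₀)

/-- the valuation `ord_{τ₀}` on `LL N`. -/
def Wat (N : ℕ) [NeZero N] (τ₀ : ℍ) : Valuation (LL N) (WithZero (Multiplicative ℤ)) :=
  (exists_Wat N τ₀).choose

theorem Wat_algebraMap {N : ℕ} [NeZero N] (τ₀ : ℍ) (f : MerMod N) (hf : f ≠ 0) :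
    Wat N τ₀ (algebraMap (MerMod N) (LL N) f)
      = WithZero.exp (-(meromorphicOrderAt (evC N f) (τ₀ : ℂ)).untop₀) :=
  (exists_Wat N τ₀).choose_spec f hf

theorem Wat_algebraMap_Kb {N : ℕ} [NeZero N] (τ₀ : ℍ) (a : Kb) (ha : a ≠ 0) :
    Wat N τ₀ (algebraMap Kb (LL N) a) = 1 := by
  classical
  rw [IsScalarTower.algebraMap_apply Kb (MerMod N) (LL N)]
  have hne : algebraMap Kb (MerMod N) a ≠ 0 := by
    rw [Ne, map_eq_zero_iff _ (algebraMap Kb (MerMod N)).injective]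
    exact ha
  rw [Wat_algebraMap τ₀ _ hne]
  have h1 : evC N (algebraMap Kb (MerMod N) a) = fun _ => iota a := rfl
  have h2 : iota a ≠ 0 := by
    rw [Ne, map_eq_zero_iff _ iota.injective]
    exact ha
  rw [h1, meromorphicOrderAt_const, if_neg h2]
  simp

theorem det_coe_SL (γ : SL(2, ℤ)) : ((γ : GL (Fin 2) ℝ)).val.det = 1 :=
  Matrix.SpecialLinearGroup.det_coe (Matrix.SpecialLinearGroup.map (Int.castRingHom ℝ) γ)

theorem det_coe_SL_pos (γ : SL(2, ℤ)) : 0 < ((γ : GL (Fin 2) ℝ)).val.det := by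
  rw [det_coe_SL]; exact one_pos

theorem order_evC_smul {N : ℕ} (τ₀ : ℍ) (γ : SL(2, ℤ)) (hγ : γ • τ₀ = τ₀) (a : MerMod N) :
    meromorphicOrderAt (evC N (γ • a)) (τ₀ : ℂ) = meromorphicOrderAt (evC N a) (τ₀ : ℂ) := by
  have h := UpperHalfPlane.meromorphicOrderAt_comp_smul (f := a.1) (τ := τ₀)
    (g := ((γ⁻¹ : SL(2, ℤ)) : GL (Fin 2) ℝ)) (det_coe_SL_pos γ⁻¹)
  have h2 : (γ⁻¹ : SL(2, ℤ)) • τ₀ = τ₀ := by rw [inv_smul_eq_iff, hγ]
  rw [← ModularGroup.sl_moeb, h2] at h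
  exact h

theorem Wat_smul_algebraMap {N : ℕ} [NeZero N] (τ₀ : ℍ) (γ : SL(2, ℤ)) (hγ : γ • τ₀ = τ₀)
    (a : MerMod N) :
    Wat N τ₀ (algebraMap (MerMod N) (LL N) (γ • a)) = Wat N τ₀ (algebraMap (MerMod N) (LL N) a) := by
  by_cases ha : a = 0
  · simp [ha]
  · have ha' : γ • a ≠ 0 := by
      rwa [Ne, smul_eq_zero_iff_eq]
    rw [Wat_algebraMap τ₀ _ ha, Wat_algebraMap τ₀ _ ha', order_evC_smul τ₀ γ hγ]

/-- (`UpperHalfPlane.meromorphicOrderAt_comp_smul`) -/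
theorem Wat_smul {N : ℕ} [NeZero N] (τ₀ : ℍ) (γ : SL(2, ℤ)) (hγ : γ • τ₀ = τ₀) (h : LL N) :
    Wat N τ₀ (γ • h) = Wat N τ₀ h := by
  obtain ⟨a, b, hb, rfl⟩ := IsFractionRing.div_surjective (A := MerMod N) h
  rw [smul_div₀', smul_algebraMap_LL, smul_algebraMap_LL, map_div₀, map_div₀,
    Wat_smul_algebraMap τ₀ γ hγ, Wat_smul_algebraMap τ₀ γ hγ]

/-- (`zpow_order_sub_eq_one_of_comp_mul_eq`, `UpperHalfPlane.deriv_smul`, `analyticAt_smul`);
the multiplier of `τ ↦ γ⁻¹ • τ` at the fixed point `τ₀` is `(denom γ⁻¹ τ₀)⁻²`. -/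
theorem zpow_log_Wat_eq_one {N : ℕ} [NeZero N] (τ₀ : ℍ) (γ : SL(2, ℤ)) (hγ : γ • τ₀ = τ₀)
    (h : LL N) (hh : h ≠ 0) (hinv : γ • h = h) :
    ((denom (γ⁻¹ : SL(2, ℤ)) τ₀ : ℂ) ^ 2) ^ (WithZero.log (Wat N τ₀ h)) = 1 := by
  obtain ⟨a, b, hb, rfl⟩ := IsFractionRing.div_surjective (A := MerMod N) h
  have hinj := IsFractionRing.injective (MerMod N) (LL N)
  have hb0 : b ≠ 0 := nonZeroDivisors.ne_zero hb
  have hb1 : algebraMap (MerMod N) (LL N) b ≠ 0 := by
    rwa [Ne, map_eq_zero_iff _ hinj]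
  have ha1 : algebraMap (MerMod N) (LL N) a ≠ 0 := by
    intro h0
    apply hh
    rw [h0, zero_div]
  have ha0 : a ≠ 0 := by
    rintro rfl
    exact ha1 (map_zero _)
  have hγb0 : γ • b ≠ 0 := by rwa [Ne, smul_eq_zero_iff_eq]
  have hγb1 : algebraMap (MerMod N) (LL N) (γ • b) ≠ 0 := by
    rwa [Ne, map_eq_zero_iff _ hinj]
  -- the relation in `MerMod N`
  have hrel : (γ • a) * b = a * (γ • b) := by
    apply hinj
    rw [smul_div₀', smul_algebraMap_LL, smul_algebraMap_LL, div_eq_div_iff hγb1 hb1] at hinv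
    rw [map_mul, map_mul, hinv]
  set g : GL (Fin 2) ℝ := ((γ⁻¹ : SL(2, ℤ)) : GL (Fin 2) ℝ) with hg
  have hgpos : 0 < g.val.det := det_coe_SL_pos γ⁻¹
  have hfix : g • τ₀ = τ₀ := by
    rw [hg, ← ModularGroup.sl_moeb, inv_smul_eq_iff, hγ]
  have hden : (denom g τ₀ : ℂ) ^ 2 ≠ 0 := pow_ne_zero 2 (denom_ne_zero g τ₀)
  have hμ : deriv (fun z => ((g • ofComplex z : ℍ) : ℂ)) (τ₀ : ℂ) = ((denom g τ₀ : ℂ) ^ 2)⁻¹ := by
    rw [UpperHalfPlane.deriv_smul hgpos, hg, det_coe_SL]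
    simp
  have key := zpow_order_sub_eq_one_of_comp_mul_eq (a := evC N a) (b := evC N b)
    (σ := fun z => ((g • ofComplex z : ℍ) : ℂ)) (x := (τ₀ : ℂ)) (μ := ((denom g τ₀ : ℂ) ^ 2)⁻¹)
    (analyticAt_evC a τ₀).meromorphicAt (analyticAt_evC b τ₀).meromorphicAt
    (order_evC_ne_top a ha0 τ₀) (order_evC_ne_top b hb0 τ₀)
    (UpperHalfPlane.analyticAt_smul hgpos τ₀)
    (by simp only [ofComplex_apply, hfix]) hμ (inv_ne_zero hden)
    (Eventually.of_forall fun z => by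
      have h1 := congrArg (fun f : MerMod N => f.1 (ofComplex z)) hrel
      simp only [evC_apply, ofComplex_apply]
      exact h1)
  rw [map_div₀, WithZero.log_div ((Valuation.ne_zero_iff _).2 ha1) ((Valuation.ne_zero_iff _).2 hb1),
    Wat_algebraMap τ₀ a ha0, Wat_algebraMap τ₀ b hb0, WithZero.log_exp, WithZero.log_exp]
  rw [inv_zpow, ← zpow_neg] at key
  rw [← key]
  congr 1
  ring

/-- a prime order root of unity relation forces divisibility of the exponent. -/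
theorem dvd_of_zpow_eq_one_of_prime {ζ : ℂ} {p : ℕ} [Fact p.Prime] (h1 : ζ ^ p = 1) (h2 : ζ ≠ 1)
    {k : ℤ} (hk : ζ ^ k = 1) : (p : ℤ) ∣ k := by
  have h3 : IsPrimitiveRoot ζ p := by
    have := IsPrimitiveRoot.orderOf ζ
    rwa [orderOf_eq_prime h1 h2] at this
  exact (h3.zpow_eq_one_iff_dvd k).1 hk

theorem denom_S_inv_I : (denom ((ModularGroup.S⁻¹ : SL(2, ℤ)) : GL (Fin 2) ℝ)
    (UpperHalfPlane.I : ℍ) : ℂ) ^ 2 = -1 := by
  have h10 : ((ModularGroup.S⁻¹ : SL(2, ℤ))) 1 0 = -1 := by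
    rw [Matrix.SpecialLinearGroup.SL2_inv_expl]
    simp [ModularGroup.coe_S]
  have h11 : ((ModularGroup.S⁻¹ : SL(2, ℤ))) 1 1 = 0 := by
    rw [Matrix.SpecialLinearGroup.SL2_inv_expl]
    simp [ModularGroup.coe_S]
  rw [ModularGroup.denom_apply, h10, h11]
  simp

theorem two_dvd_log_Wat_I {N : ℕ} [NeZero N] (h : LL N) (hh : h ≠ 0)
    (hinv : ModularGroup.S • h = h) : (2 : ℤ) ∣ WithZero.log (Wat N UpperHalfPlane.I h) := by
  have key := zpow_log_Wat_eq_one UpperHalfPlane.I ModularGroup.S S_smul_I h hh hinv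
  rw [denom_S_inv_I] at key
  have : Fact (Nat.Prime 2) := ⟨Nat.prime_two⟩
  exact dvd_of_zpow_eq_one_of_prime (p := 2) (by norm_num) (by norm_num) key

theorem rhoH_sq_add : ((rhoH : ℍ) : ℂ) ^ 2 + (rhoH : ℂ) + 1 = 0 := by
  have h3 : ((Real.sqrt 3 : ℝ) : ℂ) ^ 2 = 3 := by
    rw [← Complex.ofReal_pow, Real.sq_sqrt (by norm_num)]
    norm_num
  have h : ((rhoH : ℍ) : ℂ) = -1 / 2 + ((Real.sqrt 3 / 2 : ℝ) : ℂ) * Complex.I := rfl
  rw [h]
  push_cast
  have hI : Complex.I ^ 2 = -1 := Complex.I_sq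
  linear_combination (1 / 4 : ℂ) * Complex.I ^ 2 * h3 + (3 / 4 : ℂ) * hI

theorem denom_ST_inv_rhoH : (denom (((ModularGroup.S * ModularGroup.T)⁻¹ : SL(2, ℤ)) :
    GL (Fin 2) ℝ) (rhoH : ℍ) : ℂ) ^ 2 = (rhoH : ℂ) ^ 2 := by
  have h10 : (((ModularGroup.S * ModularGroup.T)⁻¹ : SL(2, ℤ))) 1 0 = -1 := by
    rw [Matrix.SpecialLinearGroup.SL2_inv_expl]
    simp [ModularGroup.coe_S, ModularGroup.coe_T]
  have h11 : (((ModularGroup.S * ModularGroup.T)⁻¹ : SL(2, ℤ))) 1 1 = 0 := by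
    rw [Matrix.SpecialLinearGroup.SL2_inv_expl]
    simp [ModularGroup.coe_S, ModularGroup.coe_T]
  rw [ModularGroup.denom_apply, h10, h11]
  simp

theorem three_dvd_log_Wat_rhoH {N : ℕ} [NeZero N] (h : LL N) (hh : h ≠ 0)
    (hinv : (ModularGroup.S * ModularGroup.T) • h = h) :
    (3 : ℤ) ∣ WithZero.log (Wat N rhoH h) := by
  have key := zpow_log_Wat_eq_one rhoH (ModularGroup.S * ModularGroup.T) ST_smul_rhoH h hh hinv
  rw [denom_ST_inv_rhoH] at key
  have : Fact (Nat.Prime 3) := ⟨Nat.prime_three⟩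
  have hr := rhoH_sq_add
  refine dvd_of_zpow_eq_one_of_prime (p := 3) ?_ ?_ key
  · linear_combination (((rhoH : ℍ) : ℂ) ^ 3 + 1) * ((rhoH : ℂ) - 1) * hr
  · intro h1
    rw [h1] at hr
    have h2 : ((rhoH : ℍ) : ℂ) = -2 := by linear_combination hr
    have h3 := rhoH.im_pos
    have h4 : ((rhoH : ℍ) : ℂ).im = 0 := by rw [h2]; simp
    rw [UpperHalfPlane.coe_im] at h4
    exact h3.ne' h4

/-- value of `Wat` on `φ i (J - c)`. -/
theorem Wat_phi_JJ_sub {N : ℕ} [NeZero N] (τ₀ : ℍ) (c : Kb) (i : Cos N) (s : ℕ)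
    (hs : meromorphicOrderAt (fun z : ℂ => jFun (ofComplex z) - iota c) (τ₀ : ℂ) = s) :
    Wat N τ₀ (phi N i (JJ N - algebraMap Kb (FN N) c)) = WithZero.exp (-(s : ℤ)) := by
  have hev : evC N (jM N - algebraMap Kb (MerMod N) c) =
      fun z : ℂ => jFun (ofComplex z) - iota c := rfl
  have hne : jM N - algebraMap Kb (MerMod N) c ≠ 0 := by
    intro h0
    have h1 : meromorphicOrderAt (evC N (jM N - algebraMap Kb (MerMod N) c)) (τ₀ : ℂ) = ⊤ := by
      rw [h0, map_zero, meromorphicOrderAt_eq_top_iff]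
      exact Filter.Eventually.of_forall fun _ => rfl
    rw [hev, hs] at h1
    exact absurd h1 (by simp)
  have hphi : phi N i (JJ N - algebraMap Kb (FN N) c) =
      algebraMap (MerMod N) (LL N) (jM N - algebraMap Kb (MerMod N) c) := by
    rw [map_sub, map_sub, phi_JJ, AlgHom.commutes,
      ← IsScalarTower.algebraMap_apply Kb (MerMod N) (LL N)]
  rw [hphi, Wat_algebraMap τ₀ _ hne, hev, hs]
  rfl

/-- all the hypotheses of the counting lemma which do not depend on the point. -/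
theorem li_card_places (N : ℕ) [NeZero N] (c : Kb) (τ₀ : ℍ) (s : ℕ) (hs0 : 0 < s)
    (hs : meromorphicOrderAt (fun z : ℂ => jFun (ofComplex z) - iota c) (τ₀ : ℂ) = s)
    (g : SL(2, ℤ)) (hg : g • τ₀ = τ₀)
    (hdiv : ∀ (i : Cos N) (f : FN N), f ≠ 0 →
      (s : ℤ) ∣ (MulAction.period g i : ℤ) * WithZero.log (Wat N τ₀ (phi N i f))) :
    Nat.card {v : Place Kb (FN N) // 0 < v.ord (JJ N - algebraMap Kb (FN N) c)}
      = Nat.card (MulAction.orbitRel.Quotient (Subgroup.zpowers g) (Cos N)) := by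
  refine FF.card_places_eq_card_orbits (K := Kb) (F := FN N) (𝓛 := LL N) (I := Cos N)
    (G := SL(2, ℤ)) (FF.transcendental_sub_algebraMap (transcendental_JJ N) c)
    (phi N) (phi_injective N) ?_ ?_ (Wat N τ₀) (fun a ha => Wat_algebraMap_Kb τ₀ a ha) s hs0
    (fun i => Wat_phi_JJ_sub τ₀ c i s hs) g ?_ hdiv
  · intro i j
    rw [map_sub, map_sub, phi_JJ, phi_JJ, AlgHom.commutes, AlgHom.commutes]
  · rw [FF.finrank_adjoin_sub_algebraMap, finrank_FN]
  · intro i f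
    rw [phi_smul, Wat_smul τ₀ g hg]

theorem li_neg_one_smul (N : ℕ) (i : Cos N) : (-1 : SL(2, ℤ)) • i = i := by
  induction i using QuotientGroup.induction_on with
  | H γ =>
    rw [MulAction.Quotient.smul_coe, QuotientGroup.eq]
    have : (((-1 : SL(2, ℤ)) • γ)⁻¹ * γ) = -1 := by
      rw [smul_eq_mul, mul_inv_rev, mul_assoc]
      have h1 : ((-1 : SL(2, ℤ)))⁻¹ = -1 := by
        rw [inv_eq_iff_mul_eq_one]; simp
      rw [h1, neg_one_mul, mul_neg, inv_mul_cancel]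
    rw [this, CongruenceSubgroup.Gamma0_mem]
    simp

theorem li_iota_ne_zero {c : Kb} (h : c ≠ 0) : iota c ≠ 0 :=
  (map_ne_zero iota).mpr h

theorem card_places_generic (N : ℕ) [NeZero N] (c : Kb) (h0 : c ≠ 0) (h1 : c ≠ 1728) :
    Nat.card {v : Place Kb (FN N) // 0 < v.ord (JJ N - algebraMap Kb (FN N) c)}
      = Nat.card (Cos N) := by
  obtain ⟨τ₀, hτ₀⟩ := jFun_surjective (iota c)
  have hord : meromorphicOrderAt (fun z : ℂ => jFun (ofComplex z) - iota c) (τ₀ : ℂ)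
      = ((1 : ℕ) : ℤ) := by
    rw [← hτ₀]
    refine order_jFun_sub_generic τ₀ ?_ ?_
    · rw [hτ₀]; exact li_iota_ne_zero h0
    · rw [hτ₀]
      intro h
      apply h1
      apply iota.injective
      rw [h, map_ofNat]
  rw [li_card_places N c τ₀ 1 one_pos hord 1 (one_smul _ _) (fun i f _ => by simp)]
  refine Nat.card_congr (Equiv.ofBijective (fun x : Cos N =>
    (Quotient.mk'' x : MulAction.orbitRel.Quotient (Subgroup.zpowers (1 : SL(2, ℤ))) (Cos N)))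
    ⟨?_, Quotient.mk''_surjective⟩).symm
  intro x y hxy
  have := Quotient.exact' hxy
  rw [MulAction.orbitRel_apply] at this
  obtain ⟨⟨g, hg⟩, hgy⟩ := this
  rw [Subgroup.zpowers_one_eq_bot, Subgroup.mem_bot] at hg
  subst hg
  change (1 : SL(2, ℤ)) • y = x at hgy
  rw [one_smul] at hgy
  exact hgy.symm

theorem card_places_zero (N : ℕ) [NeZero N] :
    Nat.card {v : Place Kb (FN N) // 0 < v.ord (JJ N - algebraMap Kb (FN N) 0)}
      = Nat.card (MulAction.orbitRel.Quotient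
          (Subgroup.zpowers (ModularGroup.S * ModularGroup.T)) (Cos N)) := by
  have hord : meromorphicOrderAt (fun z : ℂ => jFun (ofComplex z) - iota 0) (rhoH : ℂ)
      = ((3 : ℕ) : ℤ) := by
    rw [map_zero]
    exact order_jFun_rhoH
  refine li_card_places N 0 rhoH 3 (by norm_num) hord _ ST_smul_rhoH ?_
  intro i f hf
  have hcube : (ModularGroup.S * ModularGroup.T) ^ 3 = (-1 : SL(2, ℤ)) := by decide
  have hper : MulAction.period (ModularGroup.S * ModularGroup.T) i ∣ 3 := by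
    rw [← MulAction.pow_smul_eq_iff_period_dvd, hcube, li_neg_one_smul]
  rcases (Nat.dvd_prime Nat.prime_three).mp hper with h | h
  · rw [MulAction.period_eq_one_iff] at h
    refine Dvd.dvd.mul_left ?_ _
    refine three_dvd_log_Wat_rhoH _ ((map_ne_zero _).mpr hf) ?_
    rw [← phi_smul, h]
  · rw [h]
    exact Dvd.intro _ rfl

theorem card_places_1728 (N : ℕ) [NeZero N] :
    Nat.card {v : Place Kb (FN N) // 0 < v.ord (JJ N - algebraMap Kb (FN N) 1728)}
      = Nat.card (MulAction.orbitRel.Quotient (Subgroup.zpowers ModularGroup.S) (Cos N)) := by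
  have hord : meromorphicOrderAt (fun z : ℂ => jFun (ofComplex z) - iota 1728)
      ((UpperHalfPlane.I : ℍ) : ℂ) = ((2 : ℕ) : ℤ) := by
    rw [map_ofNat]
    exact order_jFun_sub_I
  refine li_card_places N 1728 UpperHalfPlane.I 2 (by norm_num) hord _ S_smul_I ?_
  intro i f hf
  have hsq : ModularGroup.S ^ 2 = (-1 : SL(2, ℤ)) := by decide
  have hper : MulAction.period ModularGroup.S i ∣ 2 := by
    rw [← MulAction.pow_smul_eq_iff_period_dvd, hsq, li_neg_one_smul]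
  rcases (Nat.dvd_prime Nat.prime_two).mp hper with h | h
  · rw [MulAction.period_eq_one_iff] at h
    refine Dvd.dvd.mul_left ?_ _
    refine two_dvd_log_Wat_I _ ((map_ne_zero _).mpr hf) ?_
    rw [← phi_smul, h]
  · rw [h]
    exact Dvd.intro _ rfl

end Fermat.Agent.S24
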