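import Fermat.Agent.S24.Defs

/-! # S24 / Mod / package M-QD : the `q`-expansion of `Δ` is the formal product
`X * ∏ (1 - X^(n+1))^24`.

Proof: the truncated products are polynomials converging locally uniformly on the unit disc to the
cusp function of `Δ`; by Weierstrass all Taylor coefficients at `0` converge, and the coefficients
of the truncated formal products are eventually equal to those of the formal `tprod`. -/

set_option autoImplicit false

open UpperHalfPlane ModularForm Function ModularCurve Filter Topology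
open scoped Manifold MatrixGroups

noncomputable section

namespace Fermat.Agent.S24

local notation "Δ" => ModularForm.discriminant

namespace QD

/-- Weierstrass: iterated derivatives of a locally uniform limit. -/
theorem tendstoLocallyUniformlyOn_iteratedDeriv {ι : Type*} {φ : Filter ι} {U : Set ℂ}
    (hU : IsOpen U) (m : ℕ) :
    ∀ {F : ι → ℂ → ℂ} {f : ℂ → ℂ}, TendstoLocallyUniformlyOn F f φ U →
      (∀ᶠ n in φ, DifferentiableOn ℂ (F n) U) →
      TendstoLocallyUniformlyOn (fun n => iteratedDeriv m (F n)) (iteratedDeriv m f) φ U := by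
  induction m with
  | zero =>
    intro F f hf _
    simpa [iteratedDeriv_zero] using hf
  | succ m ih =>
    intro F f hf hF
    have h1 := hf.deriv hF hU
    have h2 : ∀ᶠ n in φ, DifferentiableOn ℂ ((deriv ∘ F) n) U := by
      filter_upwards [hF] with n hn
      exact hn.deriv hU
    have := ih h1 h2
    simpa [iteratedDeriv_succ'] using this

theorem iteratedDeriv_polynomial_eval (p : Polynomial ℂ) (m : ℕ) :
    iteratedDeriv m (fun x => p.eval x) = fun x => ((Polynomial.derivative^[m]) p).eval x := by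
  induction m generalizing p with
  | zero => simp
  | succ m ih =>
    rw [iteratedDeriv_succ']
    have : deriv (fun x => p.eval x) = fun x => (Polynomial.derivative p).eval x := by
      funext x; exact p.deriv
    rw [this, ih]
    simp

theorem iteratedDeriv_polynomial_eval_zero (p : Polynomial ℂ) (m : ℕ) :
    iteratedDeriv m (fun x => p.eval x) 0 = (m.factorial : ℂ) * p.coeff m := by
  rw [iteratedDeriv_polynomial_eval]
  simp only
  rw [← Polynomial.coeff_zero_eq_eval_zero, Polynomial.coeff_iterate_derivative]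
  simp [Nat.descFactorial_self]

/-- truncated formal product. -/
def deltaPoly (N : ℕ) : Polynomial ℤ :=
  Polynomial.X * (∏ i ∈ Finset.range N, (1 - Polynomial.X ^ (i + 1))) ^ 24

section formal
open scoped PowerSeries.WithPiTopology

theorem tendsto_coeff_deltaPoly (m : ℕ) :
    ∀ᶠ N in atTop, (deltaPoly N).coeff m =
      PowerSeries.coeff m (PowerSeries.X * dedekindEtaUnit) := by
  have h1 : Tendsto (fun N : ℕ => ∏ i ∈ Finset.range N, ((1 : PowerSeries ℤ) - PowerSeries.X ^ (i + 1)))
      atTop (𝓝 etaProd) :=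
    (PowerSeries.WithPiTopology.multipliable_one_sub_X_pow ℤ).hasProd.tendsto_prod_nat
  have h2 : Tendsto (fun N : ℕ => PowerSeries.X *
      (∏ i ∈ Finset.range N, ((1 : PowerSeries ℤ) - PowerSeries.X ^ (i + 1))) ^ 24)
      atTop (𝓝 (PowerSeries.X * etaProd ^ 24)) :=
    (h1.pow 24).const_mul _
  have h3 := ((PowerSeries.WithPiTopology.continuous_coeff ℤ m).tendsto _).comp h2
  rw [nhds_discrete, tendsto_pure] at h3
  filter_upwards [h3] with N hN
  have hc : ((∏ i ∈ Finset.range N, (1 - Polynomial.X ^ (i + 1)) : Polynomial ℤ) : PowerSeries ℤ)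
      = ∏ i ∈ Finset.range N, ((1 : PowerSeries ℤ) - PowerSeries.X ^ (i + 1)) := by
    rw [← Polynomial.coeToPowerSeries.ringHom_apply, map_prod]
    simp
  rw [dedekindEtaUnit, ← hN, ← Polynomial.coeff_coe]
  simp [deltaPoly, hc]

end formal

theorem tendstoLocallyUniformlyOn_const' {ι : Type*} (φ : Filter ι) (U : Set ℂ) (f : ℂ → ℂ) :
    TendstoLocallyUniformlyOn (fun (_ : ι) => f) f φ U := by
  intro u hu x _
  exact ⟨Set.univ, Filter.univ_mem, Filter.Eventually.of_forall fun _ y _ => refl_mem_uniformity hu⟩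

theorem eval_deltaPoly (N : ℕ) (q : ℂ) :
    ((deltaPoly N).map (Int.castRingHom ℂ)).eval q =
      q * (∏ i ∈ Finset.range N, (1 - q ^ (i + 1))) ^ 24 := by
  simp [deltaPoly, Polynomial.eval_prod, Polynomial.map_prod]

theorem tendstoLocallyUniformlyOn_deltaPoly :
    TendstoLocallyUniformlyOn (fun (N : ℕ) (q : ℂ) => ((deltaPoly N).map (Int.castRingHom ℂ)).eval q)
      (fun q => q * ∏' i : ℕ, (1 - q ^ (i + 1)) ^ 24) atTop (Metric.ball (0 : ℂ) 1) := by
  have h0 := multipliableLocallyUniformlyOn_one_sub_pow.hasProdLocallyUniformlyOn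
  rw [hasProdLocallyUniformlyOn_iff_tendstoLocallyUniformlyOn] at h0
  have h1 : TendstoLocallyUniformlyOn
      (fun (N : ℕ) (q : ℂ) => ∏ i ∈ Finset.range N, (1 - q ^ (i + 1)))
      (fun q => ∏' i : ℕ, (1 - q ^ (i + 1))) atTop (Metric.ball (0 : ℂ) 1) := by
    intro u hu x hx
    obtain ⟨t, ht, h⟩ := h0 u hu x hx
    exact ⟨t, ht, tendsto_finset_range.eventually h⟩
  have hc : ContinuousOn (fun q : ℂ => ∏' i : ℕ, (1 - q ^ (i + 1))) (Metric.ball (0 : ℂ) 1) :=
    differentiableOn_tprod_one_sub_pow.continuousOn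
  have h2 : ∀ k : ℕ, TendstoLocallyUniformlyOn
      (fun (N : ℕ) (q : ℂ) => (∏ i ∈ Finset.range N, (1 - q ^ (i + 1))) ^ k)
      (fun q => (∏' i : ℕ, (1 - q ^ (i + 1))) ^ k) atTop (Metric.ball (0 : ℂ) 1) := by
    intro k
    induction k with
    | zero =>
      simp only [pow_zero]
      exact tendstoLocallyUniformlyOn_const' _ _ _
    | succ k ih =>
      simp only [pow_succ]
      exact ih.fun_mul₀ h1 (hc.pow k) hc
  have h3 : TendstoLocallyUniformlyOn
      (fun (N : ℕ) (q : ℂ) => q * (∏ i ∈ Finset.range N, (1 - q ^ (i + 1))) ^ 24)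
      (fun q => q * (∏' i : ℕ, (1 - q ^ (i + 1))) ^ 24) atTop (Metric.ball (0 : ℂ) 1) :=
    (tendstoLocallyUniformlyOn_const' atTop _ (fun q : ℂ => q)).fun_mul₀ (h2 24) continuousOn_id (hc.pow 24)
  refine (h3.congr_right ?_).congr (G := _) ?_
  · intro q hq
    simp only
    rw [(multipliable_one_sub_pow (by simpa using hq)).tprod_pow 24]
  · intro N q _
    exact (eval_deltaPoly N q).symm


end QD

open QD in
theorem qExpansion_discriminant :
    qExpansion 1 Δ = PowerSeries.X * dedekindEtaUnit.map (Int.castRingHom ℂ) := by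
  ext m
  have hball : Metric.ball (0 : ℂ) 1 ∈ 𝓝 (0 : ℂ) := Metric.ball_mem_nhds _ one_pos
  -- analytic side
  have h1 := tendstoLocallyUniformlyOn_iteratedDeriv Metric.isOpen_ball m
    tendstoLocallyUniformlyOn_deltaPoly
    (Filter.Eventually.of_forall fun N => (Polynomial.differentiable _).differentiableOn)
  have h2 := h1.tendsto_at (Metric.mem_ball_self one_pos)
  simp only [iteratedDeriv_polynomial_eval_zero, Polynomial.coeff_map] at h2
  have h3 : iteratedDeriv m (fun q : ℂ => q * ∏' i : ℕ, (1 - q ^ (i + 1)) ^ 24) 0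
      = iteratedDeriv m (cuspFunction 1 Δ) 0 := by
    apply Filter.EventuallyEq.iteratedDeriv_eq
    filter_upwards [hball] with q hq
    exact (discriminant_cuspFunction_eqOn hq).symm
  rw [h3] at h2
  -- formal side
  have h4 : Tendsto (fun N : ℕ => (m.factorial : ℂ) * (Int.castRingHom ℂ) ((deltaPoly N).coeff m)) atTop
      (𝓝 ((m.factorial : ℂ) * (Int.castRingHom ℂ)
        (PowerSeries.coeff m (PowerSeries.X * dedekindEtaUnit)))) := by
    apply tendsto_const_nhds.congr'
    filter_upwards [tendsto_coeff_deltaPoly m] with N hN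
    rw [hN]
  have h5 := tendsto_nhds_unique h2 h4
  rw [qExpansion_coeff, h5]
  have hX : (PowerSeries.X : PowerSeries ℂ) * dedekindEtaUnit.map (Int.castRingHom ℂ)
      = (PowerSeries.X * dedekindEtaUnit).map (Int.castRingHom ℂ) := by
    rw [map_mul, PowerSeries.map_X]
  rw [hX, PowerSeries.coeff_map]
  have : (m.factorial : ℂ) ≠ 0 := by exact_mod_cast m.factorial_ne_zero
  field_simp

end Fermat.Agent.S24
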