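import Fermat.Agent.S24.Mod.JBasic

/-! # S24 / Mod / package M-Ram : Ramanujan's identities in the form needed:
derivatives of `E₄`, `E₆`, `j` at a point.

`D F = (2πi)⁻¹ F'` is Mathlib's `normalizedDerivOfComplex`; `serreDerivative k F = D F - k/12 E₂ F`.
Route: `serreDerivative 4 E₄ + E₆/3` is slash invariant of weight 6
(`serreDerivative_slash_invariant`), holomorphic and tends to `0` at `i∞` (q-expansion), so it is a
cusp form of weight `6 < 12` and level one, hence `0`; same for `E₆` in weight `8`;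
`D Δ = E₂ Δ` follows from `1728 Δ = E₄³ - E₆²`. -/

set_option autoImplicit false

open UpperHalfPlane ModularForm Function Filter Topology
open scoped Manifold MatrixGroups

noncomputable section

namespace Fermat.Agent.S24

local notation "Δ" => ModularForm.discriminant
local notation "𝕢" => Periodic.qParam

open Derivative

theorem IsNice.normalizedDeriv_eq {F : ℍ → ℂ} (hF : IsNice 1 F) (z : ℍ) :
    D F z = 𝕢 1 z * deriv (cuspFunction 1 F) (𝕢 1 z) := by
  have hq : ‖𝕢 1 (z : ℂ)‖ < 1 := Periodic.norm_qParam_lt_one one_pos z.im_pos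
  have hd := differentiableAt_cuspFunction one_pos hF.per hF.holo hF.bdd hq
  have hcomp : (F ∘ ofComplex) =ᶠ[𝓝 (z : ℂ)] (cuspFunction 1 F ∘ 𝕢 1) := by
    filter_upwards [isOpen_upperHalfPlaneSet.mem_nhds z.im_pos] with w hw
    have := eq_cuspFunction (⟨w, hw⟩ : ℍ) one_ne_zero hF.per
    simp only [comp_apply, ofComplex_apply_of_im_pos hw]
    exact this.symm
  have hqd : HasDerivAt (𝕢 1) (2 * Real.pi * Complex.I * 𝕢 1 (z : ℂ)) (z : ℂ) := by
    have h1 : HasDerivAt (fun w : ℂ => 2 * Real.pi * Complex.I * w / (1 : ℝ))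
        (2 * Real.pi * Complex.I) (z : ℂ) := by
      simpa using (hasDerivAt_id (z : ℂ)).const_mul (2 * Real.pi * Complex.I)
    have h2 := h1.cexp
    have h3 : (𝕢 1) = fun w : ℂ => Complex.exp (2 * Real.pi * Complex.I * w / (1 : ℝ)) := by
      funext w; rfl
    rw [h3]
    have h4 : 2 * Real.pi * Complex.I *
        (fun w : ℂ => Complex.exp (2 * Real.pi * Complex.I * w / (1 : ℝ))) (z : ℂ) =
        Complex.exp (2 * Real.pi * Complex.I * z / (1 : ℝ)) * (2 * Real.pi * Complex.I) :=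
      mul_comm _ _
    rw [h4]
    exact h2
  have := (hd.hasDerivAt.comp (z : ℂ) hqd).congr_of_eventuallyEq hcomp
  rw [normalizedDerivOfComplex, this.deriv]
  have hpi : (2 * Real.pi * Complex.I : ℂ) ≠ 0 := by
    simp [Real.pi_ne_zero]
  field_simp

theorem IsNice.isZeroAtImInfty_normalizedDeriv {F : ℍ → ℂ} (hF : IsNice 1 F) :
    IsZeroAtImInfty (D F) := by
  have han := analyticAt_cuspFunction_zero one_pos hF.per hF.holo hF.bdd
  have hc : ContinuousAt (deriv (cuspFunction 1 F)) 0 := han.deriv.continuousAt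
  have hq := qParam_tendsto_atImInfty one_pos
  have h1 := hq.mul (hc.tendsto.comp hq)
  rw [zero_mul] at h1
  exact h1.congr fun z => (hF.normalizedDeriv_eq z).symm

theorem hasSum_E2_qParam (τ : ℍ) :
    HasSum (fun m : ℕ ↦ (if m = 0 then 1 else -24 * (ArithmeticFunction.sigma 1 m : ℂ) : ℂ) •
      𝕢 1 τ ^ m) (EisensteinSeries.E2 τ) := by
  simpa only [Function.Periodic.qParam, Complex.ofReal_one, div_one] using
    EisensteinSeries.hasSum_qExpansion_E2 (z := τ)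

theorem isNice_E2 : IsNice 1 EisensteinSeries.E2 where
  per := by
    intro w
    by_cases hw : 0 < w.im
    · have hw' : 0 < (w + (1 : ℝ)).im := by simpa using hw
      simp only [comp_apply, ofComplex_apply_of_im_pos hw', ofComplex_apply_of_im_pos hw]
      have h1 := hasSum_E2_qParam ⟨w + (1 : ℝ), hw'⟩
      have h2 := hasSum_E2_qParam ⟨w, hw⟩
      have h3 : 𝕢 1 (w + (1 : ℝ)) = 𝕢 1 w := by
        simp only [Periodic.qParam, Complex.ofReal_one, div_one, mul_add, mul_one]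
        exact Complex.exp_periodic _
      simp only [h3] at h1 h2
      exact h1.unique h2
    · have hw1 : w.im ≤ 0 := not_lt.mp hw
      have hw' : (w + (1 : ℝ)).im ≤ 0 := by simpa using hw1
      simp only [comp_apply, ofComplex_apply_of_im_nonpos hw', ofComplex_apply_of_im_nonpos hw1]
  holo := E2_mdifferentiable
  bdd := EisensteinSeries.isBoundedAtImInfty_E2

theorem tendsto_E2 : Tendsto EisensteinSeries.E2 atImInfty (𝓝 1) := by
  have h := isNice_E2.tendsto_coeff_zero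
  have han := analyticAt_cuspFunction_zero one_pos isNice_E2.per isNice_E2.holo isNice_E2.bdd
  have := UpperHalfPlane.qExpansion_coeff_unique
    (ContinuousMap.mk EisensteinSeries.E2 isNice_E2.holo.continuous)
    (c := fun m : ℕ ↦ (if m = 0 then 1 else -24 * (ArithmeticFunction.sigma 1 m : ℂ) : ℂ))
    one_pos han hasSum_E2_qParam 0
  simp only [ContinuousMap.coe_mk] at this
  rw [← this] at h
  simpa using h

/-- a holomorphic level one slash invariant function of weight `< 12` vanishing at `i∞` is `0`. -/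
theorem eq_zero_of_slash_invariant_of_isZeroAtImInfty {k : ℤ} (hk : k < 12) {F : ℍ → ℂ}
    (hol : MDiff F) (hinv : ∀ γ : SL(2, ℤ), F ∣[k] γ = F) (h0 : IsZeroAtImInfty F) : F = 0 := by
  let f : CuspForm 𝒮ℒ k :=
    { toFun := F
      slash_action_eq' := by
        intro A hA
        obtain ⟨A, rfl⟩ := hA
        exact hinv A
      holo' := hol
      zero_at_cusps' := by
        intro c hc
        rw [Subgroup.IsArithmetic.isCusp_iff_isCusp_SL2Z] at hc
        rw [OnePoint.isZeroAt_iff_forall_SL2Z hc]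
        intro γ _
        rw [hinv γ]
        exact h0 }
  have hf : f = 0 := rank_zero_iff_forall_zero.mp (CuspForm.rank_eq_zero_of_weight_lt_twelve hk) f
  have : (f : ℍ → ℂ) = 0 := by rw [hf]; rfl
  exact this

theorem slash_levelOne {k : ℤ} (f : ModularForm 𝒮ℒ k) (γ : SL(2, ℤ)) :
    (f : ℍ → ℂ) ∣[k] γ = f :=
  SlashInvariantForm.slash_action_eqn f _ ⟨γ, rfl⟩

/-- Ramanujan: `D E₄ = (E₂ E₄ - E₆) / 3`. -/
theorem ramanujan_E4 (z : ℍ) :
    D (E₄ : ℍ → ℂ) z = (EisensteinSeries.E2 z * E₄ z - E₆ z) / 3 := by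
  have hinv : ∀ γ : SL(2, ℤ),
      (serreDerivative ((4 : ℤ) : ℂ) (E₄ : ℍ → ℂ) + (1 / 3 : ℂ) • (E₆ : ℍ → ℂ)) ∣[(6 : ℤ)] γ =
        serreDerivative ((4 : ℤ) : ℂ) (E₄ : ℍ → ℂ) + (1 / 3 : ℂ) • (E₆ : ℍ → ℂ) := by
    intro γ
    rw [SlashAction.add_slash, SL_smul_slash, slash_levelOne E₆ γ]
    congr 1
    exact serreDerivative_slash_invariant (k := 4) isNice_E4.holo (slash_levelOne E₄ γ)
  have hol : MDiff (serreDerivative ((4 : ℤ) : ℂ) (E₄ : ℍ → ℂ) + (1 / 3 : ℂ) • (E₆ : ℍ → ℂ)) :=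
    (serreDerivative_mdifferentiable _ isNice_E4.holo).add (isNice_E6.holo.const_smul _)
  have h0 : IsZeroAtImInfty
      (serreDerivative ((4 : ℤ) : ℂ) (E₄ : ℍ → ℂ) + (1 / 3 : ℂ) • (E₆ : ℍ → ℂ)) := by
    have h1 : Tendsto (D (E₄ : ℍ → ℂ)) atImInfty (𝓝 0) := isNice_E4.isZeroAtImInfty_normalizedDeriv
    have h2 := (h1.sub (((tendsto_const_nhds (x := (((4 : ℤ) : ℂ) * 12⁻¹))).mul tendsto_E2).mul
      tendsto_E4)).add ((tendsto_const_nhds (x := (1 / 3 : ℂ))).mul tendsto_E6)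
    have h3 : (0 - ((4 : ℤ) : ℂ) * 12⁻¹ * 1 * 1 + 1 / 3 * 1 : ℂ) = 0 := by norm_num
    rw [h3] at h2
    exact h2
  have := congrFun (eq_zero_of_slash_invariant_of_isZeroAtImInfty (by norm_num) hol hinv h0) z
  simp only [Pi.add_apply, serreDerivative_apply, Pi.smul_apply, smul_eq_mul, Pi.zero_apply] at this
  push_cast at this
  linear_combination this

/-- Ramanujan: `D E₆ = (E₂ E₆ - E₄²) / 2`. -/
theorem ramanujan_E6 (z : ℍ) :
    D (E₆ : ℍ → ℂ) z = (EisensteinSeries.E2 z * E₆ z - E₄ z ^ 2) / 2 := by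
  have hinv : ∀ γ : SL(2, ℤ),
      (serreDerivative ((6 : ℤ) : ℂ) (E₆ : ℍ → ℂ) +
        (1 / 2 : ℂ) • ((E₄ : ℍ → ℂ) * (E₄ : ℍ → ℂ))) ∣[(8 : ℤ)] γ =
        serreDerivative ((6 : ℤ) : ℂ) (E₆ : ℍ → ℂ) +
          (1 / 2 : ℂ) • ((E₄ : ℍ → ℂ) * (E₄ : ℍ → ℂ)) := by
    intro γ
    rw [SlashAction.add_slash, SL_smul_slash]
    congr 1
    · exact serreDerivative_slash_invariant (k := 6) isNice_E6.holo (slash_levelOne E₆ γ)
    · congr 1
      have := mul_slash_SL2 4 4 γ (E₄ : ℍ → ℂ) (E₄ : ℍ → ℂ)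
      rw [slash_levelOne E₄ γ] at this
      exact this
  have hol : MDiff (serreDerivative ((6 : ℤ) : ℂ) (E₆ : ℍ → ℂ) +
        (1 / 2 : ℂ) • ((E₄ : ℍ → ℂ) * (E₄ : ℍ → ℂ))) :=
    (serreDerivative_mdifferentiable _ isNice_E6.holo).add
      ((isNice_E4.holo.mul isNice_E4.holo).const_smul _)
  have h0 : IsZeroAtImInfty (serreDerivative ((6 : ℤ) : ℂ) (E₆ : ℍ → ℂ) +
        (1 / 2 : ℂ) • ((E₄ : ℍ → ℂ) * (E₄ : ℍ → ℂ))) := by
    have h1 : Tendsto (D (E₆ : ℍ → ℂ)) atImInfty (𝓝 0) := isNice_E6.isZeroAtImInfty_normalizedDeriv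
    have h2 := (h1.sub (((tendsto_const_nhds (x := (((6 : ℤ) : ℂ) * 12⁻¹))).mul tendsto_E2).mul
      tendsto_E6)).add ((tendsto_const_nhds (x := (1 / 2 : ℂ))).mul (tendsto_E4.mul tendsto_E4))
    have h3 : (0 - ((6 : ℤ) : ℂ) * 12⁻¹ * 1 * 1 + 1 / 2 * (1 * 1) : ℂ) = 0 := by norm_num
    rw [h3] at h2
    exact h2
  have := congrFun (eq_zero_of_slash_invariant_of_isZeroAtImInfty (by norm_num) hol hinv h0) z
  simp only [Pi.add_apply, serreDerivative_apply, Pi.smul_apply, smul_eq_mul, Pi.zero_apply,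
    Pi.mul_apply] at this
  push_cast at this
  linear_combination this

theorem deriv_eq_two_pi_I_mul_normalizedDeriv (F : ℍ → ℂ) (z : ℍ) :
    deriv (F ∘ ofComplex) z = 2 * Real.pi * Complex.I * D F z := by
  have hpi : (2 * Real.pi * Complex.I : ℂ) ≠ 0 := by
    simp [Real.pi_ne_zero]
  rw [normalizedDerivOfComplex]
  field_simp

theorem deriv_ne_zero_of_normalizedDeriv_ne_zero {F : ℍ → ℂ} {z : ℍ} (h : D F z ≠ 0) :
    deriv (F ∘ ofComplex) z ≠ 0 := by
  have hpi : (2 * Real.pi * Complex.I : ℂ) ≠ 0 := by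
    simp [Real.pi_ne_zero]
  rw [deriv_eq_two_pi_I_mul_normalizedDeriv]
  exact mul_ne_zero hpi h

/-- `D Δ = E₂ Δ`. -/
theorem ramanujan_discriminant (z : ℍ) : D Δ z = EisensteinSeries.E2 z * Δ z := by
  have hΔ : Δ = (1 / 1728 : ℂ) • ((E₄ : ℍ → ℂ) ^ 3 - (E₆ : ℍ → ℂ) ^ 2) := by
    funext w
    simp only [Pi.smul_apply, Pi.sub_apply, Pi.pow_apply, smul_eq_mul]
    rw [discriminant_eq_E₄_cube_sub_E₆_sq w]
    ring
  have h4 := isNice_E4.holo
  have h6 := isNice_E6.holo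
  have h1 : D Δ z = (1 / 1728 : ℂ) * (3 * E₄ z ^ 2 * D (E₄ : ℍ → ℂ) z -
      2 * E₆ z * D (E₆ : ℍ → ℂ) z) := by
    conv_lhs => rw [hΔ]
    rw [normalizedDerivOfComplex_smul _ _ ((h4.pow 3).sub (h6.pow 2)),
      normalizedDerivOfComplex_sub _ _ (h4.pow 3) (h6.pow 2),
      normalizedDerivOfComplex_pow _ _ h4, normalizedDerivOfComplex_pow _ _ h6]
    simp
  rw [h1, ramanujan_E4, ramanujan_E6, discriminant_eq_E₄_cube_sub_E₆_sq z]
  ring

/-- `Δ · D j = - E₄² E₆`. -/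
theorem discriminant_mul_normalizedDeriv_jFun (z : ℍ) :
    Δ z * D jFun z = - (E₄ z ^ 2 * E₆ z) := by
  have h4 := isNice_E4.holo
  have hΔ : MDiff Δ := isNice_discriminant_one.holo
  have hprod : Δ * jFun = (E₄ : ℍ → ℂ) ^ 3 := by
    funext w
    exact discriminant_mul_jFun w
  have h1 := congrFun (congrArg D hprod) z
  rw [normalizedDerivOfComplex_mul _ _ hΔ mdiff_jFun, normalizedDerivOfComplex_pow _ _ h4] at h1
  simp only [Pi.add_apply, Pi.mul_apply, Pi.pow_apply] at h1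
  rw [ramanujan_discriminant, ramanujan_E4] at h1
  have h2 := discriminant_mul_jFun z
  simp at h1
  linear_combination h1 - EisensteinSeries.E2 z * h2

/-- at a zero of `E₄` the derivative of `E₄` does not vanish (because `D E₄ = (E₂E₄ - E₆)/3` and
`E₄`, `E₆` have no common zero as `Δ ≠ 0`). -/
theorem deriv_E4_ne_zero_of_E4_eq_zero (τ : ℍ) (h : E₄ τ = 0) :
    deriv ((E₄ : ℍ → ℂ) ∘ ofComplex) τ ≠ 0 := by
  apply deriv_ne_zero_of_normalizedDeriv_ne_zero
  rw [ramanujan_E4, h]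
  have hΔ := discriminant_ne_zero τ
  rw [discriminant_eq_E₄_cube_sub_E₆_sq τ, h] at hΔ
  intro h0
  apply hΔ
  have h6 : E₆ τ = 0 := by linear_combination (-3 : ℂ) * h0
  rw [h6]
  norm_num

/-- at a zero of `E₆` the derivative of `E₆` does not vanish (`D E₆ = (E₂E₆ - E₄²)/2`). -/
theorem deriv_E6_ne_zero_of_E6_eq_zero (τ : ℍ) (h : E₆ τ = 0) :
    deriv ((E₆ : ℍ → ℂ) ∘ ofComplex) τ ≠ 0 := by
  apply deriv_ne_zero_of_normalizedDeriv_ne_zero
  rw [ramanujan_E6, h]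
  have hΔ := discriminant_ne_zero τ
  rw [discriminant_eq_E₄_cube_sub_E₆_sq τ, h] at hΔ
  intro h0
  apply hΔ
  have h4 : E₄ τ ^ 2 = 0 := by linear_combination (-2 : ℂ) * h0
  have h4' : E₄ τ = 0 := by simpa using h4
  rw [h4']
  norm_num

/-- `D j = - E₄² E₆ / Δ`, so `j' ≠ 0` where `E₄ E₆ ≠ 0`. -/
theorem deriv_jFun_ne_zero (τ : ℍ) (h4 : E₄ τ ≠ 0) (h6 : E₆ τ ≠ 0) :
    deriv (jFun ∘ ofComplex) τ ≠ 0 := by
  apply deriv_ne_zero_of_normalizedDeriv_ne_zero
  intro h0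
  have := discriminant_mul_normalizedDeriv_jFun τ
  rw [h0, mul_zero] at this
  have h : E₄ τ ^ 2 * E₆ τ = 0 := by linear_combination this
  exact (mul_ne_zero (pow_ne_zero 2 h4) h6) h

end Fermat.Agent.S24
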