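import Fermat.Agent.S24.Mod.Lam
import Fermat.Agent.S24.Mod.QExpJ
import Fermat.Agent.S24.Mod.Hermite
import Fermat.Prelude.Thm_UpperHalfPlane_qExpansion_coeff_nat_mul

/-! # S24 / Mod / package M-Sc : `Q`-expansion of `τ ↦ f(dτ)`, and `Lam N (j(d·)) = j(Q^(N d))`. -/

set_option autoImplicit false

open UpperHalfPlane ModularForm Function ModularCurve
open scoped Manifold MatrixGroups

noncomputable section

namespace Fermat.Agent.S24

local notation "Δ" => ModularForm.discriminant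
local notation "𝕢" => Periodic.qParam

theorem scale_im_scaleH (d : ℕ) [NeZero d] (τ : ℍ) : (scaleH d τ).im = d * τ.im := by
  have : (scaleH d τ).im = ((d : ℂ) * (τ : ℂ)).im := rfl
  rw [this]
  simp

theorem scale_scaleH_ofComplex (d : ℕ) [NeZero d] {w : ℂ} (hw : 0 < w.im) :
    scaleH d (ofComplex w) = ofComplex ((d : ℂ) * w) := by
  have hd : (0 : ℝ) < d := by exact_mod_cast Nat.pos_of_ne_zero (NeZero.ne d)
  have hw' : 0 < ((d : ℂ) * w).im := by simpa using mul_pos hd hw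
  rw [ofComplex_apply_of_im_pos hw, ofComplex_apply_of_im_pos hw']
  rfl

/-- `f(d·)` is nice of period `1/d`. -/
theorem scale_isNice_inv (d : ℕ) [NeZero d] {f : ℍ → ℂ} (hf : IsNice 1 f) :
    IsNice ((d : ℝ)⁻¹) (fun τ => f (scaleH d τ)) where
  per := by
    have hd : (d : ℂ) ≠ 0 := by exact_mod_cast NeZero.ne d
    intro w
    by_cases hw : 0 < w.im
    · have hw' : 0 < (w + ((d : ℝ)⁻¹ : ℝ)).im := by simpa using hw
      simp only [comp_apply]
      rw [scale_scaleH_ofComplex d hw, scale_scaleH_ofComplex d hw']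
      have h1 : (d : ℂ) * (w + ((d : ℝ)⁻¹ : ℝ)) = (d : ℂ) * w + (1 : ℝ) := by
        push_cast
        field_simp
      rw [h1]
      exact hf.per ((d : ℂ) * w)
    · rw [not_lt] at hw
      have hw' : (w + ((d : ℝ)⁻¹ : ℝ)).im ≤ 0 := by simpa using hw
      simp only [comp_apply]
      rw [ofComplex_apply_of_im_nonpos hw, ofComplex_apply_of_im_nonpos hw']
  holo := by
    have hd : (0 : ℝ) < d := by exact_mod_cast Nat.pos_of_ne_zero (NeZero.ne d)
    rw [UpperHalfPlane.mdifferentiable_iff]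
    have h1 := UpperHalfPlane.mdifferentiable_iff.mp hf.holo
    have h2 : DifferentiableOn ℂ ((f ∘ ofComplex) ∘ fun w : ℂ => (d : ℂ) * w) {z | 0 < z.im} := by
      refine h1.comp (by fun_prop) ?_
      intro z hz
      simpa using mul_pos hd hz
    refine h2.congr ?_
    intro z hz
    simp only [comp_apply]
    rw [scale_scaleH_ofComplex d hz]
  bdd := by
    have hd : (1 : ℝ) ≤ d := by exact_mod_cast Nat.pos_of_ne_zero (NeZero.ne d)
    obtain ⟨M, A, h⟩ := UpperHalfPlane.isBoundedAtImInfty_iff.mp hf.bdd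
    refine UpperHalfPlane.isBoundedAtImInfty_iff.mpr ⟨M, max A 0, fun z hz => h _ ?_⟩
    rw [scale_im_scaleH]
    have h0 : 0 ≤ z.im := z.im_pos.le
    calc A ≤ z.im := le_trans (le_max_left _ _) hz
      _ = 1 * z.im := (one_mul _).symm
      _ ≤ d * z.im := by gcongr

theorem scale_cast_mul_inv (N d : ℕ) [NeZero d] : (((N * d : ℕ) : ℝ)) * (d : ℝ)⁻¹ = (N : ℝ) := by
  have hd : (d : ℝ) ≠ 0 := by exact_mod_cast NeZero.ne d
  push_cast
  field_simp

theorem isNice_comp_scaleH (N d : ℕ) [NeZero N] [NeZero d] {f : ℍ → ℂ} (hf : IsNice 1 f) :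
    IsNice N (fun τ => f (scaleH d τ)) := by
  have := (scale_isNice_inv d hf).of_nat_mul (N * d)
  rwa [scale_cast_mul_inv] at this

theorem scale_qParam (d : ℕ) [NeZero d] (τ : ℍ) :
    𝕢 ((d : ℝ)⁻¹) (τ : ℂ) = 𝕢 1 (scaleH d τ : ℂ) := by
  have hd : (d : ℂ) ≠ 0 := by exact_mod_cast NeZero.ne d
  simp only [Periodic.qParam, coe_scaleH]
  congr 1
  push_cast
  field_simp

/-- type synonym carrying a `FunLike` instance (needed to apply Mathlib's uniqueness lemma). -/
def ScaleFnLike : Type := ℍ → ℂ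

instance instFunLikeScaleFnLike : FunLike ScaleFnLike ℍ ℂ where
  coe f := f
  coe_injective _ _ h := h

theorem scale_qExpansion_inv (d : ℕ) [NeZero d] {f : ℍ → ℂ} (hf : IsNice 1 f) (m : ℕ) :
    (qExpansion ((d : ℝ)⁻¹) (fun τ => f (scaleH d τ))).coeff m = (qExpansion 1 f).coeff m := by
  have hd : (0 : ℝ) < (d : ℝ)⁻¹ := by
    have : (0 : ℝ) < d := by exact_mod_cast Nat.pos_of_ne_zero (NeZero.ne d)
    positivity
  have hg := scale_isNice_inv d hf
  have han : AnalyticAt ℂ (cuspFunction ((d : ℝ)⁻¹) (fun τ => f (scaleH d τ))) 0 :=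
    analyticAt_cuspFunction_zero hd hg.per hg.holo hg.bdd
  have hsum : ∀ τ : ℍ, HasSum (fun m ↦ (qExpansion 1 f).coeff m • 𝕢 ((d : ℝ)⁻¹) (τ : ℂ) ^ m)
      (f (scaleH d τ)) := by
    intro τ
    rw [scale_qParam]
    exact hasSum_qExpansion one_pos hf.per hf.holo hf.bdd (scaleH d τ)
  exact (UpperHalfPlane.qExpansion_coeff_unique (F := ScaleFnLike)
    (show ScaleFnLike from fun τ => f (scaleH d τ)) hd han hsum m).symm

/-- `f(d·)` is `1/d`-periodic with `qExpansion (1/d) (f(d·)) = qExpansion 1 f`; then use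
`UpperHalfPlane.qExpansion_coeff_nat_mul` with `h = 1/d`, `M = N d`. -/
theorem qExpansion_comp_scaleH (N d : ℕ) [NeZero N] [NeZero d] {f : ℍ → ℂ} (hf : IsNice 1 f)
    (n : ℕ) : (qExpansion N (fun τ => f (scaleH d τ))).coeff n =
      if N * d ∣ n then (qExpansion 1 f).coeff (n / (N * d)) else 0 := by
  have hd : (0 : ℝ) < (d : ℝ)⁻¹ := by
    have : (0 : ℝ) < d := by exact_mod_cast Nat.pos_of_ne_zero (NeZero.ne d)
    positivity
  have hg := scale_isNice_inv d hf
  have hM : 0 < N * d := Nat.mul_pos (Nat.pos_of_ne_zero (NeZero.ne N))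
    (Nat.pos_of_ne_zero (NeZero.ne d))
  have := UpperHalfPlane.qExpansion_coeff_nat_mul hd hg.per hg.holo hg.bdd hM n
  rw [scale_cast_mul_inv] at this
  rw [this]
  simp only [scale_qExpansion_inv d hf]

instance instNeZeroMul (N d : ℕ) [NeZero N] [NeZero d] : NeZero (N * d) :=
  ⟨Nat.mul_ne_zero (NeZero.ne N) (NeZero.ne d)⟩

theorem ofPowerSeries_qExpansion_comp_scaleH (N d : ℕ) [NeZero N] [NeZero d] {f : ℍ → ℂ}
    (hf : IsNice 1 f) :
    HahnSeries.ofPowerSeries ℤ ℂ (qExpansion N (fun τ => f (scaleH d τ)))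
      = qExpand ℂ (N * d) (HahnSeries.ofPowerSeries ℤ ℂ (qExpansion 1 f)) := by
  have hM : 0 < N * d := Nat.mul_pos (Nat.pos_of_ne_zero (NeZero.ne N))
    (Nat.pos_of_ne_zero (NeZero.ne d))
  ext k
  by_cases hdvd : ((N * d : ℕ) : ℤ) ∣ k
  · obtain ⟨m, rfl⟩ := hdvd
    rw [qExpand_coeff_mul]
    rcases le_or_gt 0 m with hm | hm
    · lift m to ℕ using hm
      rw [HahnSeries.ofPowerSeries_apply_coeff]
      have : ((N * d : ℕ) : ℤ) * (m : ℤ) = ((N * d * m : ℕ) : ℤ) := by push_cast; ring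
      rw [this, HahnSeries.ofPowerSeries_apply_coeff, qExpansion_comp_scaleH N d hf,
        if_pos (Dvd.intro _ rfl), Nat.mul_div_cancel_left _ hM]
    · rw [ofPowerSeries_coeff_of_neg _ hm, ofPowerSeries_coeff_of_neg]
      exact mul_neg_of_pos_of_neg (by exact_mod_cast hM) hm
  · rw [qExpand_coeff_of_not_dvd _ _ hdvd]
    rcases le_or_gt 0 k with hk | hk
    · lift k to ℕ using hk
      rw [HahnSeries.ofPowerSeries_apply_coeff, qExpansion_comp_scaleH N d hf, if_neg]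
      intro h
      exact hdvd (by exact_mod_cast h)
    · exact ofPowerSeries_coeff_of_neg _ hk

/-- The key bridge between the analytic and the formal `j`. -/
theorem Lam_jD (N d : ℕ) [NeZero N] [NeZero d] (h : jD d ∈ MerInf N) :
    Lam N ⟨jD d, h⟩ = qExpand ℂ (N * d) (jqModC ℂ) := by
  have hΔ : IsNice N (fun τ => Δ (scaleH d τ)) := isNice_comp_scaleH N d isNice_discriminant_one
  have hE1 : IsNice 1 (fun τ : ℍ => (E₄ τ) ^ 3) := isNice_E4.pow 3
  have hE : IsNice N (fun τ => (E₄ (scaleH d τ)) ^ 3) := isNice_comp_scaleH N d hE1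
  obtain ⟨A, hA⟩ : ∃ A : MerInf N, A.1 = fun τ => Δ (scaleH d τ) := ⟨⟨_, hΔ.mem_MerInf⟩, rfl⟩
  obtain ⟨B, hB⟩ : ∃ B : MerInf N, B.1 = fun τ => (E₄ (scaleH d τ)) ^ 3 :=
    ⟨⟨_, hE.mem_MerInf⟩, rfl⟩
  obtain ⟨J, hJ⟩ : ∃ J : MerInf N, J = ⟨jD d, h⟩ := ⟨_, rfl⟩
  have hJ1 : J.1 = jD d := by rw [hJ]
  rw [← hJ]
  have hmul : A * J = B := by
    apply Subtype.ext
    funext τ
    have : (A * J).1 τ = A.1 τ * J.1 τ := rfl
    rw [this, hA, hB, hJ1]
    exact discriminant_mul_jFun (scaleH d τ)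
  have hLA : Lam N A = qExpand ℂ (N * d) (HahnSeries.ofPowerSeries ℤ ℂ (qExpansion 1 Δ)) := by
    rw [Lam_of_isNice N A (by rw [hA]; exact hΔ), hA]
    exact ofPowerSeries_qExpansion_comp_scaleH N d (f := Δ) isNice_discriminant_one
  have hLB : Lam N B = qExpand ℂ (N * d) (HahnSeries.ofPowerSeries ℤ ℂ (qExpansion 1 Δ)) *
      qExpand ℂ (N * d) (jqModC ℂ) := by
    rw [Lam_of_isNice N B (by rw [hB]; exact hE), hB,
      ← map_mul (qExpand ℂ (N * d)), ← ofPowerSeries_qExpansion_E4_cube]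
    exact ofPowerSeries_qExpansion_comp_scaleH N d (f := fun τ : ℍ => (E₄ τ) ^ 3) hE1
  have hA0 : Lam N A ≠ 0 := by
    intro h0
    have hA00 : A = 0 := Lam_injective N (by rw [h0, map_zero])
    have h1 : A.1 UpperHalfPlane.I = 0 := by rw [hA00]; rfl
    rw [hA] at h1
    exact discriminant_ne_zero _ h1
  have h3 : Lam N A * Lam N J = Lam N A * qExpand ℂ (N * d) (jqModC ℂ) := by
    rw [← map_mul (Lam N), hmul, hLB, ← hLA]
  exact mul_left_cancel₀ hA0 h3

end Fermat.Agent.S24
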