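import Fermat.Agent.S24.Mod.Field
import Fermat.Agent.S24.Mod.Scale
import Fermat.Prelude.Thm_ModularCurve_coeffMap_qExpand

/-! # S24 / Mod / package M-Psi : the embedding `Psi N : FN N →ₐ[ℚ̄] LL N` and its conjugates
`phi N i`, `i ∈ SL(2,ℤ)/Γ₀(N)`. -/

set_option autoImplicit false

open UpperHalfPlane ModularForm Function ModularCurve
open scoped Manifold MatrixGroups

noncomputable section

namespace Fermat.Agent.S24

/-- `FN N` is generated over `ℚ̄` by the `j(q^d)`, `d ∣ N`. -/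
theorem modularFunctionFieldBar_eq_adjoin (N : ℕ) :
    modularFunctionFieldBar N =
      IntermediateField.adjoin Kb {x | ∃ (d : ℕ) (_ : NeZero d), d ∣ N ∧ x = JdL d} := by
  apply le_antisymm
  · rw [modularFunctionFieldBar, laurentBaseChange, IntermediateField.adjoin_le_iff]
    rintro _ ⟨x, hx, rfl⟩
    change x ∈ IntermediateField.adjoin ℚ (divisorExpansions N) at hx
    induction hx using IntermediateField.adjoin_induction with
    | mem y hy =>
      obtain ⟨d, hd0, hd, rfl⟩ := hy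
      exact IntermediateField.subset_adjoin _ _ ⟨d, hd0, hd, rfl⟩
    | algebraMap c =>
      have : coeffEmb Kb (algebraMap ℚ (LaurentSeries ℚ) c) = ((c : ℚ) : LaurentSeries Kb) := by
        rw [eq_ratCast, map_ratCast]
      rw [SetLike.mem_coe, this]
      exact SubfieldClass.ratCast_mem _ c
    | add x y _ _ hx hy =>
      rw [SetLike.mem_coe] at hx hy ⊢
      rw [map_add]
      exact add_mem hx hy
    | inv x _ hx =>
      rw [SetLike.mem_coe] at hx ⊢
      rw [map_inv₀]
      exact inv_mem hx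
    | mul x y _ _ hx hy =>
      rw [SetLike.mem_coe] at hx hy ⊢
      rw [map_mul]
      exact mul_mem hx hy
  · rw [IntermediateField.adjoin_le_iff]
    rintro _ ⟨d, hd0, hd, rfl⟩
    exact JdL_mem hd

/-- (`coeffMap_qExpand`, `map_jqModC`, `qExpand_qExpand`). -/
theorem kap_Jd (N d : ℕ) [NeZero N] [NeZero d] (hd : d ∣ N) :
    kap N (Jd N d hd) = qExpand ℂ (N * d) (jqModC ℂ) := by
  rw [kap_apply]
  change qExpand ℂ N (coeffMap iota (coeffMap (algebraMap ℚ Kb) (qExpand ℚ d jq))) = _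
  rw [coeffMap_coeffMap, coeffMap_qExpand, qExpand_qExpand]
  congr 1
  exact map_jqModC (K := ℚ) (iota.comp (algebraMap ℚ Kb))

/-- the `Q`-expansion of a constant function. -/
theorem Lam_const (N : ℕ) [NeZero N] (c : ℂ) (h : (fun _ : ℍ => c) ∈ MerInf N) :
    Lam N ⟨fun _ => c, h⟩ = HahnSeries.C c := by
  rw [Lam_of_isNice N _ (IsNice.const N c)]
  have h1 : (fun _ : ℍ => c) = c • (1 : ℍ → ℂ) := by
    funext τ
    simp
  have h2 : AnalyticAt ℂ (cuspFunction (N : ℝ) (1 : ℍ → ℂ)) 0 := by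
    have hN : (0 : ℝ) < N := by exact_mod_cast Nat.pos_of_ne_zero (NeZero.ne N)
    have := IsNice.const (N : ℝ) 1
    exact analyticAt_cuspFunction_zero hN this.per this.holo this.bdd
  simp only [h1]
  rw [qExpansion_smul h2, qExpansion_one]
  have h3 : (c • (1 : PowerSeries ℂ)) = PowerSeries.C c := by
    ext n
    simp [PowerSeries.coeff_one, PowerSeries.coeff_C]
  rw [h3, HahnSeries.ofPowerSeries_C]

theorem kap_algebraMap (N : ℕ) [NeZero N] (a : Kb) :
    kap N (algebraMap Kb (FN N) a) = LamL N (algebraMap Kb (LL N) a) := by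
  rw [kap_apply, IsScalarTower.algebraMap_apply Kb (MerMod N) (LL N), LamL_algebraMap]
  have h1 : ((algebraMap Kb (FN N) a : FN N) : LaurentSeries Kb) = HahnSeries.single 0 a :=
    algebraMap_laurentSeries_eq_single Kb a
  rw [h1, coeffMap_single, qExpand_single, mul_zero]
  have h2 : LamM N (algebraMap Kb (MerMod N) a) =
      Lam N ⟨fun _ => iota a, (IsNice.const N (iota a)).mem_MerInf⟩ := rfl
  rw [h2, Lam_const]
  rfl

/-- `kap` of a generator is the `Q`-expansion of `j(d·)`. -/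
theorem kap_Jd_eq_LamL (N d : ℕ) [NeZero N] [NeZero d] (hd : d ∣ N) :
    kap N (Jd N d hd) = LamL N (algebraMap (MerMod N) (LL N) ⟨jD d, jD_mem_MerMod hd⟩) := by
  rw [kap_Jd, LamL_algebraMap]
  exact (Lam_jD N d (MerMod_le_MerInf N (jD_mem_MerMod hd))).symm

/-- every `kap N x` lies in the range of `LamL N` (subfield generated by constants and `j(Q^(Nd))`).
Then `Psi = (LamL)⁻¹ ∘ kap`. -/
theorem exists_Psi (N : ℕ) [NeZero N] :
    ∃ Ψ : FN N →ₐ[Kb] LL N, ∀ x, LamL N (Ψ x) = kap N x := by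
  have hmem : ∀ x : FN N, ∃ y : LL N, LamL N y = kap N x := by
    rintro ⟨x, hx⟩
    have hx' := hx
    rw [modularFunctionFieldBar_eq_adjoin] at hx'
    suffices H : ∃ y : LL N, LamL N y = qExpand ℂ N (coeffMap iota x) from H
    clear hx
    induction hx' using IntermediateField.adjoin_induction with
    | mem y hy =>
      obtain ⟨d, hd0, hd, rfl⟩ := hy
      exact ⟨_, (kap_Jd_eq_LamL N d hd).symm⟩
    | algebraMap c => exact ⟨_, (kap_algebraMap N c).symm⟩
    | add x y _ _ hx hy =>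
      obtain ⟨a, ha⟩ := hx
      obtain ⟨b, hb⟩ := hy
      exact ⟨a + b, by rw [map_add, map_add, map_add, ha, hb]⟩
    | inv x _ hx =>
      obtain ⟨a, ha⟩ := hx
      exact ⟨a⁻¹, by rw [map_inv₀, map_inv₀, map_inv₀, ha]⟩
    | mul x y _ _ hx hy =>
      obtain ⟨a, ha⟩ := hx
      obtain ⟨b, hb⟩ := hy
      exact ⟨a * b, by rw [map_mul, map_mul, map_mul, ha, hb]⟩
  choose Ψ hΨ using hmem
  exact ⟨{ toFun := Ψ
           map_one' := LamL_injective N (by rw [hΨ, map_one, map_one])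
           map_mul' := fun x y => LamL_injective N (by rw [hΨ, map_mul, map_mul, hΨ, hΨ])
           map_zero' := LamL_injective N (by rw [hΨ, map_zero, map_zero])
           map_add' := fun x y => LamL_injective N (by rw [hΨ, map_add, map_add, hΨ, hΨ])
           commutes' := fun a => LamL_injective N (by rw [hΨ, kap_algebraMap]) }, hΨ⟩

def Psi (N : ℕ) [NeZero N] : FN N →ₐ[Kb] LL N := (exists_Psi N).choose

theorem LamL_Psi {N : ℕ} [NeZero N] (x : FN N) : LamL N (Psi N x) = kap N x :=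
  (exists_Psi N).choose_spec x

theorem Psi_Jd (N d : ℕ) [NeZero N] [NeZero d] (hd : d ∣ N) :
    Psi N (Jd N d hd) = algebraMap (MerMod N) (LL N) ⟨jD d, jD_mem_MerMod hd⟩ :=
  LamL_injective N (by rw [LamL_Psi, kap_Jd_eq_LamL])

/-- `j` as an element of `MerMod N`. -/
def jM (N : ℕ) [NeZero N] : MerMod N := ⟨jFun, jFun_mem_MerMod N⟩

theorem Psi_JJ (N : ℕ) [NeZero N] : Psi N (JJ N) = algebraMap (MerMod N) (LL N) (jM N) := by
  rw [JJ, Psi_Jd]
  congr 1
  apply Subtype.ext
  funext τ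
  change jFun (scaleH 1 τ) = jFun τ
  congr 1
  apply UpperHalfPlane.ext
  simp

theorem smul_jM (N : ℕ) [NeZero N] (γ : SL(2, ℤ)) : γ • jM N = jM N := by
  apply Subtype.ext
  funext τ
  exact jFun_smul γ⁻¹ τ

/-- the action of `γ` on `LL N` as a `ℚ̄`-algebra homomorphism. -/
def sig (N : ℕ) [NeZero N] (γ : SL(2, ℤ)) : LL N →ₐ[Kb] LL N :=
  { MulSemiringAction.toRingHom SL(2, ℤ) (LL N) γ with
    commutes' := fun a => by
      show γ • algebraMap Kb (LL N) a = algebraMap Kb (LL N) a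
      rw [IsScalarTower.algebraMap_apply Kb (MerMod N) (LL N), smul_algebraMap_LL]
      rfl }

@[simp] theorem sig_apply {N : ℕ} [NeZero N] (γ : SL(2, ℤ)) (x : LL N) : sig N γ x = γ • x := rfl

/-- two `ℚ̄`-algebra maps out of `FN N` agreeing on all `Jd` agree. -/
theorem algHom_ext_FN {N : ℕ} {E : Type*} [Field E] [Algebra Kb E] {f g : FN N →ₐ[Kb] E}
    (h : ∀ (d : ℕ) [NeZero d] (hd : d ∣ N), f (Jd N d hd) = g (Jd N d hd)) : f = g := by
  refine IntermediateField.algHom_ext_of_eq_adjoin Kb (modularFunctionFieldBar_eq_adjoin N) ?_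
  rintro _ ⟨d, hd0, hd, rfl⟩
  exact h d hd

theorem smul_Psi_of_mem_Gamma0 {N : ℕ} [NeZero N] {γ : SL(2, ℤ)}
    (hγ : γ ∈ CongruenceSubgroup.Gamma0 N) (x : FN N) : γ • Psi N x = Psi N x := by
  have key : (sig N γ).comp (Psi N) = Psi N := by
    apply algHom_ext_FN
    intro d _ hd
    rw [AlgHom.comp_apply, sig_apply, Psi_Jd, smul_algebraMap_LL]
    congr 1
    apply Subtype.ext
    funext τ
    exact jD_smul_of_mem_Gamma0 hd (inv_mem hγ) τ
  exact DFunLike.congr_fun key x

/-- the conjugate embeddings. -/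
def phi (N : ℕ) [NeZero N] (i : Cos N) : FN N →ₐ[Kb] LL N := (sig N i.out).comp (Psi N)

theorem phi_mk {N : ℕ} [NeZero N] (γ : SL(2, ℤ)) (x : FN N) :
    phi N (γ : Cos N) x = γ • Psi N x := by
  obtain ⟨h, hh⟩ := QuotientGroup.mk_out_eq_mul (CongruenceSubgroup.Gamma0 N) γ
  rw [phi, AlgHom.comp_apply, sig_apply, hh, mul_smul, smul_Psi_of_mem_Gamma0 h.2]

theorem phi_smul {N : ℕ} [NeZero N] (g : SL(2, ℤ)) (i : Cos N) (x : FN N) :
    phi N (g • i) x = g • phi N i x := by
  induction i using QuotientGroup.induction_on with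
  | H γ =>
    have : g • (γ : Cos N) = ((g * γ : SL(2, ℤ)) : Cos N) := rfl
    rw [this, phi_mk, phi_mk, mul_smul]

theorem phi_JJ {N : ℕ} [NeZero N] (i : Cos N) :
    phi N i (JJ N) = algebraMap (MerMod N) (LL N) (jM N) := by
  rw [phi, AlgHom.comp_apply, sig_apply, Psi_JJ, smul_algebraMap_LL, smul_jM]

/-- uses `mem_Gamma0_of_jD_smul`. -/
theorem phi_injective (N : ℕ) [NeZero N] : Function.Injective (phi N) := by
  intro i i' hii
  induction i using QuotientGroup.induction_on with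
  | H γ =>
  induction i' using QuotientGroup.induction_on with
  | H γ' =>
  have h1 := DFunLike.congr_fun hii (Jd N N dvd_rfl)
  rw [phi_mk, phi_mk, Psi_Jd, smul_algebraMap_LL, smul_algebraMap_LL] at h1
  have h2 := IsFractionRing.injective (MerMod N) (LL N) h1
  rw [QuotientGroup.eq]
  apply mem_Gamma0_of_jD_smul
  intro τ
  have h3 := congrFun (congrArg Subtype.val h2) (γ' • τ)
  simp only [smul_MerMod_apply, inv_smul_smul] at h3
  rw [mul_smul]
  exact h3

end Fermat.Agent.S24
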