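import Fermat.Agent.S24.Mod.Lam
import Fermat.Prelude.Def_ModularCurve_JqCoeff

/-! # S24 / Mod : the field `LL N = Frac (MerMod N)` with its `SL(2,ℤ)`-action, the function field
`FN N`, and the two maps to `ℂ((Q))`. (definitions only; owner helper24) -/

set_option autoImplicit false

open UpperHalfPlane ModularForm Function ModularCurve
open scoped Manifold MatrixGroups

noncomputable section

namespace Fermat.Agent.S24

/-- the field of fractions of `MerMod N`. -/
abbrev LL (N : ℕ) [NeZero N] : Type := FractionRing (MerMod N)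

instance instMulSemiringActionLL (N : ℕ) [NeZero N] : MulSemiringAction SL(2, ℤ) (LL N) :=
  IsFractionRing.mulSemiringAction SL(2, ℤ) (MerMod N) (LL N)

instance instSMulDistribClassLL (N : ℕ) [NeZero N] : SMulDistribClass SL(2, ℤ) (MerMod N) (LL N) :=
  IsFractionRing.smulDistribClass SL(2, ℤ) (MerMod N) (LL N)

theorem smul_algebraMap_LL {N : ℕ} [NeZero N] (γ : SL(2, ℤ)) (f : MerMod N) :
    γ • algebraMap (MerMod N) (LL N) f = algebraMap (MerMod N) (LL N) (γ • f) :=
  (algebraMap.coe_smul' γ f (LL N)).symm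

/-- the `Q`-expansion on `LL N`. -/
def LamL (N : ℕ) [NeZero N] : LL N →+* LaurentSeries ℂ :=
  IsFractionRing.lift (LamM_injective N)

@[simp] theorem LamL_algebraMap {N : ℕ} [NeZero N] (f : MerMod N) :
    LamL N (algebraMap (MerMod N) (LL N) f) = LamM N f :=
  IsFractionRing.lift_algebraMap _ _

theorem LamL_injective (N : ℕ) [NeZero N] : Function.Injective (LamL N) :=
  (LamL N).injective

/-- the function field `ℚ̄(j(q^d) : d ∣ N) ⊆ ℚ̄((q))`. -/
abbrev FN (N : ℕ) : Type := ↥(modularFunctionFieldBar N)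

/-- `j(q^d)` as a Laurent series over `ℚ̄`. -/
def JdL (d : ℕ) [NeZero d] : LaurentSeries Kb := coeffEmb Kb (qExpand ℚ d jq)

theorem JdL_mem {N d : ℕ} [NeZero d] (hd : d ∣ N) : JdL d ∈ modularFunctionFieldBar N :=
  coeffEmb_mem_laurentBaseChange Kb (jqd_mem_full N hd)

/-- `j(q^d)` as an element of `FN N`. -/
def Jd (N d : ℕ) [NeZero d] (hd : d ∣ N) : FN N := ⟨JdL d, JdL_mem hd⟩

/-- `j(q)` as an element of `FN N`. -/
def JJ (N : ℕ) : FN N := Jd N 1 (one_dvd N)

/-- `FN N → ℂ((Q))`: embed coefficients by `iota`, substitute `q = Q^N`. -/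
def kap (N : ℕ) [NeZero N] : FN N →+* LaurentSeries ℂ :=
  (qExpand ℂ N).comp ((coeffMap iota).comp (algebraMap (FN N) (LaurentSeries Kb)))

theorem kap_apply {N : ℕ} [NeZero N] (x : FN N) :
    kap N x = qExpand ℂ N (coeffMap iota (x : LaurentSeries Kb)) := rfl

/-- the index set: left cosets of `Γ₀(N)`, with left multiplication action of `SL(2,ℤ)`. -/
abbrev Cos (N : ℕ) : Type := SL(2, ℤ) ⧸ CongruenceSubgroup.Gamma0 N

example (N : ℕ) [NeZero N] : Algebra Kb (LL N) := inferInstance
example (N : ℕ) [NeZero N] : Algebra ℂ (LL N) := inferInstance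
example (N : ℕ) [NeZero N] : IsScalarTower Kb ℂ (LL N) := inferInstance
example (N : ℕ) [NeZero N] : IsScalarTower Kb (MerMod N) (LL N) := inferInstance

end Fermat.Agent.S24
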