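import Fermat.Agent.S24.Defs

/-! # S24 / Mod / package M-JB : basic analytic facts on `jFun = E₄³/Δ` -/

set_option autoImplicit false

open UpperHalfPlane ModularForm Function Filter Topology
open scoped Manifold MatrixGroups

noncomputable section

namespace Fermat.Agent.S24

local notation "Δ" => ModularForm.discriminant
local notation "𝕢" => Periodic.qParam

theorem isNice_of_modularForm {k : ℤ} (f : ModularForm 𝒮ℒ k) : IsNice 1 (f : ℍ → ℂ) where
  per := SlashInvariantFormClass.periodic_comp_ofComplex (h := 1) f one_mem_strictPeriods_SL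
  holo := f.holo'
  bdd := ModularFormClass.bdd_at_infty f

theorem isNice_E4 : IsNice 1 (E₄ : ℍ → ℂ) := isNice_of_modularForm E₄

theorem isNice_E6 : IsNice 1 (E₆ : ℍ → ℂ) := isNice_of_modularForm E₆

theorem discriminant_mul_jFun (τ : ℍ) : Δ τ * jFun τ = (E₄ τ) ^ 3 := by
  rw [jFun, mul_div_cancel₀ _ (discriminant_ne_zero τ)]

/-- `j - 1728 = E₆²/Δ` (Mathlib: `discriminant_eq_E₄_cube_sub_E₆_sq`). -/
theorem discriminant_mul_jFun_sub (τ : ℍ) : Δ τ * (jFun τ - 1728) = (E₆ τ) ^ 2 := by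
  rw [mul_sub, discriminant_mul_jFun, discriminant_eq_E₄_cube_sub_E₆_sq]
  ring

theorem modularForm_smul {k : ℤ} (f : ModularForm 𝒮ℒ k) (γ : SL(2, ℤ)) (τ : ℍ) :
    f (γ • τ) = (denom γ τ) ^ k * f τ :=
  SlashInvariantForm.slash_action_eqn'' (Γ := 𝒮ℒ) f (γ := (γ : GL (Fin 2) ℝ))
    (MonoidHom.mem_range.mpr ⟨γ, rfl⟩) τ

theorem discriminant_smul (γ : SL(2, ℤ)) (τ : ℍ) :
    Δ (γ • τ) = (denom γ τ) ^ (12 : ℤ) * Δ τ :=
  SlashInvariantForm.slash_action_eqn'' (Γ := 𝒮ℒ) CuspForm.discriminant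
    (γ := (γ : GL (Fin 2) ℝ)) (MonoidHom.mem_range.mpr ⟨γ, rfl⟩) τ

theorem jFun_smul (γ : SL(2, ℤ)) (τ : ℍ) : jFun (γ • τ) = jFun τ := by
  have hd : (denom γ τ) ≠ 0 := denom_ne_zero _ _
  rw [jFun, jFun, modularForm_smul, discriminant_smul, mul_pow, ← zpow_natCast, ← zpow_mul]
  norm_num
  rw [mul_div_mul_left _ _ (pow_ne_zero _ hd)]

theorem mdiff_jFun : MDiff jFun :=
  (E₄.holo'.pow 3).div CuspForm.discriminant.holo' discriminant_ne_zero


/-- A nice function tends to the constant coefficient of its `q`-expansion. -/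
theorem IsNice.tendsto_coeff_zero {f : ℍ → ℂ} (hf : IsNice 1 f) :
    Tendsto f atImInfty (𝓝 ((qExpansion 1 f).coeff 0)) := by
  have h1 := analyticAt_cuspFunction_zero one_pos hf.per hf.holo hf.bdd
  have h3 : (cuspFunction 1 f ∘ fun τ : ℍ ↦ 𝕢 1 τ : ℍ → ℂ) = f := by
    funext τ
    simpa using eq_cuspFunction τ one_ne_zero hf.per
  have h4 := h1.continuousAt.tendsto.comp (qParam_tendsto_atImInfty one_pos)
  rw [h3, cuspFunction_apply_zero one_pos h1 hf.per, ← qExpansion_coeff_zero one_pos h1 hf.per] at h4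
  exact h4

theorem tendsto_E4 : Tendsto (E₄ : ℍ → ℂ) atImInfty (𝓝 1) := by
  have := isNice_E4.tendsto_coeff_zero
  rwa [EisensteinSeries.E_qExpansion_coeff_zero _ ⟨2, rfl⟩] at this

theorem tendsto_E6 : Tendsto (E₆ : ℍ → ℂ) atImInfty (𝓝 1) := by
  have := isNice_E6.tendsto_coeff_zero
  rwa [EisensteinSeries.E_qExpansion_coeff_zero _ ⟨3, rfl⟩] at this

/-- the inverse of a nowhere vanishing function `E₄³ - cΔ` as a modular form of weight `-12`. -/
def invForm (c : ℂ) (h : ∀ τ : ℍ, (E₄ τ) ^ 3 - c * Δ τ ≠ 0) : ModularForm 𝒮ℒ (-12) :=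
  have hslash : ∀ γ : SL(2, ℤ), (fun z : ℍ ↦ ((E₄ z) ^ 3 - c * Δ z)⁻¹) ∣[(-12 : ℤ)] γ =
      fun z : ℍ ↦ ((E₄ z) ^ 3 - c * Δ z)⁻¹ := by
    intro γ
    ext τ
    have hd : (denom γ τ) ≠ 0 := denom_ne_zero _ _
    rw [SL_slash_apply, modularForm_smul, discriminant_smul, mul_pow, ← zpow_natCast, ← zpow_mul]
    norm_num
    rw [show denom (γ : GL (Fin 2) ℝ) τ ^ 12 * E₄ τ ^ 3 - c * (denom (γ : GL (Fin 2) ℝ) τ ^ 12 * Δ τ)
      = denom (γ : GL (Fin 2) ℝ) τ ^ 12 * (E₄ τ ^ 3 - c * Δ τ) by ring, mul_inv, mul_comm,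
      ← mul_assoc, mul_inv_cancel₀ (pow_ne_zero _ hd), one_mul]
  { toFun := fun z ↦ ((E₄ z) ^ 3 - c * Δ z)⁻¹
    slash_action_eq' := fun _ ⟨γ, hγ⟩ ↦ hγ ▸ hslash γ
    holo' := by
      have h1 : MDiff (fun z : ℍ ↦ (E₄ z) ^ 3 - c * Δ z) :=
        (E₄.holo'.pow 3).sub (mdifferentiable_const.mul CuspForm.discriminant.holo')
      have h2 : MDiff (fun z : ℍ ↦ (1 : ℂ) / ((E₄ z) ^ 3 - c * Δ z)) :=
        mdifferentiable_const.div h1 h
      simpa using h2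
    bdd_at_cusps' := fun {d} hd ↦ by
      rw [Subgroup.IsArithmetic.isCusp_iff_isCusp_SL2Z] at hd
      rw [OnePoint.isBoundedAt_iff_forall_SL2Z hd]
      intro γ _
      rw [hslash γ, IsBoundedAtImInfty, BoundedAtFilter]
      have h1 : Tendsto (fun z : ℍ ↦ ((E₄ z) ^ 3 - c * Δ z)⁻¹) atImInfty (𝓝 ((1 ^ 3 - c * 0)⁻¹)) :=
        ((tendsto_E4.pow 3).sub (discriminant_isZeroAtImInfty.const_mul c)).inv₀ (by simp)
      exact h1.isBigO_one ℝ }

/-- surjectivity: otherwise `1/(E₄³ - cΔ)` is a modular form of weight `-12`, hence `0`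
(`ModularFormClass.levelOne_neg_weight_eq_zero`). -/
theorem jFun_surjective (c : ℂ) : ∃ τ : ℍ, jFun τ = c := by
  by_contra hcon
  push Not at hcon
  have h : ∀ τ : ℍ, (E₄ τ) ^ 3 - c * Δ τ ≠ 0 := by
    intro τ h0
    apply hcon τ
    rw [jFun, div_eq_iff (discriminant_ne_zero τ)]
    exact sub_eq_zero.mp h0
  have h0 := ModularFormClass.levelOne_neg_weight_eq_zero (by norm_num) (invForm c h)
  have h1 := congrFun h0 UpperHalfPlane.I
  exact inv_ne_zero (h UpperHalfPlane.I) h1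


/-- `ρ = e^{2πi/3}`. -/
def rhoH : ℍ := ⟨-1 / 2 + (Real.sqrt 3 / 2 : ℝ) * Complex.I, by simp⟩

theorem coe_rhoH : (rhoH : ℂ) = -1 / 2 + (Real.sqrt 3 / 2 : ℝ) * Complex.I := rfl

theorem S_smul_I : ModularGroup.S • (UpperHalfPlane.I : ℍ) = UpperHalfPlane.I := by
  rw [modular_S_smul]
  ext
  simp

theorem sqrt_three_sq : ((Real.sqrt 3 : ℝ) : ℂ) ^ 2 = 3 := by
  rw [← Complex.ofReal_pow, Real.sq_sqrt (by norm_num)]
  norm_num

/-- `w = ρ + 1` satisfies `w² - w + 1 = 0`. -/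
theorem rhoH_add_one_rel : ((rhoH : ℂ) + 1) ^ 2 - ((rhoH : ℂ) + 1) + 1 = 0 := by
  rw [coe_rhoH]
  push_cast
  linear_combination (1 / 4 * Complex.I ^ 2) * sqrt_three_sq + (3 / 4) * Complex.I_sq

theorem ST_smul_rhoH : (ModularGroup.S * ModularGroup.T) • rhoH = rhoH := by
  rw [mul_smul, modular_T_smul, modular_S_smul]
  ext
  have h := rhoH_add_one_rel
  have hne : (rhoH : ℂ) + 1 ≠ 0 := by
    intro h0
    rw [h0] at h
    norm_num at h
  have hne' : -((1 : ℂ) + (rhoH : ℂ)) ≠ 0 := by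
    rw [add_comm]; exact neg_ne_zero.mpr hne
  show (-(((1 : ℝ) +ᵥ rhoH : ℍ) : ℂ))⁻¹ = (rhoH : ℂ)
  rw [coe_vadd, Complex.ofReal_one, inv_eq_one_div, div_eq_iff hne']
  linear_combination h

theorem E6_I : E₆ (UpperHalfPlane.I : ℍ) = 0 := by
  have h := modularForm_smul E₆ ModularGroup.S UpperHalfPlane.I
  rw [S_smul_I, ModularGroup.denom_S] at h
  have h6 : ((UpperHalfPlane.I : ℍ) : ℂ) ^ (6 : ℤ) = -1 := by
    rw [UpperHalfPlane.coe_I]
    have : (6 : ℤ) = ((6 : ℕ) : ℤ) := rfl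
    rw [this, zpow_natCast, show (6 : ℕ) = 2 * 3 from rfl, pow_mul, Complex.I_sq]
    norm_num
  rw [h6] at h
  linear_combination h / 2

theorem denom_ST (τ : ℍ) : denom ((ModularGroup.S * ModularGroup.T : SL(2, ℤ)) : GL (Fin 2) ℝ) τ
    = (τ : ℂ) + 1 := by
  rw [ModularGroup.denom_apply]
  have h10 : (ModularGroup.S * ModularGroup.T : SL(2, ℤ)) 1 0 = 1 := by
    rw [Matrix.SpecialLinearGroup.coe_mul, ModularGroup.coe_S, ModularGroup.coe_T]
    simp [Matrix.mul_apply, Fin.sum_univ_two]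
  have h11 : (ModularGroup.S * ModularGroup.T : SL(2, ℤ)) 1 1 = 1 := by
    rw [Matrix.SpecialLinearGroup.coe_mul, ModularGroup.coe_S, ModularGroup.coe_T]
    simp [Matrix.mul_apply, Fin.sum_univ_two]
  rw [h10, h11]
  simp

theorem E4_rhoH : E₄ rhoH = 0 := by
  have h := modularForm_smul E₄ (ModularGroup.S * ModularGroup.T) rhoH
  rw [ST_smul_rhoH, denom_ST] at h
  have hrel := rhoH_add_one_rel
  set w : ℂ := (rhoH : ℂ) + 1 with hw
  have h4 : w ^ (4 : ℤ) = -w := by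
    have : (4 : ℤ) = ((4 : ℕ) : ℤ) := rfl
    rw [this, zpow_natCast]
    linear_combination (w ^ 2 + w) * hrel
  rw [h4] at h
  have hne : 1 + w ≠ 0 := by
    intro h0
    have hw1 : w = -1 := by linear_combination h0
    rw [hw1] at hrel
    norm_num at hrel
  have h5 : (1 + w) * E₄ rhoH = 0 := by linear_combination h
  exact (mul_eq_zero.mp h5).resolve_left hne

theorem jFun_I : jFun UpperHalfPlane.I = 1728 := by
  have h := discriminant_mul_jFun_sub UpperHalfPlane.I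
  rw [E6_I] at h
  have h2 := (mul_eq_zero.mp (h.trans (by norm_num))).resolve_left
    (discriminant_ne_zero UpperHalfPlane.I)
  exact sub_eq_zero.mp h2

theorem jFun_rhoH : jFun rhoH = 0 := by
  rw [jFun, E4_rhoH]
  simp

/-- `j(τ) q(τ) → 1` as `Im τ → ∞`. -/
theorem tendsto_jFun_mul_qParam :
    Tendsto (fun τ : ℍ => jFun τ * 𝕢 1 τ) atImInfty (𝓝 1) := by
  have h1 : Tendsto (fun τ : ℍ => (E₄ τ) ^ 3 / ∏' n : ℕ, (1 - eta_q n τ) ^ 24) atImInfty
      (𝓝 (1 ^ 3 / 1)) :=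
    (tendsto_E4.pow 3).div tendsto_atImInfty_tprod_one_sub_eta_q_pow one_ne_zero
  rw [one_pow, div_one] at h1
  refine h1.congr fun τ => ?_
  have hq : 𝕢 1 (τ : ℂ) ≠ 0 := by simp [Periodic.qParam]
  have hΔ := discriminant_ne_zero τ
  rw [jFun, discriminant_eq_q_prod] 
  rw [discriminant_eq_q_prod] at hΔ
  have hP := right_ne_zero_of_mul hΔ
  field_simp

end Fermat.Agent.S24
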