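import Fermat.Agent.S24.Defs

/-! # S24 / Mod / package M-Lam : the `q^(1/N)`-expansion ring homomorphism
`Lam N : MerInf N →+* ℂ((Q))`.

For `f ∈ MerInf N` pick `m` with `Δ^m f` nice and put
`Λ f = ofPowerSeries (qExpansion N (Δ^m f)) / ofPowerSeries (qExpansion N Δ)^m`.
Mathlib: `qExpansion_mul`, `qExpansion_add`, `qExpansion_one`, `qExpansion_eq_zero_iff`,
`analyticAt_cuspFunction_zero` (all for general functions `ℍ → ℂ` that are periodic, holomorphic,
bounded at `i∞`, i.e. `IsNice`). -/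

set_option autoImplicit false

open UpperHalfPlane ModularForm Function
open scoped Manifold MatrixGroups

noncomputable section

namespace Fermat.Agent.S24

local notation "Δ" => ModularForm.discriminant

/-- the Laurent series attached to the `q^(1/N)`-expansion of a function. -/
def lamQ (N : ℕ) (f : ℍ → ℂ) : LaurentSeries ℂ :=
  HahnSeries.ofPowerSeries ℤ ℂ (qExpansion N f)

theorem natCast_pos_of_neZero (N : ℕ) [NeZero N] : (0 : ℝ) < (N : ℝ) := by
  exact_mod_cast Nat.pos_of_ne_zero (NeZero.ne N)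

theorem IsNice.analyticAt_cusp {N : ℕ} [NeZero N] {f : ℍ → ℂ} (hf : IsNice N f) :
    AnalyticAt ℂ (cuspFunction N f) 0 :=
  analyticAt_cuspFunction_zero (natCast_pos_of_neZero N) hf.per hf.holo hf.bdd

theorem lamQ_mul {N : ℕ} [NeZero N] {f g : ℍ → ℂ} (hf : IsNice N f) (hg : IsNice N g) :
    lamQ N (f * g) = lamQ N f * lamQ N g := by
  rw [lamQ, qExpansion_mul hf.analyticAt_cusp hg.analyticAt_cusp, map_mul]; rfl

theorem lamQ_add {N : ℕ} [NeZero N] {f g : ℍ → ℂ} (hf : IsNice N f) (hg : IsNice N g) :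
    lamQ N (f + g) = lamQ N f + lamQ N g := by
  rw [lamQ, qExpansion_add hf.analyticAt_cusp hg.analyticAt_cusp, map_add]; rfl

theorem lamQ_one (N : ℕ) : lamQ N 1 = 1 := by
  rw [lamQ, qExpansion_one, map_one]

theorem lamQ_pow {N : ℕ} [NeZero N] {f : ℍ → ℂ} (hf : IsNice N f) (m : ℕ) :
    lamQ N (f ^ m) = lamQ N f ^ m := by
  induction m with
  | zero => simpa using lamQ_one N
  | succ m ih => rw [pow_succ, lamQ_mul (hf.pow m) hf, ih, pow_succ]

theorem lamQ_eq_zero_iff {N : ℕ} [NeZero N] {f : ℍ → ℂ} (hf : IsNice N f) :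
    lamQ N f = 0 ↔ f = 0 := by
  rw [lamQ, map_eq_zero_iff _ HahnSeries.ofPowerSeries_injective,
    qExpansion_eq_zero_iff (natCast_pos_of_neZero N) hf.per hf.holo hf.bdd]

theorem lamQ_discriminant_ne_zero (N : ℕ) [NeZero N] : lamQ N Δ ≠ 0 := by
  rw [Ne, lamQ_eq_zero_iff (isNice_discriminant N)]
  intro h
  exact discriminant_ne_zero UpperHalfPlane.I (congrFun h _)

/-- the value of `Lam` at `f`. -/
def lamVal (N : ℕ) (f : MerInf N) : LaurentSeries ℂ :=
  lamQ N (Δ ^ f.2.choose * f.1) * (lamQ N Δ ^ f.2.choose)⁻¹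

theorem lamVal_spec {N : ℕ} [NeZero N] (f : MerInf N) {m : ℕ} (hm : IsNice N (Δ ^ m * f.1)) :
    lamQ N Δ ^ m * lamVal N f = lamQ N (Δ ^ m * f.1) := by
  have hD := lamQ_discriminant_ne_zero N
  have h0 : IsNice N (Δ ^ f.2.choose * f.1) := f.2.choose_spec
  have hΔ := isNice_discriminant N
  have key : lamQ N Δ ^ m * lamQ N (Δ ^ f.2.choose * f.1) =
      lamQ N Δ ^ f.2.choose * lamQ N (Δ ^ m * f.1) := by
    rw [← lamQ_pow hΔ, ← lamQ_pow hΔ, ← lamQ_mul (hΔ.pow _) h0, ← lamQ_mul (hΔ.pow _) hm]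
    congr 1
    ring
  rw [lamVal, ← mul_assoc, key, mul_right_comm, mul_inv_cancel₀ (pow_ne_zero _ hD), one_mul]

theorem exists_Lam (N : ℕ) [NeZero N] : ∃ Λ : MerInf N →+* LaurentSeries ℂ,
    Function.Injective Λ ∧
    ∀ f : MerInf N, IsNice N f.1 → Λ f = HahnSeries.ofPowerSeries ℤ ℂ (qExpansion N f.1) := by
  have hD := lamQ_discriminant_ne_zero N
  have hΔ := isNice_discriminant N
  have hnice : ∀ f : MerInf N, IsNice N f.1 → lamVal N f = lamQ N f.1 := by
    intro f hf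
    have := lamVal_spec f (m := 0) (by simpa using hf)
    simpa using this
  have hex : ∀ f : MerInf N, ∃ m : ℕ, IsNice N (Δ ^ m * f.1) := fun f => f.2
  have hmul : ∀ f g : MerInf N, lamVal N (f * g) = lamVal N f * lamVal N g := by
    intro f g
    obtain ⟨m₁, h₁⟩ := hex f
    obtain ⟨m₂, h₂⟩ := hex g
    have e : Δ ^ (m₁ + m₂) * (f * g).1 = (Δ ^ m₁ * f.1) * (Δ ^ m₂ * g.1) := by
      rw [pow_add]; show _ * (f.1 * g.1) = _; ring
    have h12 : IsNice N (Δ ^ (m₁ + m₂) * (f * g).1) := by rw [e]; exact h₁.mul h₂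
    apply mul_left_cancel₀ (pow_ne_zero (m₁ + m₂) hD)
    rw [lamVal_spec _ h12, e, lamQ_mul h₁ h₂, ← lamVal_spec f h₁, ← lamVal_spec g h₂, pow_add]
    ring
  have hadd : ∀ f g : MerInf N, lamVal N (f + g) = lamVal N f + lamVal N g := by
    intro f g
    obtain ⟨m₁, h₁⟩ := hex f
    obtain ⟨m₂, h₂⟩ := hex g
    have e : Δ ^ (m₁ + m₂) * (f + g).1 = Δ ^ m₂ * (Δ ^ m₁ * f.1) + Δ ^ m₁ * (Δ ^ m₂ * g.1) := by
      rw [pow_add]; show _ * (f.1 + g.1) = _; ring
    have h12 : IsNice N (Δ ^ (m₁ + m₂) * (f + g).1) := by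
      rw [e]; exact ((hΔ.pow _).mul h₁).add ((hΔ.pow _).mul h₂)
    apply mul_left_cancel₀ (pow_ne_zero (m₁ + m₂) hD)
    rw [lamVal_spec _ h12, e, lamQ_add ((hΔ.pow _).mul h₁) ((hΔ.pow _).mul h₂),
      lamQ_mul (hΔ.pow _) h₁, lamQ_mul (hΔ.pow _) h₂, lamQ_pow hΔ, lamQ_pow hΔ,
      ← lamVal_spec f h₁, ← lamVal_spec g h₂, pow_add]
    ring
  have hone : lamVal N 1 = 1 := by
    rw [hnice 1 (IsNice.const N 1)]; exact lamQ_one N
  have hzero : lamVal N 0 = 0 := by
    have := hadd 0 0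
    rw [add_zero] at this
    exact left_eq_add.mp this
  refine ⟨{ toFun := lamVal N, map_one' := hone, map_mul' := hmul, map_zero' := hzero,
            map_add' := hadd }, ?_, fun f hf => hnice f hf⟩
  rw [injective_iff_map_eq_zero]
  intro f hf
  change lamVal N f = 0 at hf
  obtain ⟨m, hm⟩ := hex f
  have h1 := lamVal_spec f hm
  rw [hf, mul_zero, eq_comm, lamQ_eq_zero_iff hm] at h1
  apply Subtype.ext
  funext τ
  have h2 := congrFun h1 τ
  simp only [Pi.mul_apply, Pi.pow_apply, Pi.zero_apply, mul_eq_zero] at h2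
  rcases h2 with h2 | h2
  · exact absurd h2 (pow_ne_zero _ (discriminant_ne_zero τ))
  · exact h2

/-- the `Q = q^(1/N)`-expansion at `i∞`. -/
def Lam (N : ℕ) [NeZero N] : MerInf N →+* LaurentSeries ℂ := (exists_Lam N).choose

theorem Lam_injective (N : ℕ) [NeZero N] : Function.Injective (Lam N) :=
  (exists_Lam N).choose_spec.1

theorem Lam_of_isNice (N : ℕ) [NeZero N] (f : MerInf N) (hf : IsNice N f.1) :
    Lam N f = HahnSeries.ofPowerSeries ℤ ℂ (qExpansion N f.1) :=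
  (exists_Lam N).choose_spec.2 f hf

instance instIsDomainMerInf (N : ℕ) [NeZero N] : IsDomain (MerInf N) :=
  (Lam_injective N).isDomain _

instance instIsDomainMerMod (N : ℕ) [NeZero N] : IsDomain (MerMod N) :=
  (Subalgebra.inclusion_injective (MerMod_le_MerInf N)).isDomain
    (Subalgebra.inclusion (MerMod_le_MerInf N)).toRingHom

/-- restriction of `Lam` to `MerMod N`. -/
def LamM (N : ℕ) [NeZero N] : MerMod N →+* LaurentSeries ℂ :=
  (Lam N).comp (Subalgebra.inclusion (MerMod_le_MerInf N)).toRingHom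

theorem LamM_injective (N : ℕ) [NeZero N] : Function.Injective (LamM N) :=
  (Lam_injective N).comp (Subalgebra.inclusion_injective (MerMod_le_MerInf N))

end Fermat.Agent.S24
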